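/-
Hecke operators from arbitrary coset representatives, and their value on the lower unipotent
element of `Γ₀(L)` (owner: helper41, route LT piece C5).
-/
import Fermat.Agent.LR.Operators

set_option autoImplicit false

noncomputable section

namespace Fermat.Agent.LT.LevelThree

open CongruenceSubgroup
open Fermat.Agent.HK
open scoped MatrixGroups

local notation "M₂" => Matrix (Fin 2) (Fin 2) ℤ

variable {L ℓ : ℕ} [hℓ : Fact ℓ.Prime] {R : Type*} [Semiring R] {A : Type*} [AddCommGroup A]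
  [Module R A]

/-- `T_ℓ` from any family of pairwise inequivalent matrices of determinant `ℓ`. -/
theorem heckeHom_apply_eq_sum (hL : ¬ ℓ ∣ L) {ι : Type*} [Fintype ι]
    (hι : Fintype.card ι = Fintype.card (HeckeIdx L ℓ)) (β : ι → M₂)
    (hdet : ∀ i, (β i).det = ℓ) (hlow : ∀ i, (L : ℤ) ∣ β i 1 0)
    (hinj : ∀ (i i' : ι) (k : SL(2, ℤ)), (k : M₂) * β i = β i' → i = i')
    (φ : Additive (Gamma0 L) →+ A) (g : Gamma0 L) (τ : ι → ι) (c : ι → Gamma0 L)
    (h : ∀ i, ((c i : SL(2, ℤ)) : M₂) * β (τ i) = β i * ((g : SL(2, ℤ)) : M₂)) :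
    heckeHom L ℓ R A φ (Additive.ofMul g) = ∑ i, φ (Additive.ofMul (c i)) := by
  choose π u hu using fun i => exists_eq_mul_heckeMat (N := L) (p := ℓ) (hdet i) (hlow i)
    (fun hd => absurd hd hL)
  have hπ : Function.Injective π := fun i i' e => by
    refine hinj i i' ((u i' : SL(2, ℤ)) * (u i : SL(2, ℤ))⁻¹) ?_
    rw [Matrix.SpecialLinearGroup.coe_mul, Matrix.mul_assoc, ← hu i, ← Matrix.mul_assoc
      (((u i : SL(2, ℤ))⁻¹ : SL(2, ℤ)) : M₂), ← Matrix.SpecialLinearGroup.coe_mul,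
      inv_mul_cancel, Matrix.SpecialLinearGroup.coe_one, one_mul, e, hu i']
  exact heckeHom_apply_eq_of_reps
    (Equiv.ofBijective π ((Fintype.bijective_iff_injective_and_card π).2 ⟨hπ, hι⟩)) u φ g τ c
    fun i => by simpa only [Equiv.ofBijective_apply, hu] using h i

/-- `[[1, 0], [L n, 1]]`. -/
def lowerU (L : ℕ) (n : ℤ) : Gamma0 L :=
  ⟨⟨!![1, 0; (L : ℤ) * n, 1], by simp [Matrix.det_fin_two_of]⟩, Gamma0_mem.mpr (by simp)⟩

theorem coe_lowerU (L : ℕ) (n : ℤ) :
    ((lowerU L n : SL(2, ℤ)) : M₂) = !![1, 0; (L : ℤ) * n, 1] := rfl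

theorem lowerU_zero (L : ℕ) : lowerU L 0 = 1 :=
  Subtype.ext (Subtype.ext (by simp [coe_lowerU, Matrix.one_fin_two]))

theorem lowerU_add (L : ℕ) (m n : ℤ) : lowerU L (m + n) = lowerU L m * lowerU L n := by
  refine Subtype.ext (Subtype.ext ?_)
  show ((lowerU L (m + n) : SL(2, ℤ)) : M₂) = _
  rw [Subgroup.coe_mul, Matrix.SpecialLinearGroup.coe_mul, coe_lowerU, coe_lowerU, coe_lowerU]
  ext i j
  fin_cases i <;> fin_cases j <;> simp [Matrix.mul_apply, Fin.sum_univ_two, mul_add]

theorem inv_lowerU (L : ℕ) (n : ℤ) : (lowerU L n)⁻¹ = lowerU L (-n) :=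
  inv_eq_of_mul_eq_one_right (by rw [← lowerU_add, add_neg_cancel, lowerU_zero])

theorem lowerU_mul_comm (L : ℕ) (m n : ℤ) :
    lowerU L m * lowerU L n = lowerU L n * lowerU L m := by
  rw [← lowerU_add, ← lowerU_add, add_comm]

theorem hom_lowerU {B : Type*} [AddCommGroup B] (φ : Additive (Gamma0 L) →+ B) (n : ℕ) :
    φ (Additive.ofMul (lowerU L n)) = n • φ (Additive.ofMul (lowerU L 1)) := by
  induction n with
  | zero => simp [lowerU_zero]
  | succ n ih => rw [Nat.cast_succ, lowerU_add, ofMul_mul, map_add, ih, succ_nsmul]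

/-- The lower triangular representatives `[[ℓ, 0], [L j, 1]]` and `[[1, 0], [0, ℓ]]`. -/
def lowerRep (L ℓ : ℕ) : Option (Fin ℓ) → M₂
  | some j => !![(ℓ : ℤ), 0; (L : ℤ) * (j : ℕ), 1]
  | none => !![1, 0; 0, (ℓ : ℤ)]

omit hℓ in
theorem card_heckeIdx (hL : ¬ ℓ ∣ L) :
    Fintype.card (HeckeIdx L ℓ) = Fintype.card (Option (Fin ℓ)) :=
  Fintype.card_congr (Equiv.subtypeUnivEquiv fun _ h => absurd h hL)

/-- `(T_ℓ φ)(u) = (1 + ℓ) φ(u)` for `u = [[1, 0], [L, 1]]`. -/
theorem heckeHom_lowerU (hL : ¬ ℓ ∣ L) (φ : Additive (Gamma0 L) →+ A) :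
    heckeHom L ℓ R A φ (Additive.ofMul (lowerU L 1))
      = (1 + ℓ) • φ (Additive.ofMul (lowerU L 1)) := by
  classical
  have hℓ0 : 0 < ℓ := hℓ.out.pos
  have hℓ' : Prime (ℓ : ℤ) := Nat.prime_iff_prime_int.mp hℓ.out
  let last : Fin ℓ := ⟨ℓ - 1, by omega⟩
  let τ : Option (Fin ℓ) → Option (Fin ℓ)
    | some j => some (if h : (j : ℕ) + 1 < ℓ then ⟨j + 1, h⟩ else ⟨0, hℓ0⟩)
    | none => none
  let c : Option (Fin ℓ) → Gamma0 L
    | some j => if j = last then lowerU L 1 else 1
    | none => lowerU L ℓ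
  rw [heckeHom_apply_eq_sum hL (card_heckeIdx hL).symm (lowerRep L ℓ) ?_ ?_ ?_ φ
    (lowerU L 1) τ c ?_]
  · rw [Fintype.sum_option]
    show φ (Additive.ofMul (lowerU L ℓ)) + _ = _
    rw [hom_lowerU, Finset.sum_eq_single last, add_smul, one_smul, add_comm]
    · simp [c]
    · intro j _ hj
      simp [c, hj]
    · exact fun h => absurd (Finset.mem_univ _) h
  · rintro (_ | j) <;> simp [lowerRep, Matrix.det_fin_two_of]
  · rintro (_ | j) <;> simp [lowerRep]
  · intro i i' k h
    have e00 := congrFun (congrFun h 0) 0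
    have e01 := congrFun (congrFun h 0) 1
    have e10 := congrFun (congrFun h 1) 0
    have e11 := congrFun (congrFun h 1) 1
    rcases i with _ | j <;> rcases i' with _ | j' <;>
      simp [lowerRep, Matrix.mul_apply, Fin.sum_univ_two] at e00 e01 e10 e11
    · rfl
    · exact absurd (Int.eq_one_of_mul_eq_one_left (by positivity) e11)
        (by exact_mod_cast hℓ.out.ne_one)
    · rw [e01, zero_mul, add_zero] at e00
      exact absurd (Int.eq_one_of_mul_eq_one_left (by positivity) e00)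
        (by exact_mod_cast hℓ.out.ne_one)
    · rw [e11, one_mul] at e10
      have hd : (ℓ : ℤ) ∣ (L : ℤ) * ((j' : ℕ) - (j : ℕ)) :=
        ⟨(k : M₂) 1 0, by linear_combination -e10⟩
      rcases hℓ'.dvd_or_dvd hd with h1 | h1
      · exact absurd (Int.natCast_dvd_natCast.mp h1) hL
      · refine congrArg some (Fin.ext ?_)
        have := Int.eq_zero_of_abs_lt_dvd h1 (by
          have := j.isLt; have := j'.isLt
          rw [abs_lt]; constructor <;> omega)
        omega
  · rintro (_ | j)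
    · show ((lowerU L ℓ : SL(2, ℤ)) : M₂) * lowerRep L ℓ none = _
      rw [coe_lowerU, coe_lowerU]
      ext r s
      fin_cases r <;> fin_cases s <;> simp [lowerRep, Matrix.mul_apply, Fin.sum_univ_two, mul_comm]
    · show ((c (some j) : SL(2, ℤ)) : M₂) * lowerRep L ℓ (τ (some j)) = _
      by_cases hj : (j : ℕ) + 1 < ℓ
      · have hne : j ≠ last := fun h => by rw [h] at hj; simp [last] at hj; omega
        simp only [τ, c, hj, hne, dite_true, if_false, OneMemClass.coe_one,
          Matrix.SpecialLinearGroup.coe_one, one_mul]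
        rw [coe_lowerU]
        ext r s
        fin_cases r <;> fin_cases s <;> simp [lowerRep, Matrix.mul_apply, Fin.sum_univ_two, mul_add]
      · have he : j = last := Fin.ext (by have := j.isLt; simp [last]; omega)
        have hcast : ((j : ℕ) : ℤ) + 1 = ℓ := by have := j.isLt; omega
        simp only [τ, c, hj, dite_false, if_pos he]
        rw [coe_lowerU]
        ext r s
        fin_cases r <;> fin_cases s <;> simp [lowerRep, Matrix.mul_apply, Fin.sum_univ_two]
        linear_combination -(L : ℤ) * hcast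

end Fermat.Agent.LT.LevelThree
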