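/-
`T_ℓ` acts as `1 + ℓ` on parabolic elements when `ℓ ≡ 1` modulo the level, and homomorphisms on
`Γ₀(M)`, `6 ∣ M`, lift through `fCoc` (owner: helper41, route LT piece C5).
-/
import Fermat.Agent.LT.LevelThree.Reps
import Fermat.Agent.MF.ParHom.Main

set_option autoImplicit false

noncomputable section

namespace Fermat.Agent.LT.LevelThree

open CongruenceSubgroup MulAction
open Fermat.Agent.HK
open scoped MatrixGroups

local notation "M₂" => Matrix (Fin 2) (Fin 2) ℤ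

section Parabolic

variable {M ℓ : ℕ} [hℓ : Fact ℓ.Prime] {R : Type*} [Semiring R] {A : Type*} [AddCommGroup A]
  [Module R A]

theorem coe_T_zpow' (n : ℤ) : ((ModularGroup.T ^ n : SL(2, ℤ)) : M₂) = !![1, n; 0, 1] :=
  ModularGroup.coe_T_zpow n

theorem lowerLeft_conj_T_zpow (g : SL(2, ℤ)) (n : ℤ) :
    (g * ModularGroup.T ^ n * g⁻¹ : SL(2, ℤ)) 1 0 = -(n * g 1 0 * g 1 0) := by
  simp [Matrix.mul_apply, Fin.sum_univ_two, coe_T_zpow', Matrix.adjugate_fin_two]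
  ring

/-- `(T_ℓ φ)(γ) = (1 + ℓ) φ(γ)` for `γ` conjugate to a power of `T`, `ℓ ≡ 1` mod `M`. -/
theorem heckeHom_conj_T_zpow (hℓM : ¬ ℓ ∣ M) (hℓ1 : (M : ℤ) ∣ (ℓ : ℤ) - 1) (g : SL(2, ℤ))
    (n : ℤ) (γ : Gamma0 M) (hγ : (γ : SL(2, ℤ)) = g * ModularGroup.T ^ n * g⁻¹)
    (φ : Additive (Gamma0 M) →+ A) :
    heckeHom M ℓ R A φ (Additive.ofMul γ) = (1 + ℓ) • φ (Additive.ofMul γ) := by
  classical
  have hℓ0 : (ℓ : ℤ) ≠ 0 := by exact_mod_cast hℓ.out.ne_zero
  have hMℓ : (M : ZMod ℓ) ≠ 0 := by rwa [Ne, ZMod.natCast_eq_zero_iff]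
  have hn : (M : ℤ) ∣ n * g 1 0 * g 1 0 := by
    have := Gamma0.dvd_one_zero γ
    rwa [hγ, lowerLeft_conj_T_zpow, dvd_neg] at this
  -- the exponents `e` with `g T^e g⁻¹ ∈ Γ₀(M)`
  let E : AddSubgroup ℤ :=
    { carrier := {e | (M : ℤ) ∣ e * g 1 0 * g 1 0}
      zero_mem' := by simp
      add_mem' := by
        intro a b ha hb
        show (M : ℤ) ∣ (a + b) * _ * _
        rw [add_mul, add_mul]
        exact dvd_add ha hb
      neg_mem' := by
        intro a ha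
        show (M : ℤ) ∣ -a * _ * _
        rw [neg_mul, neg_mul]
        exact (dvd_neg).mpr ha }
  let el : E → Gamma0 M := fun e => ⟨g * ModularGroup.T ^ (e : ℤ) * g⁻¹, by
    rw [Gamma0_mem, ZMod.intCast_zmod_eq_zero_iff_dvd, lowerLeft_conj_T_zpow, dvd_neg]
    exact e.2⟩
  let ψ : E →+ A := AddMonoidHom.mk' (fun e => φ (Additive.ofMul (el e))) fun a b => by
    rw [← map_add, ← ofMul_mul]
    congr 2
    refine Subtype.ext ?_
    show g * ModularGroup.T ^ ((a : ℤ) + b) * g⁻¹ =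
      g * ModularGroup.T ^ (a : ℤ) * g⁻¹ * (g * ModularGroup.T ^ (b : ℤ) * g⁻¹)
    rw [zpow_add]
    group
  have hnE : n ∈ E := hn
  have hγ' : el ⟨n, hnE⟩ = γ := Subtype.ext hγ.symm
  -- the translation by `n` on the representatives `[[1, M k], [0, ℓ]]`
  let k' : ZMod ℓ → ZMod ℓ := fun k => k + (n : ZMod ℓ) / (M : ZMod ℓ)
  have hdiv : ∀ k : ZMod ℓ, (ℓ : ℤ) ∣ (M : ℤ) * k.val + n - M * (k' k).val := fun k => by
    rw [← ZMod.intCast_zmod_eq_zero_iff_dvd]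
    push_cast
    rw [ZMod.natCast_zmod_val, ZMod.natCast_zmod_val]
    simp only [k']
    rw [mul_add, mul_div_cancel₀ _ hMℓ]
    ring
  choose e he using hdiv
  have heE : ∀ k, e k ∈ E := fun k => by
    obtain ⟨c, hc⟩ := hℓ1
    obtain ⟨d, hd⟩ := hn
    refine ⟨d + ((k.val : ℤ) - ((k' k).val : ℤ) - c * e k) * g 1 0 * g 1 0, ?_⟩
    linear_combination hd - g 1 0 * g 1 0 * he k - e k * g 1 0 * g 1 0 * hc
  have heS : ∑ k, e k = n := by
    have hk' : Function.Bijective k' := (Equiv.addRight _).bijective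
    have h1 : ∑ k, ((M : ℤ) * k.val + n - M * (k' k).val) = ∑ k, (ℓ : ℤ) * e k :=
      Finset.sum_congr rfl fun k _ => he k
    rw [Finset.sum_sub_distrib, Finset.sum_add_distrib, ← Finset.mul_sum, ← Finset.mul_sum,
      ← Finset.mul_sum, Finset.sum_const, Finset.card_univ, ZMod.card,
      Fintype.sum_bijective k' hk' (fun k => (((k' k).val : ℕ) : ℤ))
        (fun k => ((k.val : ℕ) : ℤ)) fun _ => rfl, add_sub_cancel_left, nsmul_eq_mul] at h1
    exact (mul_left_cancel₀ hℓ0 h1).symm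
  let a : Option (ZMod ℓ) → M₂
    | none => !![(ℓ : ℤ), 0; 0, 1]
    | some k => !![1, (M : ℤ) * k.val; 0, (ℓ : ℤ)]
  let τ : Option (ZMod ℓ) → Option (ZMod ℓ) := Option.map k'
  let c : Option (ZMod ℓ) → Gamma0 M
    | none => el (ℓ • ⟨n, hnE⟩)
    | some k => el ⟨e k, heE k⟩
  have hg : ((g⁻¹ : SL(2, ℤ)) : M₂) * (g : M₂) = 1 := by
    rw [← Matrix.SpecialLinearGroup.coe_mul, inv_mul_cancel, Matrix.SpecialLinearGroup.coe_one]
  have hg' : (g : M₂) * ((g⁻¹ : SL(2, ℤ)) : M₂) = 1 := by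
    rw [← Matrix.SpecialLinearGroup.coe_mul, mul_inv_cancel, Matrix.SpecialLinearGroup.coe_one]
  rw [heckeHom_apply_eq_sum hℓM (ι := Option (ZMod ℓ)) ?_
    (fun i => (g : M₂) * a i * ((g⁻¹ : SL(2, ℤ)) : M₂)) ?_ ?_ ?_ φ γ τ c ?_]
  · rw [Fintype.sum_option]
    show ψ (ℓ • ⟨n, hnE⟩) + ∑ k, ψ ⟨e k, heE k⟩ = _
    have hψn : ψ ⟨n, hnE⟩ = φ (Additive.ofMul γ) :=
      congrArg (fun δ => φ (Additive.ofMul δ)) hγ'
    have hsum : ∑ k, (⟨e k, heE k⟩ : E) = ⟨n, hnE⟩ :=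
      Subtype.ext (by rw [AddSubgroup.val_finsetSum]; exact heS)
    rw [map_nsmul, ← map_sum, hsum, hψn, add_smul, one_smul, add_comm]
  · rw [card_heckeIdx hℓM, Fintype.card_option, Fintype.card_option, ZMod.card, Fintype.card_fin]
  · intro i
    rw [Matrix.det_mul, Matrix.det_mul, Matrix.SpecialLinearGroup.det_coe,
      Matrix.SpecialLinearGroup.det_coe]
    rcases i with _ | k <;> simp [a, Matrix.det_fin_two_of]
  · intro i
    refine (ZMod.intCast_zmod_eq_zero_iff_dvd _ M).mp ?_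
    have h1 : ((ℓ : ℤ) : ZMod M) = ((1 : ℤ) : ZMod M) :=
      ((ZMod.intCast_eq_intCast_iff_dvd_sub _ _ _).mpr hℓ1).symm
    have ha : (a i).map (Int.castRingHom (ZMod M)) = 1 := by
      rcases i with _ | k
      · ext r s
        fin_cases r <;> fin_cases s <;> simp [a] <;> simpa using h1
      · ext r s
        fin_cases r <;> fin_cases s <;> simp [a] <;> simpa using h1
    have := congrArg (fun X : Matrix (Fin 2) (Fin 2) (ZMod M) => X 1 0)
      (show ((g : M₂) * a i * ((g⁻¹ : SL(2, ℤ)) : M₂)).map (Int.castRingHom (ZMod M)) = 1 by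
        rw [Matrix.map_mul, Matrix.map_mul, ha, Matrix.mul_one, ← Matrix.map_mul, hg']
        exact Matrix.map_one _ (map_zero _) (map_one _))
    simpa using this
  · intro i i' k h
    have h' := congrArg (fun X => ((g⁻¹ : SL(2, ℤ)) : M₂) * X * (g : M₂)) h
    simp only [Matrix.mul_assoc, hg, mul_one] at h'
    rw [← Matrix.mul_assoc ((g⁻¹ : SL(2, ℤ)) : M₂) (g : M₂) (a i'), hg, one_mul] at h'
    obtain ⟨K, hK⟩ : ∃ K : SL(2, ℤ), (K : M₂) * a i = a i' := ⟨g⁻¹ * k * g, by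
      simpa only [Matrix.SpecialLinearGroup.coe_mul, Matrix.mul_assoc] using h'⟩
    have hkd := K.det_coe
    rw [Matrix.det_fin_two] at hkd
    have e00 := congrFun (congrFun hK 0) 0
    have e01 := congrFun (congrFun hK 0) 1
    have e10 := congrFun (congrFun hK 1) 0
    have e11 := congrFun (congrFun hK 1) 1
    rcases i with _ | j <;> rcases i' with _ | j' <;>
      simp [a, Matrix.mul_apply, Fin.sum_univ_two, -ZMod.natCast_val] at e00 e01 e10 e11
    · rfl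
    · exact absurd (Int.eq_one_of_mul_eq_one_left (by positivity) e00)
        (by exact_mod_cast hℓ.out.ne_one)
    · rw [e00, e10] at hkd
      rw [e10, zero_mul, zero_add] at e11
      exact absurd (Int.eq_one_of_mul_eq_one_left (by positivity) e11)
        (by exact_mod_cast hℓ.out.ne_one)
    · rw [e00, one_mul] at e01
      refine congrArg some ?_
      have hd : (((M : ℤ) * j.val : ℤ) : ZMod ℓ) = (((M : ℤ) * j'.val : ℤ) : ZMod ℓ) := by
        rw [← e01]; push_cast; simp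
      push_cast at hd
      rw [ZMod.natCast_zmod_val, ZMod.natCast_zmod_val] at hd
      exact mul_left_cancel₀ hMℓ hd
  · intro i
    have key : ((c i : SL(2, ℤ)) : M₂) * (g : M₂) * a (τ i)
        = (g : M₂) * a i * ((ModularGroup.T ^ n : SL(2, ℤ)) : M₂) := by
      rcases i with _ | k
      · show ((g * ModularGroup.T ^ (((ℓ • ⟨n, hnE⟩ : E)) : ℤ) * g⁻¹ : SL(2, ℤ)) : M₂) * _ * _ = _
        simp only [Matrix.SpecialLinearGroup.coe_mul, Matrix.mul_assoc]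
        rw [← Matrix.mul_assoc ((g⁻¹ : SL(2, ℤ)) : M₂) (g : M₂), hg, one_mul, coe_T_zpow',
          coe_T_zpow']
        congr 1
        ext r s
        fin_cases r <;> fin_cases s <;> simp [a, τ, Matrix.mul_apply, Fin.sum_univ_two]
      · show ((g * ModularGroup.T ^ (e k) * g⁻¹ : SL(2, ℤ)) : M₂) * _ * _ = _
        simp only [Matrix.SpecialLinearGroup.coe_mul, Matrix.mul_assoc]
        rw [← Matrix.mul_assoc ((g⁻¹ : SL(2, ℤ)) : M₂) (g : M₂), hg, one_mul, coe_T_zpow',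
          coe_T_zpow']
        congr 1
        ext r s
        fin_cases r <;> fin_cases s <;> simp [a, τ, Matrix.mul_apply, Fin.sum_univ_two, -ZMod.natCast_val]
        linear_combination -he k
    rw [hγ]
    simp only [Matrix.SpecialLinearGroup.coe_mul, Matrix.mul_assoc]
    rw [← Matrix.mul_assoc ((g⁻¹ : SL(2, ℤ)) : M₂) (g : M₂), hg, one_mul]
    have := congrArg (fun X => X * ((g⁻¹ : SL(2, ℤ)) : M₂)) key
    simpa only [Matrix.mul_assoc] using this

/-- `T_ℓ - (1 + ℓ)` kills parabolic elements, if the values have no `2`-torsion. -/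
theorem heckeHom_sub_mem_parabolicHoms (hℓM : ¬ ℓ ∣ M) (hℓ1 : (M : ℤ) ∣ (ℓ : ℤ) - 1)
    (h2 : ∀ x : A, x + x = 0 → x = 0) (φ : Additive (Gamma0 M) →+ A) :
    heckeHom M ℓ R A φ - (1 + ℓ) • φ ∈ ModularCurve.Period.parabolicHoms R (Gamma0 M) A := by
  intro γ hγ
  set ψ := heckeHom M ℓ R A φ - (1 + ℓ) • φ with hψ
  obtain ⟨g, n, h⟩ := MF.ParHom.exists_conj_T_zpow hγ
  have key : ∀ δ : Gamma0 M, (δ : SL(2, ℤ)) = g * ModularGroup.T ^ n * g⁻¹ →
      ψ (Additive.ofMul δ) = 0 := fun δ hδ => by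
    rw [hψ, AddMonoidHom.sub_apply, AddMonoidHom.smul_apply,
      heckeHom_conj_T_zpow hℓM hℓ1 g n δ hδ, sub_self]
  rcases h with h | h
  · exact key γ h
  · have hneg : (-1 : SL(2, ℤ)) ∈ Gamma0 M := by simp [Gamma0_mem]
    have h1 : ψ (Additive.ofMul ⟨-1, hneg⟩) = 0 := h2 _ (by
      rw [← map_add, ← ofMul_mul, show (⟨-1, hneg⟩ * ⟨-1, hneg⟩ : Gamma0 M) = 1 from
        Subtype.ext (by simp), ofMul_one, map_zero])
    have h' := key (⟨-1, hneg⟩ * γ) (by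
      show -1 * (γ : SL(2, ℤ)) = _
      rw [h]; simp)
    rwa [ofMul_mul, map_add, h1, zero_add] at h'

end Parabolic

section Lift

variable {M : ℕ}

/-- `Γ₀(M)`, `6 ∣ M`, has no elements with `trace² < 4`. -/
theorem four_le_trace_sq (h6 : 6 ∣ M) (γ : Gamma0 M) :
    4 ≤ ((γ : SL(2, ℤ)) : M₂).trace ^ 2 := by
  by_contra hlt
  push Not at hlt
  rw [Matrix.trace_fin_two] at hlt
  have hdet := (γ : SL(2, ℤ)).det_coe
  rw [Matrix.det_fin_two] at hdet
  have hc : (((γ : SL(2, ℤ)) 1 0 : ℤ) : ZMod 6) = 0 := by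
    rw [ZMod.intCast_zmod_eq_zero_iff_dvd]
    exact (Int.natCast_dvd_natCast.mpr h6).trans (Gamma0.dvd_one_zero γ)
  have had := congrArg (fun x : ℤ => (x : ZMod 6)) hdet
  push_cast at had
  rw [hc, mul_zero, sub_zero] at had
  obtain ⟨t, ht⟩ : ∃ t, (γ : SL(2, ℤ)) 0 0 + (γ : SL(2, ℤ)) 1 1 = t := ⟨_, rfl⟩
  rw [ht] at hlt
  have : t = -1 ∨ t = 0 ∨ t = 1 := by
    have : -2 < t ∧ t < 2 := ⟨by nlinarith, by nlinarith⟩
    omega
  have key : ∀ x y : ZMod 6, x * y = 1 → x + y ≠ 0 ∧ x + y ≠ 1 ∧ x + y ≠ -1 := by decide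
  obtain ⟨k0, k1, k2⟩ := key _ _ had
  have ht' := congrArg (fun x : ℤ => (x : ZMod 6)) ht
  push_cast at ht'
  rcases this with rfl | rfl | rfl
  · exact k2 (by simpa using ht')
  · exact k0 (by simpa using ht')
  · exact k1 (by simpa using ht')

theorem coe_eq_one_or_neg_one {h : SL(2, ℤ)}
    (hh : h ∈ Subgroup.zpowers ModularGroup.S ∨ h ∈ Subgroup.zpowers MF.ParHom.genU)
    (h4 : 4 ≤ (h : M₂).trace ^ 2) : h = 1 ∨ h = -1 := by
  rcases hh with hh | hh
  · obtain ⟨n, rfl⟩ := hh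
    have hp : (ModularGroup.S : SL(2, ℤ)) ^ 4 = 1 := by decide
    have e : ModularGroup.S ^ n = ModularGroup.S ^ (n % 4).toNat := by
      rw [← zpow_natCast, Int.toNat_of_nonneg (Int.emod_nonneg n (by norm_num))]
      exact zpow_eq_zpow_emod n (by simpa using hp)
    simp only [e] at h4 ⊢
    obtain ⟨m, hm, e'⟩ : ∃ m : ℕ, m < 4 ∧ (n % 4).toNat = m := ⟨_, by omega, rfl⟩
    rw [e'] at h4 ⊢
    interval_cases m <;> revert h4 <;> decide
  · obtain ⟨n, rfl⟩ := hh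
    have hp : MF.ParHom.genU ^ 6 = 1 := by decide
    have e : MF.ParHom.genU ^ n = MF.ParHom.genU ^ (n % 6).toNat := by
      rw [← zpow_natCast, Int.toNat_of_nonneg (Int.emod_nonneg n (by norm_num))]
      exact zpow_eq_zpow_emod n (by simpa using hp)
    simp only [e] at h4 ⊢
    obtain ⟨m, hm, e'⟩ : ∃ m : ℕ, m < 6 ∧ (n % 6).toNat = m := ⟨_, by omega, rfl⟩
    rw [e'] at h4 ⊢
    interval_cases m <;> revert h4 <;> decide

variable [NeZero M] {A : Type*} [AddCommGroup A]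

open Fermat.Agent.MF.Cosets (X0)
open Fermat.Agent.MF.ParHom (fCoc neg_one_smul_X0)

/-- The homomorphism on `Γ₀(M)` attached to `w : X₀(M) → A`. -/
def cocHom (w : X0 M → A) : Additive (Gamma0 M) →+ A :=
  AddMonoidHom.mk' (fun γ => fCoc (neg_one_smul_X0 M) w
    ((Additive.toMul γ : Gamma0 M) : SL(2, ℤ)) ((1 : SL(2, ℤ)) : X0 M)) fun a b => by
      rw [toMul_add, Subgroup.coe_mul, MF.ParHom.fCoc_isCocycle,
        show ((Additive.toMul b : Gamma0 M) : SL(2, ℤ)) • ((1 : SL(2, ℤ)) : X0 M)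
            = ((1 : SL(2, ℤ)) : X0 M) from (MF.ParHom.toStab M (Additive.toMul b)).2]

theorem cocHom_map {B : Type*} [AddCommGroup B] (L : A →+ B) (w : X0 M → A) :
    cocHom (fun x => L (w x)) = L.comp (cocHom w) :=
  AddMonoidHom.ext fun _ => MF.ParHom.fCoc_map _ L w _ _

/-- For `6 ∣ M` every homomorphism into a group without `2`-torsion comes from some `w`. -/
theorem exists_cocHom_eq (h6 : 6 ∣ M) (h2 : ∀ x : A, x + x = 0 → x = 0)
    (φ : Additive (Gamma0 M) →+ A) : ∃ w : X0 M → A, cocHom w = φ := by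
  obtain ⟨t, ht1, ht⟩ := MF.ParHom.exists_section ((1 : SL(2, ℤ)) : X0 M)
  let φ' : Additive (stabilizer SL(2, ℤ) ((1 : SL(2, ℤ)) : X0 M)) →+ A :=
    φ.comp (MonoidHom.toAdditive (MF.ParHom.ofStab M))
  have hF := MF.ParHom.homCoc_isCocycle φ' t ht
  have hloop : ∀ h : SL(2, ℤ),
      (h ∈ Subgroup.zpowers ModularGroup.S ∨ h ∈ Subgroup.zpowers MF.ParHom.genU) →
        ∀ y : X0 M, h • y = y → MF.ParHom.homCoc φ' t ht h y = 0 := by
    intro h hh y hy
    have hmem : (t y)⁻¹ * (h * t y) ∈ Gamma0 M :=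
      (MF.ParHom.ofStab M ⟨(t y)⁻¹ * (h * t y), by
        rw [mem_stabilizer_iff, mul_smul, mul_smul, ht, inv_smul_eq_iff, ht, hy]⟩).2
    have h4 : 4 ≤ (h : M₂).trace ^ 2 := by
      have := four_le_trace_sq h6 ⟨_, hmem⟩
      rwa [Matrix.SpecialLinearGroup.coe_mul, Matrix.trace_mul_comm,
        ← Matrix.SpecialLinearGroup.coe_mul, mul_assoc, mul_inv_cancel, mul_one] at this
    show φ (Additive.ofMul (MF.ParHom.ofStab M ⟨(t (h • y))⁻¹ * (h * t y), _⟩)) = 0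
    rcases coe_eq_one_or_neg_one hh h4 with rfl | rfl
    · refine (congrArg φ (congrArg Additive.ofMul (?_ : _ = (1 : Gamma0 M)))).trans (map_zero φ)
      exact Subtype.ext (show (t ((1 : SL(2, ℤ)) • y))⁻¹ * (1 * t y) = 1 by rw [hy]; simp)
    · refine h2 _ ?_
      rw [← map_add, ← ofMul_mul]
      refine (congrArg φ (congrArg Additive.ofMul (?_ : _ = (1 : Gamma0 M)))).trans (map_zero φ)
      exact Subtype.ext (show (t ((-1 : SL(2, ℤ)) • y))⁻¹ * (-1 * t y) *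
        ((t ((-1 : SL(2, ℤ)) • y))⁻¹ * (-1 * t y)) = 1 by rw [hy]; simp)
  obtain ⟨b, hb⟩ := MF.ParHom.exists_coboundary hF MF.ParHom.genU
    fun h hh => hloop h (Or.inr hh)
  obtain ⟨a, ha⟩ := MF.ParHom.exists_coboundary hF ModularGroup.S fun h hh => hloop h (Or.inl hh)
  refine ⟨fun x => b x - a x, AddMonoidHom.ext fun γ => ?_⟩
  obtain ⟨γ, rfl⟩ := Additive.ofMul.surjective γ
  have key := fun g x => hF.ext
    ((MF.ParHom.fCoc_isCocycle (neg_one_smul_X0 M) fun x => b x - a x).add_coboundary b)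
    (fun x => by rw [MF.ParHom.fCoc_S, ha]; abel) (fun x => by rw [MF.ParHom.fCoc_genU, hb]; abel)
    g x
  have hγ : (γ : SL(2, ℤ)) • ((1 : SL(2, ℤ)) : X0 M) = ((1 : SL(2, ℤ)) : X0 M) :=
    (MF.ParHom.toStab M γ).2
  have := key (γ : SL(2, ℤ)) ((1 : SL(2, ℤ)) : X0 M)
  rw [hγ, sub_self, add_zero] at this
  show fCoc _ _ (γ : SL(2, ℤ)) _ = _
  rw [← this]
  show φ (Additive.ofMul (MF.ParHom.ofStab M ⟨_, _⟩)) = _
  congr 2
  refine Subtype.ext ?_
  show (t ((γ : SL(2, ℤ)) • _))⁻¹ * ((γ : SL(2, ℤ)) * t _) = γ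
  rw [hγ, ht1, inv_one, one_mul, mul_one]

end Lift

end Fermat.Agent.LT.LevelThree
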