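/-
Lowering the power of `3` in the level of a mod `3` eigensystem in `Hom(Γ₀(M), F)`, up to a
twist by the mod `3` cyclotomic character (owner: helper41, route LT piece C5).
-/
import Fermat.Agent.LT.LevelThree.Reps
import Fermat.Agent.TW.Mod.Degen
import Mathlib.Algebra.CharP.Basic
import Mathlib.Algebra.Ring.GeomSum

set_option autoImplicit false

noncomputable section

namespace Fermat.Agent.LT.LevelThree

open CongruenceSubgroup
open Fermat.Agent.HK
open Fermat.Agent.LR (Hom1 res inclGamma0)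
open scoped MatrixGroups

local notation "M₂" => Matrix (Fin 2) (Fin 2) ℤ

/-- The system `a` of eigenvalues of the `T_ℓ`, `ℓ ∤ M`, `ℓ ∉ S`, occurs in `Hom(Γ₀(M), F)`. -/
def Occurs (M : ℕ) (F : Type*) [Field F] (S : Set ℕ) (a : ℕ → F) : Prop :=
  ∃ v : Additive (Gamma0 M) →+ F, v ≠ 0 ∧
    ∀ (ℓ : ℕ) [Fact ℓ.Prime], ¬ ℓ ∣ M → ℓ ∉ S → heckeHom M ℓ F F v = a ℓ • v

section Quotient

variable (M : ℕ)

/-- The homomorphism `Γ₀(M) → ℤ/3` with kernel `Γ₀(3M)`, for `3 ∣ M`. -/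
def tVal (g : Gamma0 M) : ZMod 3 :=
  (((g : SL(2, ℤ)) 0 0 * ((g : SL(2, ℤ)) 1 0 / M) : ℤ) : ZMod 3)

variable {M} [NeZero M]

omit [NeZero M] in
theorem lowerLeft_ediv (g : Gamma0 M) :
    (M : ℤ) * ((g : SL(2, ℤ)) 1 0 / M) = (g : SL(2, ℤ)) 1 0 :=
  Int.mul_ediv_cancel' (Gamma0.dvd_one_zero g)

omit [NeZero M] in
theorem zmod_facts (h3 : 3 ∣ M) (g : Gamma0 M) :
    ((g : SL(2, ℤ)) 0 0 : ZMod 3) * ((g : SL(2, ℤ)) 1 1 : ZMod 3) = 1 ∧
      ((g : SL(2, ℤ)) 1 0 : ZMod 3) = 0 ∧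
      ((g : SL(2, ℤ)) 0 0 : ZMod 3) * ((g : SL(2, ℤ)) 0 0 : ZMod 3) = 1 := by
  have hc : ((g : SL(2, ℤ)) 1 0 : ZMod 3) = 0 := by
    rw [ZMod.intCast_zmod_eq_zero_iff_dvd]
    exact (Int.natCast_dvd_natCast.mpr h3).trans (Gamma0.dvd_one_zero g)
  have hd : ((g : SL(2, ℤ)) 0 0 : ZMod 3) * ((g : SL(2, ℤ)) 1 1 : ZMod 3) = 1 := by
    have := congrArg (fun x : ℤ => (x : ZMod 3)) (g : SL(2, ℤ)).det_coe
    simp only [Matrix.det_fin_two] at this
    push_cast at this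
    rw [hc, mul_zero, sub_zero] at this
    exact this
  refine ⟨hd, hc, ?_⟩
  revert hd
  generalize ((g : SL(2, ℤ)) 0 0 : ZMod 3) = x
  generalize ((g : SL(2, ℤ)) 1 1 : ZMod 3) = y
  revert x y
  decide

theorem tVal_mul (h3 : 3 ∣ M) (g g' : Gamma0 M) : tVal M (g * g') = tVal M g + tVal M g' := by
  have hM : (M : ℤ) ≠ 0 := by exact_mod_cast NeZero.ne M
  have e00 : ((g * g' : Gamma0 M) : SL(2, ℤ)) 0 0 = (g : SL(2, ℤ)) 0 0 * (g' : SL(2, ℤ)) 0 0
      + (g : SL(2, ℤ)) 0 1 * (g' : SL(2, ℤ)) 1 0 := by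
    simp [Matrix.mul_apply, Fin.sum_univ_two]
  have e10 : ((g * g' : Gamma0 M) : SL(2, ℤ)) 1 0 / M
      = ((g : SL(2, ℤ)) 1 0 / M) * (g' : SL(2, ℤ)) 0 0
        + (g : SL(2, ℤ)) 1 1 * ((g' : SL(2, ℤ)) 1 0 / M) := by
    refine mul_left_cancel₀ hM ?_
    rw [lowerLeft_ediv, mul_add, ← mul_assoc, lowerLeft_ediv, mul_left_comm, lowerLeft_ediv]
    simp [Matrix.mul_apply, Fin.sum_univ_two]
  obtain ⟨hd, -, ha⟩ := zmod_facts h3 g
  obtain ⟨-, hc', ha'⟩ := zmod_facts h3 g'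
  simp only [tVal, e00, e10]
  push_cast
  rw [hc']
  generalize ((g : SL(2, ℤ)) 1 0 / M : ℤ) = x at *
  generalize ((g' : SL(2, ℤ)) 1 0 / M : ℤ) = y at *
  linear_combination ((g : SL(2, ℤ)) 0 0 : ZMod 3) * (x : ZMod 3) * ha'
    + ((g' : SL(2, ℤ)) 0 0 : ZMod 3) * (y : ZMod 3) * hd

/-- `tVal` as a homomorphism. -/
def tHom (h3 : 3 ∣ M) : Additive (Gamma0 M) →+ ZMod 3 where
  toFun g := tVal M (Additive.toMul g)
  map_zero' := by simp [tVal]
  map_add' g g' := by rw [toMul_add, tVal_mul h3]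

theorem tVal_lowerU (n : ℤ) : tVal M (lowerU M n) = n := by
  have hM : (M : ℤ) ≠ 0 := by exact_mod_cast NeZero.ne M
  simp [tVal, coe_lowerU, Int.mul_ediv_cancel_left _ hM]

theorem mem_level_iff (h3 : 3 ∣ M) (g : Gamma0 M) :
    (g : SL(2, ℤ)) ∈ Gamma0 (M * 3) ↔ tVal M g = 0 := by
  have hM : (M : ℤ) ≠ 0 := by exact_mod_cast NeZero.ne M
  rw [Gamma0_mem, ZMod.intCast_zmod_eq_zero_iff_dvd, ← lowerLeft_ediv g, tVal]
  push_cast
  rw [mul_dvd_mul_iff_left hM]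
  obtain ⟨-, -, ha⟩ := zmod_facts h3 g
  constructor
  · intro h
    rw [(ZMod.intCast_zmod_eq_zero_iff_dvd _ _).mpr h, mul_zero]
  · intro h
    refine (ZMod.intCast_zmod_eq_zero_iff_dvd _ 3).mp ?_
    linear_combination ((g : SL(2, ℤ)) 0 0 : ZMod 3) * h
      - (((g : SL(2, ℤ)) 1 0 / (M : ℤ) : ℤ) : ZMod 3) * ha

theorem tVal_inclGamma0 (h3 : 3 ∣ M) (g : Gamma0 (M * 3)) : tVal M (inclGamma0 M 3 g) = 0 :=
  (mem_level_iff h3 _).mp g.2

/-- An element of `Γ₀(M)` with `tVal = 0` in `Γ₀(3M)`. -/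
def toLevel (h3 : 3 ∣ M) (g : Gamma0 M) (h : tVal M g = 0) : Gamma0 (M * 3) :=
  ⟨g, (mem_level_iff h3 g).mpr h⟩

theorem tVal_conj (h3 : 3 ∣ M) (m : ℤ) (g : Gamma0 M) :
    tVal M (lowerU M (-m) * g * lowerU M m) = tVal M g := by
  rw [tVal_mul h3, tVal_mul h3, tVal_lowerU, tVal_lowerU]
  push_cast
  ring

/-- Conjugation `g ↦ u⁻ᵐ g uᵐ` on `Γ₀(3M)`. -/
def conjLevel (h3 : 3 ∣ M) (m : ℤ) : Gamma0 (M * 3) →* Gamma0 (M * 3) where
  toFun g := toLevel h3 (lowerU M (-m) * inclGamma0 M 3 g * lowerU M m)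
    (by rw [tVal_conj h3, tVal_inclGamma0 h3])
  map_one' := Subtype.ext (by
    show ((lowerU M (-m) * inclGamma0 M 3 1 * lowerU M m : Gamma0 M) : SL(2, ℤ)) = 1
    rw [map_one, mul_one, ← lowerU_add, neg_add_cancel, lowerU_zero, OneMemClass.coe_one])
  map_mul' g g' := Subtype.ext (by
    show ((lowerU M (-m) * inclGamma0 M 3 (g * g') * lowerU M m : Gamma0 M) : SL(2, ℤ)) =
      ((lowerU M (-m) * inclGamma0 M 3 g * lowerU M m : Gamma0 M) : SL(2, ℤ)) *
        ((lowerU M (-m) * inclGamma0 M 3 g' * lowerU M m : Gamma0 M) : SL(2, ℤ))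
    rw [← Subgroup.coe_mul, map_mul, ← inv_lowerU]
    congr 1
    group)

theorem inclGamma0_conjLevel (h3 : 3 ∣ M) (m : ℤ) (g : Gamma0 (M * 3)) :
    inclGamma0 M 3 (conjLevel h3 m g) = lowerU M (-m) * inclGamma0 M 3 g * lowerU M m :=
  Subtype.ext rfl

omit [NeZero M] in
theorem inclGamma0_injective : Function.Injective (inclGamma0 M 3) :=
  fun _ _ h => Subtype.ext (congrArg (fun z : Gamma0 M => (z : SL(2, ℤ))) h :)

theorem conjLevel_add (h3 : 3 ∣ M) (m n : ℤ) (g : Gamma0 (M * 3)) :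
    conjLevel h3 (m + n) g = conjLevel h3 n (conjLevel h3 m g) := inclGamma0_injective (by
  simp only [inclGamma0_conjLevel, neg_add, lowerU_add, lowerU_mul_comm M (-m) (-n), mul_assoc])

omit [NeZero M] in
theorem inclGamma0_lowerU (n : ℤ) : inclGamma0 M 3 (lowerU (M * 3) n) = lowerU M (3 * n) := by
  refine Subtype.ext (Subtype.ext ?_)
  show !![(1 : ℤ), 0; ((M * 3 : ℕ) : ℤ) * n, 1] = !![1, 0; (M : ℤ) * (3 * n), 1]
  push_cast
  rw [mul_assoc]

theorem conjLevel_lowerU (h3 : 3 ∣ M) (m n : ℤ) :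
    conjLevel h3 m (lowerU (M * 3) n) = lowerU (M * 3) n := inclGamma0_injective (by
  rw [inclGamma0_conjLevel, inclGamma0_lowerU, ← lowerU_add, ← lowerU_add]
  congr 1
  ring)

theorem conjLevel_three (h3 : 3 ∣ M) (g : Gamma0 (M * 3)) :
    conjLevel h3 3 g = lowerU (M * 3) (-1) * g * lowerU (M * 3) 1 := inclGamma0_injective (by
  simp only [inclGamma0_conjLevel, map_mul, inclGamma0_lowerU]
  norm_num)

end Quotient

section Operators

variable {M : ℕ} [NeZero M] (h3 : 3 ∣ M) {F : Type*} [Field F]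

/-- `φ ↦ φ(u⁻ᵐ · uᵐ)`. -/
def conjOp (m : ℤ) : Module.End F (Additive (Gamma0 (M * 3)) →+ F) where
  toFun φ := φ.comp (conjLevel h3 m).toAdditive
  map_add' _ _ := rfl
  map_smul' _ _ := rfl

theorem conjOp_apply (m : ℤ) (φ : Additive (Gamma0 (M * 3)) →+ F) (g : Gamma0 (M * 3)) :
    conjOp h3 m φ (Additive.ofMul g) = φ (Additive.ofMul (conjLevel h3 m g)) := rfl

theorem conjOp_add (m n : ℤ) :
    (conjOp h3 (m + n) : Module.End F (Additive (Gamma0 (M * 3)) →+ F))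
      = conjOp h3 n * conjOp h3 m := by
  refine LinearMap.ext fun φ => AddMonoidHom.ext fun g => ?_
  obtain ⟨g, rfl⟩ := Additive.ofMul.surjective g
  rw [Module.End.mul_apply, conjOp_apply, conjOp_apply, conjOp_apply, add_comm m n, conjLevel_add]

theorem conjOp_natCast (n : ℕ) :
    (conjOp h3 (n : ℤ) : Module.End F (Additive (Gamma0 (M * 3)) →+ F)) = conjOp h3 1 ^ n := by
  induction n with
  | zero =>
    refine LinearMap.ext fun φ => AddMonoidHom.ext fun g => ?_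
    obtain ⟨g, rfl⟩ := Additive.ofMul.surjective g
    rw [pow_zero, conjOp_apply, Nat.cast_zero]
    exact congrArg φ (congrArg Additive.ofMul (inclGamma0_injective (by
      simp [inclGamma0_conjLevel, lowerU_zero])))
  | succ n ih => rw [Nat.cast_succ, conjOp_add, ih, pow_succ']

theorem conjOp_three (φ : Additive (Gamma0 (M * 3)) →+ F) : conjOp h3 3 φ = φ := by
  refine AddMonoidHom.ext fun g => ?_
  obtain ⟨g, rfl⟩ := Additive.ofMul.surjective g
  rw [conjOp_apply, conjLevel_three, ofMul_mul, ofMul_mul, map_add, map_add, ← inv_lowerU,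
    ofMul_inv, map_neg]
  abel

/-- `T_ℓ (φ(u⁻¹ · u)) = (T_ℓ φ)(u^-ℓ · u^ℓ)`. -/
theorem heckeHom_conjOp {ℓ : ℕ} [hℓ : Fact ℓ.Prime] (hℓM : ¬ ℓ ∣ M * 3)
    (φ : Additive (Gamma0 (M * 3)) →+ F) :
    heckeHom (M * 3) ℓ F F (conjOp h3 1 φ) = conjOp h3 ℓ (heckeHom (M * 3) ℓ F F φ) := by
  refine AddMonoidHom.ext fun g => ?_
  obtain ⟨g, rfl⟩ := Additive.ofMul.surjective g
  let A : SL(2, ℤ) := lowerU M (-1)
  let B : SL(2, ℤ) := lowerU M ℓ
  let β : HeckeIdx (M * 3) ℓ → M₂ := fun i => (A : M₂) * heckeMat i * (B : M₂)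
  rw [conjOp_apply, heckeHom_apply_eq_sum hℓM (ι := HeckeIdx (M * 3) ℓ) rfl β ?_ ?_ ?_ φ
    (conjLevel h3 ℓ g) (heckeNext g) (fun i => conjLevel h3 1 (heckeCoc g i)) ?_, heckeHom_apply]
  · rfl
  · intro i
    simp [β, Matrix.det_mul, det_heckeMat]
  · intro i
    have hl : ∀ x : ℤ, (3 : ℤ) ∣ x → ((M * 3 : ℕ) : ℤ) ∣ (M : ℤ) * x := fun x hx => by
      push_cast; exact mul_dvd_mul_left _ hx
    have h3Z : (3 : ℤ) ∣ M := by exact_mod_cast h3
    induction i using HeckeIdx.cases_upper_diag with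
    | h1 j =>
      refine (?_ : _ ∣ (M : ℤ) * (-1 + ℓ * ((ℓ : ℤ) - M * (j : ℕ)))).trans (dvd_of_eq ?_)
      · refine hl _ ?_
        have : (3 : ℤ) ∣ -1 + ℓ * ℓ := by
          have h : ¬ 3 ∣ ℓ := fun h => hℓM (by
            rcases (Nat.dvd_prime hℓ.out).mp h with h | h
            · omega
            · exact h ▸ dvd_mul_left 3 M)
          rcases (by omega : (ℓ : ℤ) % 3 = 1 ∨ (ℓ : ℤ) % 3 = 2) with h' | h' <;>
          · refine Int.dvd_of_emod_eq_zero ?_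
            rw [Int.add_emod, Int.mul_emod, h']
            norm_num
        have e : -1 + (ℓ : ℤ) * ((ℓ : ℤ) - M * (j : ℕ)) = (-1 + ℓ * ℓ) - M * (ℓ * (j : ℕ)) := by
          ring
        rw [e]
        exact dvd_sub this (h3Z.mul_right _)
      · simp [β, A, B, coe_lowerU]
        ring
    | h2 h =>
      refine (?_ : _ ∣ (M : ℤ) * 0).trans (dvd_of_eq ?_)
      · simp
      · simp [β, A, B, coe_lowerU]
  · intro i i' k h
    refine heckeMat_coset_unique (k := A⁻¹ * k * A) ?_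
    have hB : (B : M₂) * ((B⁻¹ : SL(2, ℤ)) : M₂) = 1 := by
      rw [← Matrix.SpecialLinearGroup.coe_mul, mul_inv_cancel, Matrix.SpecialLinearGroup.coe_one]
    have h' := congrArg (fun X => ((A⁻¹ : SL(2, ℤ)) : M₂) * X * ((B⁻¹ : SL(2, ℤ)) : M₂)) h
    simp only [β, Matrix.mul_assoc, hB, mul_one] at h'
    rw [← Matrix.mul_assoc ((A⁻¹ : SL(2, ℤ)) : M₂) (A : M₂), ← Matrix.SpecialLinearGroup.coe_mul
      A⁻¹ A, inv_mul_cancel, Matrix.SpecialLinearGroup.coe_one, one_mul] at h'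
    simpa only [Matrix.SpecialLinearGroup.coe_mul, Matrix.mul_assoc] using h'
  · intro i
    show ((A * (heckeCoc g i : SL(2, ℤ)) * (lowerU M 1 : SL(2, ℤ)) : SL(2, ℤ)) : M₂)
        * β (heckeNext g i) = β i * ((((lowerU M (-(ℓ : ℤ)) : Gamma0 M) : SL(2, ℤ))
          * (g : SL(2, ℤ)) * B : SL(2, ℤ)) : M₂)
    have hA : ((lowerU M 1 : SL(2, ℤ)) : M₂) * (A : M₂) = 1 := by
      rw [← Matrix.SpecialLinearGroup.coe_mul, ← Subgroup.coe_mul, ← lowerU_add]
      simp [lowerU_zero]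
    have hB : (B : M₂) * ((lowerU M (-(ℓ : ℤ)) : SL(2, ℤ)) : M₂) = 1 := by
      rw [← Matrix.SpecialLinearGroup.coe_mul, ← Subgroup.coe_mul, ← lowerU_add]
      simp [lowerU_zero]
    simp only [β, Matrix.SpecialLinearGroup.coe_mul, Matrix.mul_assoc]
    rw [← Matrix.mul_assoc ((lowerU M 1 : SL(2, ℤ)) : M₂) (A : M₂), hA, one_mul,
      ← Matrix.mul_assoc (B : M₂) ((lowerU M (-(ℓ : ℤ)) : SL(2, ℤ)) : M₂), hB, one_mul,
      ← Matrix.mul_assoc ((heckeCoc g i : SL(2, ℤ)) : M₂), heckeCoc_mul_heckeMat, Matrix.mul_assoc]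

/-- A homomorphism on `Γ₀(3M)` invariant under `u` and killing `u³` extends to `Γ₀(M)`. -/
theorem exists_extension (w : Additive (Gamma0 (M * 3)) →+ F) (hw : conjOp h3 1 w = w)
    (h0 : w (Additive.ofMul (lowerU (M * 3) 1)) = 0) :
    ∃ w' : Hom1 M F, res M 3 w' = w := by
  have hinv : ∀ (n : ℕ) g, w (Additive.ofMul (conjLevel h3 n g)) = w (Additive.ofMul g) := by
    intro n g
    rw [← conjOp_apply, conjOp_natCast]
    congr 1
    induction n with
    | zero => rw [pow_zero, Module.End.one_apply]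
    | succ n ih => rw [pow_succ, Module.End.mul_apply, hw, ih]
  have hU : ∀ n : ℕ, w (Additive.ofMul (lowerU (M * 3) n)) = 0 := fun n => by
    rw [hom_lowerU, h0, smul_zero]
  let e : Gamma0 M → ℕ := fun g => (tVal M g).val
  let r : Gamma0 M → Gamma0 (M * 3) := fun g => toLevel h3 (g * lowerU M (-(e g : ℤ))) (by
    rw [tVal_mul h3, tVal_lowerU]
    simp [e])
  refine ⟨{ toFun := fun g => w (Additive.ofMul (r (Additive.toMul g)))
            map_zero' := ?_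
            map_add' := ?_ }, ?_⟩
  · have : r 1 = 1 := inclGamma0_injective (Subtype.ext (by
      show ((1 * lowerU M (-(e 1 : ℤ)) : Gamma0 M) : SL(2, ℤ)) = (1 : SL(2, ℤ))
      simp [e, tVal, lowerU_zero]))
    rw [toMul_zero, this, ofMul_one, map_zero]
  · intro g g'
    obtain ⟨g, rfl⟩ := Additive.ofMul.surjective g
    obtain ⟨g', rfl⟩ := Additive.ofMul.surjective g'
    rw [toMul_add, toMul_ofMul, toMul_ofMul]
    have he : e (g * g') = (e g + e g') % 3 := by simp [e, tVal_mul h3, ZMod.val_add]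
    have hsum := Nat.div_add_mod (e g + e g') 3
    have hr : r (g * g') = r g * conjLevel h3 (-(e g : ℤ)) (r g') *
        lowerU (M * 3) ((e g + e g') / 3 : ℕ) := inclGamma0_injective (by
      rw [map_mul, map_mul, inclGamma0_conjLevel, inclGamma0_lowerU]
      show g * g' * lowerU M (-(e (g * g') : ℤ)) = g * lowerU M (-(e g : ℤ)) *
        (lowerU M (- -(e g : ℤ)) * (g' * lowerU M (-(e g' : ℤ))) * lowerU M (-(e g : ℤ))) * _
      simp only [mul_assoc, ← lowerU_add]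
      rw [← mul_assoc (lowerU M (-(e g : ℤ))) (lowerU M (- -(e g : ℤ))), ← lowerU_add,
        add_neg_cancel, lowerU_zero, one_mul]
      congr 3
      omega)
    have hneg : w (Additive.ofMul (conjLevel h3 (-(e g : ℤ)) (r g')))
        = w (Additive.ofMul (r g')) := by
      rw [← hinv (e g), ← conjLevel_add, neg_add_cancel]
      exact congrArg _ (congrArg _ (inclGamma0_injective (by
        simp [inclGamma0_conjLevel, lowerU_zero])))
    rw [hr, ofMul_mul, ofMul_mul, map_add, map_add, hneg, hU, add_zero]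
  · refine AddMonoidHom.ext fun g => ?_
    obtain ⟨g, rfl⟩ := Additive.ofMul.surjective g
    show w (Additive.ofMul (r (inclGamma0 M 3 g))) = _
    refine congrArg _ (congrArg _ (inclGamma0_injective (Subtype.ext ?_)))
    show ((inclGamma0 M 3 g * lowerU M (-(e _ : ℤ)) : Gamma0 M) : SL(2, ℤ)) = _
    simp [e, tVal_inclGamma0 h3, lowerU_zero]

variable {h3} [CharP F 3]

theorem diffOp_cube (φ : Additive (Gamma0 (M * 3)) →+ F) :
    ((conjOp h3 1 - 1 : Module.End F (Additive (Gamma0 (M * 3)) →+ F)) ^ 3) φ = 0 := by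
  have hc : (3 : F) = 0 := by exact_mod_cast CharP.cast_eq_zero F 3
  have h : conjOp h3 1 (conjOp h3 1 (conjOp h3 1 φ)) = φ := by
    rw [← Module.End.mul_apply, ← conjOp_add, ← Module.End.mul_apply, ← conjOp_add]
    exact conjOp_three h3 φ
  refine AddMonoidHom.ext fun g => ?_
  simp only [pow_succ, pow_zero, one_mul, Module.End.mul_apply, LinearMap.sub_apply,
    Module.End.one_apply, map_sub, h, AddMonoidHom.sub_apply, AddMonoidHom.zero_apply]
  linear_combination ((conjOp h3 1 φ) g - (conjOp h3 1 (conjOp h3 1 φ)) g) * hc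

/-- One step of the descent. -/
theorem occurs_descent {S : Set ℕ} {a : ℕ → F} (hocc : Occurs (M * 3) F S a) (h3 : 3 ∣ M)
    (hne : ∃ ℓ : ℕ, ℓ.Prime ∧ ¬ ℓ ∣ M ∧ ℓ ∉ S ∧ a ℓ ≠ 1 + ℓ) :
    Occurs M F S a ∨ Occurs M F S (fun ℓ => ℓ * a ℓ) := by
  classical
  obtain ⟨v, hv0, hv⟩ := hocc
  obtain ⟨p, hp, hpM, hpS, hpa⟩ := hne
  have hdiv : ∀ ℓ : ℕ, ℓ.Prime → ¬ ℓ ∣ M → ¬ ℓ ∣ M * 3 := fun ℓ hℓ hℓM h =>
    (hℓ.dvd_mul.mp h).elim hℓM fun h' => hℓM (h'.trans h3)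
  have hsq : ∀ ℓ : ℕ, ℓ.Prime → ¬ ℓ ∣ M → (ℓ : F) ^ 2 = 1 := fun ℓ hℓ hℓM => by
    have h : ¬ 3 ∣ ℓ := fun h =>
      hℓM (((Nat.prime_dvd_prime_iff_eq Nat.prime_three hℓ).mp h) ▸ h3)
    have h' := CharP.natCast_eq_natCast' F 3 (a := ℓ ^ 2) (b := 1) (by
      rcases (by omega : ℓ % 3 = 1 ∨ ℓ % 3 = 2) with e | e <;>
        simp [Nat.ModEq, Nat.pow_mod, e])
    simpa using h'
  let U : Module.End F (Additive (Gamma0 (M * 3)) →+ F) := conjOp h3 1
  let D := U - 1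
  obtain ⟨k, hk0, hk1, hk2⟩ : ∃ k : ℕ, (D ^ k) v ≠ 0 ∧ (D ^ (k + 1)) v = 0 ∧ k ≤ 2 := by
    by_cases h1 : D v = 0
    · exact ⟨0, by simpa using hv0, by simpa using h1, by norm_num⟩
    · by_cases h2 : (D ^ 2) v = 0
      · exact ⟨1, by simpa using h1, h2, by norm_num⟩
      · exact ⟨2, h2, diffOp_cube v, le_rfl⟩
  set w := (D ^ k) v with hwdef
  have hwU : U w = w := by
    rw [pow_succ', Module.End.mul_apply, ← hwdef] at hk1
    exact sub_eq_zero.mp hk1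
  have hDU : Commute D U := LinearMap.ext fun x => by
    simp only [D, Module.End.mul_apply, LinearMap.sub_apply, Module.End.one_apply, map_sub]
  let b : ℕ → F := fun ℓ => (ℓ : F) ^ k * a ℓ
  have hTw : ∀ (ℓ : ℕ) [Fact ℓ.Prime], ¬ ℓ ∣ M → ℓ ∉ S →
      heckeHom (M * 3) ℓ F F w = b ℓ • w := by
    intro ℓ hℓ hℓM hℓS
    have hℓ3 := hdiv ℓ hℓ.out hℓM
    let E : Module.End F (Additive (Gamma0 (M * 3)) →+ F) := ∑ i ∈ Finset.range ℓ, U ^ i
    have hED : U ^ ℓ - 1 = E * D := (geom_sum_mul U ℓ).symm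
    have hcom : Commute D E := Commute.sum_right _ _ _ fun i _ =>
      (hDU.pow_right i)
    have step : ∀ x, heckeHom (M * 3) ℓ F F (D x) = E (D (heckeHom (M * 3) ℓ F F x)) := by
      intro x
      rw [← Module.End.mul_apply E D, ← hED]
      simp only [D, U, LinearMap.sub_apply, Module.End.one_apply, map_sub,
        heckeHom_conjOp h3 hℓ3, conjOp_natCast]
    have hind : ∀ j, heckeHom (M * 3) ℓ F F ((D ^ j) v) = a ℓ • (E ^ j) ((D ^ j) v) := by
      intro j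
      induction j with
      | zero => simpa using hv ℓ hℓ3 hℓS
      | succ j ih =>
        rw [pow_succ', Module.End.mul_apply, step, ih, map_smul, map_smul, pow_succ' E,
          Module.End.mul_apply, ← Module.End.mul_apply D (E ^ j),
          (hcom.pow_right j).eq, Module.End.mul_apply]
    have hEw : E w = (ℓ : F) • w := by
      rw [LinearMap.sum_apply]
      have : ∀ i, (U ^ i) w = w := fun i => by
        induction i with
        | zero => simp
        | succ i ih => rw [pow_succ, Module.End.mul_apply, hwU, ih]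
      simp [this, ← Nat.cast_smul_eq_nsmul F]
    have hEjw : ∀ j, (E ^ j) w = ((ℓ : F) ^ j) • w := fun j => by
      induction j with
      | zero => simp
      | succ j ih => rw [pow_succ, Module.End.mul_apply, hEw, map_smul, ih, smul_smul, pow_succ']
    rw [hwdef, hind, ← hwdef, hEjw, smul_smul]
    exact congrArg (fun c : F => c • w) (mul_comm _ _)
  have hbne : b p ≠ 1 + p := by
    intro h
    apply hpa
    have h2 := hsq p hp hpM
    rcases (by omega : k = 0 ∨ k = 1 ∨ k = 2) with rfl | rfl | rfl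
    · simpa [b] using h
    · simp only [b, pow_one] at h
      linear_combination (p : F) * h - (a p - 1) * h2
    · simp only [b, h2, one_mul] at h
      exact h
  have := Fact.mk hp
  have hw3 : w (Additive.ofMul (lowerU (M * 3) 1)) = 0 := by
    have h := heckeHom_lowerU (R := F) (hdiv p hp hpM) w
    rw [hTw p hpM hpS, AddMonoidHom.smul_apply, smul_eq_mul, nsmul_eq_mul, Nat.cast_add,
      Nat.cast_one, ← sub_eq_zero, ← sub_mul] at h
    exact (mul_eq_zero.mp h).resolve_left (sub_ne_zero.mpr hbne)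
  obtain ⟨w', hw'⟩ := exists_extension h3 w hwU hw3
  have hres_inj : ∀ x : Hom1 M F, res M 3 x = 0 →
      x (Additive.ofMul (lowerU M 1)) = 0 → x = 0 := by
    intro x hx hxu
    refine AddMonoidHom.ext fun g => ?_
    obtain ⟨g, rfl⟩ := Additive.ofMul.surjective g
    let e := (tVal M g).val
    have hg : tVal M (g * lowerU M (-(e : ℤ))) = 0 := by
      rw [tVal_mul h3, tVal_lowerU]; simp [e]
    have h1 : x (Additive.ofMul (g * lowerU M (-(e : ℤ)))) = 0 :=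
      DFunLike.congr_fun hx (Additive.ofMul (toLevel h3 _ hg))
    rwa [ofMul_mul, map_add, ← inv_lowerU, ofMul_inv, map_neg, hom_lowerU, hxu, smul_zero,
      neg_zero, add_zero] at h1
  have hTres : ∀ (ℓ : ℕ) [Fact ℓ.Prime], ¬ ℓ ∣ M → ∀ x : Hom1 M F,
      res M 3 (heckeHom M ℓ F F x) = heckeHom (M * 3) ℓ F F (res M 3 x) := fun ℓ hℓ hℓM x =>
    (LR.heckeHom_res M 3 ((Nat.coprime_primes hℓ.out Nat.prime_three).mpr
      fun h => hℓM (h ▸ h3)) x).symm
  let w'' : Hom1 M F := heckeHom M p F F w' - (1 + (p : F)) • w'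
  have hres : res M 3 w'' = (b p - (1 + p)) • w := by
    simp only [w'', map_sub, hTres p hpM]
    rw [hw', hTw p hpM hpS, sub_smul]
    congr 1
    exact AddMonoidHom.ext fun g => by rw [← hw']; rfl
  have hw''0 : w'' ≠ 0 := fun h => by
    rw [h, map_zero, eq_comm, smul_eq_zero] at hres
    exact hres.elim (sub_ne_zero.mpr hbne) hk0
  have hw''u : w'' (Additive.ofMul (lowerU M 1)) = 0 := by
    simp only [w'', AddMonoidHom.sub_apply, AddMonoidHom.smul_apply, heckeHom_lowerU hpM]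
    simp [nsmul_eq_mul]
  have hfinal : ∀ (ℓ : ℕ) [Fact ℓ.Prime], ¬ ℓ ∣ M → ℓ ∉ S →
      heckeHom M ℓ F F w'' = b ℓ • w'' := by
    intro ℓ hℓ hℓM hℓS
    rw [← sub_eq_zero]
    refine hres_inj _ ?_ ?_
    · rw [map_sub, hTres ℓ hℓM, hres, map_smul, hTw ℓ hℓM hℓS, sub_eq_zero, smul_smul]
      refine AddMonoidHom.ext fun g => ?_
      have hg := DFunLike.congr_fun hres g
      simp only [AddMonoidHom.smul_apply, smul_eq_mul] at hg ⊢
      show _ = b ℓ * (res M 3 w'' g)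
      rw [hg]
      ring
    · rw [AddMonoidHom.sub_apply, heckeHom_lowerU hℓM, AddMonoidHom.smul_apply, hw''u]
      simp
  rcases (by omega : k = 0 ∨ k = 1 ∨ k = 2) with rfl | rfl | rfl
  · exact Or.inl ⟨w'', hw''0, fun ℓ _ hℓM hℓS => by simpa [b] using hfinal ℓ hℓM hℓS⟩
  · exact Or.inr ⟨w'', hw''0, fun ℓ _ hℓM hℓS => by simpa [b] using hfinal ℓ hℓM hℓS⟩
  · refine Or.inl ⟨w'', hw''0, fun ℓ hℓ hℓM hℓS => ?_⟩
    simpa [b, hsq ℓ hℓ.out hℓM] using hfinal ℓ hℓM hℓS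

/-- Iterated descent: from level `N * 3 ^ (r + 1)` to level `N * 3`. -/
theorem occurs_descent_iterate {F : Type*} [Field F] [CharP F 3] (N : ℕ) [NeZero N]
    {S : Set ℕ} :
    ∀ (r : ℕ) {a : ℕ → F}, Occurs (N * 3 ^ (r + 1)) F S a →
      (∃ ℓ : ℕ, ℓ.Prime ∧ ¬ ℓ ∣ N * 3 ∧ ℓ ∉ S ∧ a ℓ ≠ 1 + ℓ) →
      Occurs (N * 3) F S a ∨ Occurs (N * 3) F S (fun ℓ => ℓ * a ℓ)
  | 0, a, h, _ => Or.inl (by simpa using h)
  | r + 1, a, h, hne => by
    obtain ⟨ℓ, hℓ, hℓN, hℓS, hℓa⟩ := hne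
    have hℓ3 : ¬ 3 ∣ ℓ := fun h' => hℓN
      (((Nat.prime_dvd_prime_iff_eq Nat.prime_three hℓ).mp h') ▸ dvd_mul_left 3 N)
    have hℓM : ∀ s, ¬ ℓ ∣ N * 3 ^ s := fun s hs => by
      rcases hℓ.dvd_mul.mp hs with h' | h'
      · exact hℓN (h'.mul_right 3)
      · exact hℓN ((hℓ.dvd_of_dvd_pow h').mul_left N)
    have hsq : (ℓ : F) * ℓ = 1 := by
      have h' := CharP.natCast_eq_natCast' F 3 (a := ℓ * ℓ) (b := 1) (by
        rcases (by omega : ℓ % 3 = 1 ∨ ℓ % 3 = 2) with e | e <;> simp [Nat.ModEq, Nat.mul_mod, e])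
      simpa using h'
    have hM : N * 3 ^ (r + 1 + 1) = N * 3 ^ (r + 1) * 3 := by ring
    rw [hM] at h
    rcases occurs_descent h (dvd_mul_of_dvd_right (dvd_pow_self 3 (Nat.succ_ne_zero r)) N)
        ⟨ℓ, hℓ, hℓM _, hℓS, hℓa⟩ with h' | h'
    · exact occurs_descent_iterate N r h' ⟨ℓ, hℓ, hℓN, hℓS, hℓa⟩
    · rcases occurs_descent_iterate N r h' ⟨ℓ, hℓ, hℓN, hℓS, fun e => hℓa (by
        linear_combination (ℓ : F) * e + (1 - a ℓ) * hsq)⟩ with h'' | h''
      · exact Or.inr h''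
      · obtain ⟨v, hv, hev⟩ := h''
        refine Or.inl ⟨v, hv, fun q hq hqN hqS => ?_⟩
        have hq3 : ¬ 3 ∣ q := fun h' => hqN
          (((Nat.prime_dvd_prime_iff_eq Nat.prime_three hq.out).mp h') ▸ dvd_mul_left 3 N)
        have h' := CharP.natCast_eq_natCast' F 3 (a := q * q) (b := 1) (by
          rcases (by omega : q % 3 = 1 ∨ q % 3 = 2) with e | e <;>
            simp [Nat.ModEq, Nat.mul_mod, e])
        simp only [hev q hqN hqS, ← mul_assoc]
        rw [show (q : F) * q = 1 by simpa using h', one_mul]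

end Operators

end Fermat.Agent.LT.LevelThree
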