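/-
A non-Eisenstein eigensystem in `Hom(Γ₀(M), F)`, `6 ∣ M`, `F` of characteristic `3`, is the
reduction of a normalized eigenform of weight two and level `M` (owner: helper41, route LT C5).
-/
import Fermat.Agent.LT.LevelThree.Parabolic
import Fermat.Agent.LT.LevelThree.Descent
import Fermat.Agent.LR.Lattice
import Fermat.Agent.Eigen.Unconditional

set_option autoImplicit false

noncomputable section

namespace Fermat.Agent.LT.LevelThree

open CongruenceSubgroup
open Fermat.Agent.MF.Cosets (X0)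
open scoped MatrixGroups IsMulCommutative

variable {M : ℕ} [NeZero M] {F : Type*} [Field F] {S : Set ℕ}

/-- The excluded primes: those dividing the level and those in `S`. -/
def levelPrimes (M : ℕ) (S : Set ℕ) : Set ℕ := {q | q ∣ M} ∪ S

/-- The algebra generated by the `T_ℓ`, `ℓ ∤ M`, inside the full one. -/
def toFull (M : ℕ) [NeZero M] (S : Set ℕ) :
    ↥(CuspForm.heckeAlgebra M 2 (levelPrimes M S)) →+* HK.TFull M :=
  (Subalgebra.inclusion (CuspForm.heckeAlgebra_mono (N := M) (k := 2)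
    (Set.empty_subset (levelPrimes M S)))).toRingHom

/-- The action of the `T_ℓ`, `ℓ ∤ M`, on the lattice, as additive endomorphisms. -/
def latAct (M : ℕ) [NeZero M] (S : Set ℕ) :
    ↥(CuspForm.heckeAlgebra M 2 (levelPrimes M S)) →+* AddMonoid.End (LR.Lat M) where
  toFun t := (HK.heckeAct M ℤ (toFull M S t)).toAddMonoidHom
  map_one' := by rw [map_one, map_one]; rfl
  map_mul' t t' := by rw [map_mul, map_mul]; rfl
  map_zero' := by rw [map_zero, map_zero]; rfl
  map_add' t t' := by rw [map_add, map_add]; rfl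

/-- Reduction of a lattice element. -/
def redLat (F : Type*) [Field F] : LR.Lat M →+ (Additive (Gamma0 M) →+ F) where
  toFun x := (Int.castAddHom F).comp x.hom
  map_zero' := AddMonoidHom.ext fun g => by
    show ((((0 : LR.Lat M).hom) g : ℤ) : F) = 0
    rw [show (0 : LR.Lat M).hom = 0 from rfl]
    simp
  map_add' x y := AddMonoidHom.ext fun g => by simp

theorem redLat_heckeEnd (ℓ : ℕ) [Fact ℓ.Prime] (x : LR.Lat M) :
    redLat F (HK.heckeEnd M ℓ ℤ x) = HK.heckeHom M ℓ F F (redLat F x) :=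
  (HK.heckeHom_comp (R := ℤ) (R' := F) (Int.castAddHom F) x.hom).symm

/-- A commutative ring acting on integral vectors has a character on a common eigenvector of the
reduction. -/
theorem exists_char_of_rep {T : Type*} [CommRing T] {L : Type*} [AddCommGroup L] {V : Type*}
    [AddCommGroup V] [Module F V] (act : T →+* AddMonoid.End L) (red : L →+ V) {ι : Type*}
    [Fintype ι] (v : V) (hv : v ≠ 0) (w : ι → F) (h : ι → L) (hrep : ∑ x, w x • red (h x) = v)
    (gens : Set T) (hgens : ∀ t, t ∈ Algebra.adjoin ℤ gens)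
    (hgen : ∀ t ∈ gens, ∃ (c : F) (op : V →ₗ[F] V), op v = c • v ∧
      ∀ x, red (act t x) = op (red x)) :
    ∃ θ : T →+* F, ∀ (t : T) (c : F) (op : V →ₗ[F] V), op v = c • v →
      (∀ x, red (act t x) = op (red x)) → θ t = c := by
  let Q : T → F → Prop := fun t c =>
    ∀ (α : ι → F) (k : ι → L) (e : F), ∑ x, α x • red (k x) = e • v →
      ∑ x, α x • red (act t (k x)) = (c * e) • v
  have hop : ∀ t c (op : V →ₗ[F] V), op v = c • v → (∀ x, red (act t x) = op (red x)) → Q t c := by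
    intro t c op h1 h2 α k e hk
    simp only [h2, ← map_smul, ← map_sum, hk]
    rw [map_smul, h1, smul_smul, mul_comm e]
  have huniq : ∀ t c c', Q t c → Q t c' → c = c' := fun t c c' hc hc' => by
    have h1 := hc w h 1 (by rw [hrep, one_smul])
    rw [hc' w h 1 (by rw [hrep, one_smul]), mul_one, mul_one] at h1
    exact (smul_left_injective F hv h1).symm
  have hadd : ∀ t t' c c', Q t c → Q t' c' → Q (t + t') (c + c') :=
    fun t t' c c' hc hc' α k e hk => by
      have he : ∀ x, red (act (t + t') x) = red (act t x) + red (act t' x) := fun x => by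
        rw [map_add]
        exact map_add red _ _
      simp only [he, smul_add, Finset.sum_add_distrib, hc α k e hk, hc' α k e hk, add_mul,
        add_smul]
  have hmul : ∀ t t' c c', Q t c → Q t' c' → Q (t * t') (c * c') :=
    fun t t' c c' hc hc' α k e hk => by
      have he : ∀ x, red (act (t * t') x) = red (act t (act t' x)) := fun x => by
        rw [map_mul]
        rfl
      simp only [he]
      rw [hc α _ _ (hc' α k e hk), mul_assoc]
  have hint : ∀ z : ℤ, Q (algebraMap ℤ T z) z := fun z =>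
    hop _ _ ((z : F) • LinearMap.id) rfl fun x => by
      rw [eq_intCast, map_intCast, AddMonoid.End.intCast_apply, map_zsmul, LinearMap.smul_apply,
        LinearMap.id_apply, Int.cast_smul_eq_zsmul]
  have hexists : ∀ t, ∃ c, Q t c := fun t => by
    induction hgens t using Algebra.adjoin_induction with
    | mem t ht =>
      obtain ⟨c, op, h1, h2⟩ := hgen t ht
      exact ⟨c, hop t c op h1 h2⟩
    | algebraMap z => exact ⟨z, hint z⟩
    | add x y _ _ hx hy =>
      obtain ⟨c, hc⟩ := hx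
      obtain ⟨c', hc'⟩ := hy
      exact ⟨c + c', hadd _ _ c c' hc hc'⟩
    | mul x y _ _ hx hy =>
      obtain ⟨c, hc⟩ := hx
      obtain ⟨c', hc'⟩ := hy
      exact ⟨c * c', hmul _ _ c c' hc hc'⟩
  choose θ hθ using hexists
  exact ⟨{ toFun := θ
           map_one' := huniq 1 _ _ (hθ 1) (by simpa using hint 1)
           map_mul' := fun t t' => huniq _ _ _ (hθ _) (hmul t t' _ _ (hθ t) (hθ t'))
           map_zero' := huniq 0 _ _ (hθ 0) (by simpa using hint 0)
           map_add' := fun t t' => huniq _ _ _ (hθ _) (hadd t t' _ _ (hθ t) (hθ t')) },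
    fun t c op h1 h2 => huniq t _ _ (hθ t) (hop t c op h1 h2)⟩

/-- An eigensystem in `Hom(Γ₀(M), F)` gives a character of the Hecke algebra. -/
theorem exists_heckeChar [CharP F 3] {a : ℕ → F} (hocc : Occurs M F S a) (h6 : 6 ∣ M)
    {p : ℕ} (hp : p.Prime) (hpM : ¬ p ∣ M) (hpS : p ∉ S) (hp1 : (M : ℤ) ∣ (p : ℤ) - 1)
    (hpa : a p ≠ 1 + p) :
    ∃ θ : ↥(CuspForm.heckeAlgebra M 2 (levelPrimes M S)) →+* F,
      ∀ (ℓ : ℕ) (hℓ : ℓ.Prime) (hℓM : ¬ ℓ ∣ M) (hℓS : ℓ ∉ levelPrimes M S),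
        θ (CuspForm.heckeAlgebra.T hℓ hℓM hℓS) = a ℓ := by
  classical
  have := Fact.mk hp
  let : Fintype (X0 M) := Fintype.ofFinite _
  obtain ⟨v, hv0, hv⟩ := hocc
  have h3 : (3 : F) = 0 := by exact_mod_cast CharP.cast_eq_zero F 3
  have h2F : ∀ x : F, x + x = 0 → x = 0 := fun x hx => by linear_combination -hx + x * h3
  have h2Z : ∀ x : ℤ, x + x = 0 → x = 0 := fun x hx => by omega
  obtain ⟨w, hw⟩ := exists_cocHom_eq h6 h2F v
  -- parabolic integral lifts spanning a nonzero multiple of `v`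
  let Φ : X0 M → Additive (Gamma0 M) →+ ℤ := fun x => cocHom (Pi.single x 1)
  let h : X0 M → LR.Lat M := fun x => HK.HSpace.mk
    (HK.heckeHom M p ℤ ℤ (Φ x) - (1 + p) • Φ x) (heckeHom_sub_mem_parabolicHoms hpM hp1 h2Z _)
  have hsum : ∑ x, w x • (Int.castAddHom F).comp (Φ x) = v := by
    rw [← hw]
    refine AddMonoidHom.ext fun g => ?_
    have : ∀ x, ((Φ x g : ℤ) : F) = cocHom (fun y => ((Pi.single x 1 : X0 M → ℤ) y : F)) g :=
      fun x => (DFunLike.congr_fun (cocHom_map (Int.castAddHom F) (Pi.single x 1)) g).symm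
    simp only [AddMonoidHom.finsetSum_apply, AddMonoidHom.smul_apply, AddMonoidHom.comp_apply,
      Int.coe_castAddHom, this, smul_eq_mul]
    have hlin : ∀ x, w x * cocHom (fun y => ((Pi.single x 1 : X0 M → ℤ) y : F)) g
        = cocHom (fun y => w x * ((Pi.single x 1 : X0 M → ℤ) y : F)) g := fun x =>
      (DFunLike.congr_fun (cocHom_map (AddMonoidHom.mulLeft (w x)) _) g).symm
    simp only [hlin]
    let ev : (X0 M → F) →+ F :=
      AddMonoidHom.mk' (fun u => cocHom u g) fun u u' => by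
        have e1 := MF.ParHom.fCoc_isCocycle (MF.ParHom.neg_one_smul_X0 M) u
        have e2 := MF.ParHom.fCoc_isCocycle (MF.ParHom.neg_one_smul_X0 M) u'
        refine (MF.ParHom.fCoc_isCocycle (MF.ParHom.neg_one_smul_X0 M) (u + u')).ext
          (G := fun δ y => MF.ParHom.fCoc (MF.ParHom.neg_one_smul_X0 M) u δ y
            + MF.ParHom.fCoc (MF.ParHom.neg_one_smul_X0 M) u' δ y)
          (fun δ δ' y => ?_) (fun y => ?_) (fun y => ?_) _ _
        · simp only [e1 δ δ' y, e2 δ δ' y]; abel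
        · simp only [MF.ParHom.fCoc_S, Pi.add_apply]; abel
        · simp only [MF.ParHom.fCoc_genU, add_zero]
    show ∑ x, ev (fun y => w x * ((Pi.single x 1 : X0 M → ℤ) y : F)) = ev w
    rw [← map_sum]
    congr 1
    ext y
    simp [Finset.sum_apply, Pi.single_apply, mul_ite]
  set v' := (a p - (1 + (p : F))) • v with hv'
  have hrep : ∑ x, w x • redLat F (h x) = v' := by
    have e : ∀ x, redLat F (h x) = HK.heckeHom M p F F ((Int.castAddHom F).comp (Φ x))
        - (1 + (p : F)) • (Int.castAddHom F).comp (Φ x) := fun x => by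
      refine AddMonoidHom.ext fun g => ?_
      have e' := DFunLike.congr_fun
        (HK.heckeHom_comp (R := ℤ) (R' := F) (N := M) (p := p) (Int.castAddHom F) (Φ x)) g
      simp only [AddMonoidHom.comp_apply, Int.coe_castAddHom] at e'
      show (((HK.heckeHom M p ℤ ℤ (Φ x) - (1 + p) • Φ x) g : ℤ) : F) = _
      simp [e', nsmul_eq_mul]
    simp only [e, smul_sub, Finset.sum_sub_distrib, smul_comm (w _) (1 + (p : F)),
      ← Finset.smul_sum, ← map_smul, ← map_sum, hsum]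
    rw [hv p hpM hpS, hv', sub_smul (a p)]
  have hv'0 : v' ≠ 0 := smul_ne_zero (sub_ne_zero.mpr hpa) hv0
  have hvT : ∀ (ℓ : ℕ) [Fact ℓ.Prime], ¬ ℓ ∣ M → ℓ ∉ levelPrimes M S →
      HK.heckeHom M ℓ F F v' = a ℓ • v' := fun ℓ _ hℓM hℓS => by
    rw [hv', map_smul, hv ℓ hℓM fun h => hℓS (Or.inr h), smul_comm]
  let act := latAct M S
  have hT : ∀ (ℓ : ℕ) [Fact ℓ.Prime] (hℓ : ℓ.Prime) (hℓM : ¬ ℓ ∣ M)
      (hℓS : ℓ ∉ levelPrimes M S) (x : LR.Lat M),
      redLat F (act (CuspForm.heckeAlgebra.T hℓ hℓM hℓS) x) = HK.heckeHom M ℓ F F (redLat F x) := by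
    intro ℓ _ hℓ hℓM hℓS x
    show redLat F (HK.heckeAct M ℤ (toFull M S (CuspForm.heckeAlgebra.T hℓ hℓM hℓS)) x) = _
    have hA : HK.heckeAct M ℤ (toFull M S (CuspForm.heckeAlgebra.T hℓ hℓM hℓS))
        = HK.heckeEnd M ℓ ℤ := LR.heckeAct_T hℓM
    rw [hA, redLat_heckeEnd]
  obtain ⟨θ, hθ⟩ := exists_char_of_rep act (redLat F) v' hv'0 w h hrep
    {t | (t : Module.End ℂ (CuspForm (Gamma0 M) 2)) ∈
      CuspForm.heckeGenerators M 2 (levelPrimes M S)}
    (fun ⟨t, ht⟩ => by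
      induction ht using Algebra.adjoin_induction with
      | mem t ht => exact Algebra.subset_adjoin (R := ℤ) ht
      | algebraMap z => exact Subalgebra.algebraMap_mem _ z
      | add x y _ _ hx hy => exact add_mem hx hy
      | mul x y _ _ hx hy => exact mul_mem hx hy) (by
    rintro ⟨t, ht'⟩ (⟨ℓ, hℓ, hℓM, hℓS, rfl⟩ | ⟨q, hqM, -, hqS, -⟩)
    · have := Fact.mk hℓ
      exact ⟨a ℓ, HK.heckeHom M ℓ F F, hvT ℓ hℓM hℓS, hT ℓ hℓ hℓM hℓS⟩
    · exact absurd (Or.inl hqM) hqS)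
  refine ⟨θ, fun ℓ hℓ hℓM hℓS => ?_⟩
  have := Fact.mk hℓ
  exact hθ _ _ _ (hvT ℓ hℓM hℓS) (hT ℓ hℓ hℓM hℓS)

/-- A mod `3` character of the Hecke algebra is the reduction of a normalized eigenform. -/
theorem exists_eigenform_of_residualChar [CharP F 3]
    (θ : ↥(CuspForm.heckeAlgebra M 2 (levelPrimes M S)) →+* F) :
    ∃ (f : CuspForm (Gamma0 M) 2) (hf : f.IsNormalizedEigenform)
      (𝔪 : Ideal (integralClosure ℤ ℂ)), 𝔪.IsMaximal ∧ ((3 : ℕ) : integralClosure ℤ ℂ) ∈ 𝔪 ∧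
      ∀ (ℓ : ℕ) (hℓ : ℓ.Prime) (hℓM : ¬ ℓ ∣ M) (hℓS : ℓ ∉ levelPrimes M S) (z : ℤ),
        θ (CuspForm.heckeAlgebra.T hℓ hℓM hℓS) = z →
          (⟨ModularFormClass.qCoeff f ℓ, Eigen.qCoeff_isIntegral' hf ℓ⟩ : integralClosure ℤ ℂ)
            - (z : integralClosure ℤ ℂ) ∈ 𝔪 := by
  have := MF.IntStruct.moduleFinite_heckeAlgebra M 2 ∅
  have hint := MF.IntStruct.hasIntegralStructure M 2
  have := Eigen.moduleFree_heckeAlgebra hint (levelPrimes M S)
  have := Eigen.moduleFinite_heckeAlgebra hint (levelPrimes M S)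
  set P := RingHom.ker θ with hP
  have : P.IsPrime := RingHom.ker_isPrime θ
  obtain ⟨q, hq, hqP⟩ := Ideal.exists_minimalPrimes_le (bot_le : ⊥ ≤ P)
  have : q.IsPrime := hq.1.1
  have : CharZero (↥(CuspForm.heckeAlgebra M 2 (levelPrimes M S)) ⧸ q) := by
    refine charZero_of_inj_zero fun n hn => ?_
    by_contra hn0
    rw [← map_natCast (Ideal.Quotient.mk q), Ideal.Quotient.eq_zero_iff_mem] at hn
    refine Set.disjoint_left.mp (Ideal.disjoint_nonZeroDivisors_of_mem_minimalPrimes hq) hn ?_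
    refine mem_nonZeroDivisors_iff_right.mpr fun x hx => ?_
    have hx' : (n : ℤ) • x = 0 := by
      rw [zsmul_eq_mul, Int.cast_natCast, mul_comm]; exact hx
    exact (smul_eq_zero.mp hx').resolve_left (by exact_mod_cast hn0)
  obtain ⟨f, hf, hker⟩ := Eigen.exists_eigenform_ker_eq hint (Ideal.Quotient.mk q)
  rw [Ideal.mk_ker] at hker
  set E := Eigen.eigenCharInt hf (levelPrimes M S) with hE
  let : Algebra ↥(CuspForm.heckeAlgebra M 2 (levelPrimes M S)) (integralClosure ℤ ℂ) := E.toAlgebra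
  have : Algebra.IsIntegral ↥(CuspForm.heckeAlgebra M 2 (levelPrimes M S))
      (integralClosure ℤ ℂ) := ⟨fun x => IsIntegral.tower_top (Algebra.IsIntegral.isIntegral (R := ℤ) x)⟩
  have hle : (⊥ : Ideal (integralClosure ℤ ℂ)).comap
      (algebraMap ↥(CuspForm.heckeAlgebra M 2 (levelPrimes M S)) _) ≤ P := by
    intro t ht
    refine hqP ?_
    rw [← hker, RingHom.mem_ker, ← Eigen.coe_eigenCharInt hf, show E t = 0 from ht,
      ZeroMemClass.coe_zero]
  obtain ⟨𝔪, -, h𝔪, hcomap⟩ := Ideal.exists_ideal_over_prime_of_isIntegral P ⊥ hle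
  have hmem : ∀ t, θ t = 0 ↔ E t ∈ 𝔪 := fun t => by
    rw [← RingHom.mem_ker, ← hP, ← hcomap]
    exact Iff.rfl
  have h3 : ((3 : ℕ) : integralClosure ℤ ℂ) ∈ 𝔪 := by
    rw [← map_natCast E]
    exact (hmem _).mp (by rw [map_natCast, CharP.cast_eq_zero])
  refine ⟨f, hf, 𝔪, ?_, h3, fun ℓ hℓ hℓM hℓS z hz => ?_⟩
  rotate_left
  · have := (hmem (CuspForm.heckeAlgebra.T hℓ hℓM hℓS - algebraMap ℤ _ z)).mp
      (by rw [map_sub, hz, eq_intCast, map_intCast, sub_self])
    have e : E (CuspForm.heckeAlgebra.T hℓ hℓM hℓS)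
        = ⟨ModularFormClass.qCoeff f ℓ, Eigen.qCoeff_isIntegral' hf ℓ⟩ :=
      (Eigen.eigenCharInt_T hf (levelPrimes M S) hℓ hℓM hℓS).trans (Subtype.ext rfl)
    rwa [map_sub, eq_intCast, map_intCast, e] at this
  refine Ideal.isMaximal_of_isIntegral_of_isMaximal_comap (R := ℤ) 𝔪 ?_
  have h3' : Ideal.span {(3 : ℤ)} ≤ 𝔪.comap (algebraMap ℤ (integralClosure ℤ ℂ)) := by
    rw [Ideal.span_singleton_le_iff_mem, Ideal.mem_comap, map_ofNat]
    exact_mod_cast h3
  have hmax : (Ideal.span {(3 : ℤ)}).IsMaximal :=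
    PrincipalIdealRing.isMaximal_of_irreducible (Int.prime_three.irreducible)
  rwa [← hmax.eq_of_le (Ideal.comap_ne_top _ h𝔪.ne_top) h3']

/-- From an eigensystem in `Hom(Γ₀(M), F)` to an eigenform congruent to it. -/
theorem exists_eigenform_of_occurs [CharP F 3] {a : ℕ → F} (hocc : Occurs M F S a) (h6 : 6 ∣ M)
    {p : ℕ} (hp : p.Prime) (hpM : ¬ p ∣ M) (hpS : p ∉ S) (hp1 : (M : ℤ) ∣ (p : ℤ) - 1)
    (hpa : a p ≠ 1 + p) :
    ∃ (f : CuspForm (Gamma0 M) 2) (_hf : f.IsNormalizedEigenform)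
      (𝔪 : Ideal (integralClosure ℤ ℂ)), 𝔪.IsMaximal ∧ ((3 : ℕ) : integralClosure ℤ ℂ) ∈ 𝔪 ∧
      ∀ (ℓ : ℕ), ℓ.Prime → ¬ ℓ ∣ M → ℓ ∉ S → ∀ z : ℤ, a ℓ = z →
        ∃ c : integralClosure ℤ ℂ, (c : ℂ) = ModularFormClass.qCoeff f ℓ ∧
          c - (z : integralClosure ℤ ℂ) ∈ 𝔪 := by
  obtain ⟨θ, hθ⟩ := exists_heckeChar hocc h6 hp hpM hpS hp1 hpa
  obtain ⟨f, hf, 𝔪, h𝔪, h3, hmem⟩ := exists_eigenform_of_residualChar θ
  refine ⟨f, hf, 𝔪, h𝔪, h3, fun ℓ hℓ hℓM hℓS z hz => ?_⟩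
  have hℓS' : ℓ ∉ levelPrimes M S := fun h => h.elim hℓM hℓS
  exact ⟨_, rfl, hmem ℓ hℓ hℓM hℓS' z (by rw [hθ ℓ hℓ hℓM hℓS', hz])⟩

end Fermat.Agent.LT.LevelThree
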