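/-
The mod `3` system of an eigenform with values in `𝔽₃` occurs in `Hom(Γ₀(M), 𝔽₃)`, and moves to
level `2M` (owner: helper41, route LT piece C5).
-/
import Fermat.Agent.LT.LevelThree.Descent
import Fermat.Agent.LR.Lattice
import Fermat.Agent.Eigen.Unconditional
import Mathlib.RingTheory.Polynomial.ScaleRoots
import Mathlib.LinearAlgebra.Matrix.Charpoly.Coeff

set_option autoImplicit false

noncomputable section

namespace Fermat.Agent.LT.LevelThree

open CongruenceSubgroup
open scoped MatrixGroups IsMulCommutative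

local notation "M₂" => Matrix (Fin 2) (Fin 2) ℤ

/-- In a finite set stable under a commutative family of operators, a prime of scalars containing
the annihilator has a common zero. -/
theorem exists_mem_forall_apply_eq_zero {T : Type*} [CommRing T] (P : Ideal T) (hP : P.IsPrime)
    {V : Type*} [AddCommGroup V] (op : T → V → V) (U : Finset V)
    (hstab : ∀ t, ∀ x ∈ U, op t x ∈ U) (hzero : ∀ t, op t 0 = 0)
    (hmul : ∀ t t', ∀ x ∈ U, op (t * t') x = op t (op t' x))
    (hsub : ∀ t t', ∀ x ∈ U, op (t - t') x = op t x - op t' x)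
    (hone : ∀ x ∈ U, op 1 x = x)
    (hann : ∀ t, (∀ x ∈ U, op t x = 0) → t ∈ P) :
    ∃ x ∈ U, x ≠ 0 ∧ ∀ t ∈ P, op t x = 0 := by
  classical
  induction U using Finset.strongInduction with
  | H U ih =>
    by_cases hall : ∀ t ∈ P, ∀ x ∈ U, op t x = 0
    · by_contra hne
      push Not at hne
      refine hP.one_notMem (hann 1 fun x hx => ?_)
      rw [hone x hx]
      by_contra hx0
      obtain ⟨t, ht, hne'⟩ := hne x hx hx0
      exact hne' (hall t ht x hx)
    · push Not at hall
      obtain ⟨p, hp, x₀, hx₀, hpx₀⟩ := hall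
      let U' := U.filter fun x => op p x = 0
      have hlt : U' ⊂ U :=
        Finset.filter_ssubset.mpr ⟨x₀, hx₀, hpx₀⟩
      have hmem : ∀ x, x ∈ U' → x ∈ U := fun x hx => (Finset.mem_filter.mp hx).1
      suffices hann' : ∀ t, (∀ x ∈ U', op t x = 0) → t ∈ P by
        obtain ⟨x, hx, h⟩ := ih U' hlt
          (fun t x hx => Finset.mem_filter.mpr ⟨hstab t x (hmem x hx), by
            rw [← hmul p t x (hmem x hx), mul_comm, hmul t p x (hmem x hx),
              (Finset.mem_filter.mp hx).2, hzero]⟩)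
          (fun t t' x hx => hmul t t' x (hmem x hx)) (fun t t' x hx => hsub t t' x (hmem x hx))
          (fun x hx => hone x (hmem x hx)) hann'
        exact ⟨x, hmem x hx, h⟩
      intro t ht
      -- the restrictions of the powers of `p` repeat
      obtain ⟨i, j, hne, hij⟩ := Finite.exists_ne_map_eq_of_infinite
        (fun i : ℕ => (fun x : U => (⟨op (p ^ i) x, hstab _ x x.2⟩ : U)))
      wlog hlt' : i < j generalizing i j
      · exact this j i hne.symm hij.symm (by omega)
      have hper : ∀ x ∈ U, op (p ^ i) x = op (p ^ j) x := fun x hx =>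
        congrArg Subtype.val (congrFun hij ⟨x, hx⟩)
      have hkill : ∀ (m : ℕ), ∀ y ∈ U, op (p ^ m) y = 0 → op (t ^ m) y = 0 := by
        intro m
        induction m with
        | zero => intro y hy h; rwa [pow_zero] at h ⊢
        | succ m ihm =>
          intro y hy h
          have h1 : op p (op (p ^ m) y) = 0 := by rwa [← hmul _ _ y hy, ← pow_succ']
          have h2 := ht _ (Finset.mem_filter.mpr ⟨hstab (p ^ m) y hy, h1⟩)
          rw [pow_succ, hmul _ _ y hy]
          refine ihm _ (hstab t y hy) ?_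
          rw [← hmul _ _ y hy, mul_comm, hmul _ _ y hy, h2]
      have hkey : t ^ i * (1 - p ^ (j - i)) ∈ P := hann _ fun y hy => by
        rw [hmul _ _ y hy]
        refine hkill i _ (hstab _ y hy) ?_
        rw [← hmul _ _ y hy, mul_sub, mul_one, ← pow_add, Nat.add_sub_cancel' hlt'.le,
          hsub _ _ y hy, hper y hy, sub_self]
      rcases hP.mem_or_mem hkey with h | h
      · exact hP.mem_of_pow_mem i h
      · refine absurd ?_ hP.one_notMem
        have := add_mem h (Ideal.pow_mem_of_mem P hp (j - i) (by omega))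
        rwa [sub_add_cancel] at this

variable {M : ℕ} [NeZero M]

/-- Reduction modulo `3` of lattice elements. -/
def redThree (x : LR.Lat M) : Additive (Gamma0 M) →+ ZMod 3 :=
  (Int.castAddHom (ZMod 3)).comp x.hom

theorem redThree_add_nsmul (x y : LR.Lat M) : redThree (x + (3 : ℤ) • y) = redThree x := by
  refine AddMonoidHom.ext fun g => ?_
  simp only [redThree, AddMonoidHom.comp_apply, Int.coe_castAddHom, HK.HSpace.hom_add,
    AddMonoidHom.add_apply, LR.hom_zsmul, AddMonoidHom.smul_apply, smul_eq_mul]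
  push_cast
  simp [show (3 : ZMod 3) = 0 from by decide]

theorem finite_range_redThree : (Set.range (redThree (M := M))).Finite := by
  classical
  refine (Set.finite_range fun c : Fin (MF.ParHom.parRank M) → Fin 3 =>
    redThree ((HK.hCoord M ℤ).symm fun i => ((c i : ℕ) : ℤ))).subset ?_
  rintro _ ⟨x, rfl⟩
  let c : Fin (MF.ParHom.parRank M) → Fin 3 := fun i =>
    ⟨(HK.hCoord M ℤ x i % 3).toNat, by
      have := Int.emod_lt_of_pos (HK.hCoord M ℤ x i) (by norm_num : (0 : ℤ) < 3)
      have := Int.emod_nonneg (HK.hCoord M ℤ x i) (by norm_num : (3 : ℤ) ≠ 0)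
      omega⟩
  refine ⟨c, ?_⟩
  have e : x = (HK.hCoord M ℤ).symm (fun i => ((c i : ℕ) : ℤ))
      + (3 : ℤ) • (HK.hCoord M ℤ).symm fun i => HK.hCoord M ℤ x i / 3 := by
    refine (HK.hCoord M ℤ).injective ?_
    rw [map_add, map_zsmul, LinearEquiv.apply_symm_apply, LinearEquiv.apply_symm_apply]
    funext i
    simp only [Pi.add_apply, Pi.smul_apply, smul_eq_mul, c]
    rw [Int.toNat_of_nonneg (Int.emod_nonneg _ (by norm_num)), Int.emod_add_mul_ediv]
  conv_rhs => rw [e, redThree_add_nsmul]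

/-- A character of the Hecke algebra into a field of characteristic `3` kills the elements whose
matrices are divisible by `3`. -/
theorem eq_zero_of_three_dvd_heckeRep {k : Type*} [Field k] [CharP k 3] (φ : HK.TFull M →+* k)
    (t : HK.TFull M) (hdiv : ∀ i j, (3 : ℤ) ∣ HK.heckeRep M t i j) : φ t = 0 := by
  classical
  let B : Matrix (Fin (MF.ParHom.parRank M)) (Fin (MF.ParHom.parRank M)) ℤ :=
    Matrix.of fun i j => HK.heckeRep M t i j / 3
  have hB : algebraMap ℤ _ 3 * B = HK.heckeRep M t := by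
    rw [← Algebra.smul_def]
    ext i j
    simp [B, Int.mul_ediv_cancel' (hdiv i j)]
  set q := B.charpoly.scaleRoots 3 with hq
  have hzero : Polynomial.aeval (HK.heckeRep M t) q = 0 :=
    hB ▸ Polynomial.scaleRoots_aeval_eq_zero (Matrix.aeval_self_charpoly B)
  have hT : Polynomial.aeval t q = 0 := by
    refine HK.heckeRep_injective M ?_
    rw [map_zero, ← hzero]
    exact (Polynomial.aeval_algHom_apply (HK.heckeRep M).toIntAlgHom t q).symm
  have h := congrArg φ hT
  rw [map_zero, show φ (Polynomial.aeval t q) = (q.map (Int.castRingHom k)).eval (φ t) by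
    rw [Polynomial.eval_map]
    refine (Polynomial.hom_eval₂ q _ φ t).trans ?_
    exact congrFun (congrArg (fun f => Polynomial.eval₂ f (φ t)) (RingHom.ext_int _ _)) q] at h
  have h3 : (Int.castRingHom k) 3 = 0 := by
    simp only [eq_intCast, Int.cast_ofNat]
    exact_mod_cast CharP.cast_eq_zero k 3
  have hlead : (Int.castRingHom k) B.charpoly.leadingCoeff ≠ 0 := by
    rw [B.charpoly_monic.leadingCoeff, map_one]
    exact one_ne_zero
  rw [hq, Polynomial.map_scaleRoots _ _ _ hlead, h3, Polynomial.scaleRoots_zero,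
    (B.charpoly_monic.map _).leadingCoeff, one_smul, Polynomial.eval_pow, Polynomial.eval_X] at h
  exact pow_eq_zero_iff'.mp h |>.1

/-- A character of the Hecke algebra into a field of characteristic `3` contains the annihilator
of the reduction of the lattice. -/
theorem eq_zero_of_redThree_eq_zero {k : Type*} [Field k] [CharP k 3] (φ : HK.TFull M →+* k)
    (t : HK.TFull M) (ht : ∀ x, redThree (HK.heckeAct M ℤ t x) = 0) : φ t = 0 := by
  refine eq_zero_of_three_dvd_heckeRep φ t fun i j => ?_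
  have h1 : HK.heckeRep M t i j = HK.hMatrix M ℤ (HK.heckeAct M ℤ t) i j := by
    rw [HK.hMatrix_heckeAct, Matrix.map_apply]
    simp
  rw [h1, HK.hMatrix_apply, HK.hCoord_apply]
  exact (ZMod.intCast_zmod_eq_zero_iff_dvd _ 3).mp
    (DFunLike.congr_fun (ht _) (Additive.ofMul (MF.ParHom.parGen M i)))

/-- An eigenform congruent to an integral system gives an eigenvector in `Hom(Γ₀(M), 𝔽₃)`. -/
theorem occurs_of_eigenform {f : CuspForm (Gamma0 M) 2} (hf : f.IsNormalizedEigenform)
    {𝔪 : Ideal (integralClosure ℤ ℂ)} (h𝔪 : 𝔪.IsMaximal)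
    (h3 : ((3 : ℕ) : integralClosure ℤ ℂ) ∈ 𝔪) (S : Set ℕ) (z : ℕ → ℤ)
    (hcong : ∀ ℓ : ℕ, ℓ.Prime → ¬ ℓ ∣ M → ℓ ∉ S → ∃ c : integralClosure ℤ ℂ,
      (c : ℂ) = ModularFormClass.qCoeff f ℓ ∧ c - (z ℓ : integralClosure ℤ ℂ) ∈ 𝔪) :
    Occurs M (ZMod 3) S fun ℓ => (z ℓ : ZMod 3) := by
  classical
  have := MF.IntStruct.moduleFinite_heckeAlgebra M 2 ∅
  have : CharP (integralClosure ℤ ℂ ⧸ 𝔪) 3 :=
    Eigen.charP_quotient_maximal Nat.prime_three 𝔪 h3
  let _ : Field (integralClosure ℤ ℂ ⧸ 𝔪) := Ideal.Quotient.field 𝔪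
  let φ : HK.TFull M →+* integralClosure ℤ ℂ ⧸ 𝔪 :=
    (Ideal.Quotient.mk 𝔪).comp (Eigen.eigenCharInt hf ∅)
  let U := (finite_range_redThree (M := M)).toFinset
  have hU : ∀ {y}, y ∈ U ↔ ∃ x, redThree x = y := fun {y} =>
    (Set.Finite.mem_toFinset _).trans Set.mem_range
  let op : HK.TFull M → (Additive (Gamma0 M) →+ ZMod 3) → Additive (Gamma0 M) →+ ZMod 3 :=
    fun t y => if h : ∃ x, redThree x = y then redThree (HK.heckeAct M ℤ t h.choose) else 0
  have hred : ∀ t (x x' : LR.Lat M), redThree x = redThree x' →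
      redThree (HK.heckeAct M ℤ t x) = redThree (HK.heckeAct M ℤ t x') := by
    intro t x x' h
    refine AddMonoidHom.ext fun g => ?_
    have hd : ∀ g, (3 : ℤ) ∣ (x - x').hom g := fun g => by
      refine (ZMod.intCast_zmod_eq_zero_iff_dvd _ 3).mp ?_
      have hg := DFunLike.congr_fun h g
      simp only [redThree, AddMonoidHom.comp_apply, Int.coe_castAddHom] at hg
      rw [show (x - x').hom g = x.hom g - x'.hom g from rfl, Int.cast_sub, hg, sub_self]
    have e : x = x' + (3 : ℤ) •
        (HK.hCoord M ℤ).symm fun i => (x - x').hom (Additive.ofMul (MF.ParHom.parGen M i)) / 3 := by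
      refine (HK.hCoord M ℤ).injective ?_
      rw [map_add, map_zsmul, LinearEquiv.apply_symm_apply]
      funext i
      simp only [Pi.add_apply, Pi.smul_apply, smul_eq_mul]
      rw [Int.mul_ediv_cancel' (hd _), HK.hCoord_apply, HK.hCoord_apply,
        show (x - x').hom (Additive.ofMul (MF.ParHom.parGen M i)) =
          x.hom (Additive.ofMul (MF.ParHom.parGen M i))
            - x'.hom (Additive.ofMul (MF.ParHom.parGen M i)) from rfl, add_sub_cancel]
    rw [e, map_add, map_zsmul, redThree_add_nsmul]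
  have hop : ∀ t x, op t (redThree x) = redThree (HK.heckeAct M ℤ t x) := fun t x => by
    have h : ∃ x', redThree x' = redThree x := ⟨x, rfl⟩
    simp only [op, dif_pos h]
    exact hred t _ _ h.choose_spec
  have h0 : redThree (0 : LR.Lat M) = 0 := AddMonoidHom.ext fun g => by
    show ((((0 : LR.Lat M).hom g) : ℤ) : ZMod 3) = 0
    rw [show (0 : LR.Lat M).hom g = 0 from rfl, Int.cast_zero]
  have hsubr : ∀ x y : LR.Lat M, redThree (x - y) = redThree x - redThree y := fun x y =>
    AddMonoidHom.ext fun g => by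
      show (((x.hom g - y.hom g : ℤ)) : ZMod 3) = _
      rw [Int.cast_sub]
      rfl
  obtain ⟨y, hy, hy0, hann⟩ := exists_mem_forall_apply_eq_zero (RingHom.ker φ)
    (RingHom.ker_isPrime φ) op U
    (fun t y hy => by
      obtain ⟨x, rfl⟩ := hU.mp hy
      rw [hop]
      exact hU.mpr ⟨_, rfl⟩)
    (fun t => by rw [← h0, hop, map_zero])
    (fun t t' y hy => by
      obtain ⟨x, rfl⟩ := hU.mp hy
      rw [hop, hop, hop, map_mul, Module.End.mul_apply])
    (fun t t' y hy => by
      obtain ⟨x, rfl⟩ := hU.mp hy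
      rw [hop, hop, hop, map_sub, LinearMap.sub_apply, hsubr])
    (fun y hy => by
      obtain ⟨x, rfl⟩ := hU.mp hy
      rw [hop, map_one, Module.End.one_apply])
    (fun t ht => RingHom.mem_ker.mpr <| eq_zero_of_redThree_eq_zero φ t fun x => by
      rw [← hop]; exact ht _ (hU.mpr ⟨x, rfl⟩))
  obtain ⟨x, rfl⟩ := hU.mp hy
  refine ⟨redThree x, hy0, fun ℓ hℓ hℓM hℓS => ?_⟩
  obtain ⟨c, hc, hcz⟩ := hcong ℓ hℓ.out hℓM hℓS
  have hmem : CuspForm.heckeAlgebra.T hℓ.out hℓM (Set.notMem_empty ℓ)
      - algebraMap ℤ (HK.TFull M) (z ℓ) ∈ RingHom.ker φ := by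
    rw [RingHom.mem_ker]
    show Ideal.Quotient.mk 𝔪 (Eigen.eigenCharInt hf ∅ _) = 0
    rw [Ideal.Quotient.eq_zero_iff_mem, map_sub, eq_intCast, map_intCast, Eigen.eigenCharInt_T]
    have e : Eigen.intCoeff hf ℓ = c := Subtype.ext ((Eigen.coe_intCoeff hf ℓ).trans hc.symm)
    rwa [e]
  have h := hann _ hmem
  rw [hop, map_sub, eq_intCast, map_intCast, LinearMap.sub_apply, hsubr, sub_eq_zero,
    LR.heckeAct_T hℓM] at h
  have e1 : redThree (HK.heckeEnd M ℓ ℤ x) = HK.heckeHom M ℓ (ZMod 3) (ZMod 3) (redThree x) :=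
    (HK.heckeHom_comp (R := ℤ) (R' := ZMod 3) (Int.castAddHom (ZMod 3)) x.hom).symm
  rw [← e1, h]
  refine AddMonoidHom.ext fun g => ?_
  show ((((z ℓ : Module.End ℤ (LR.Lat M)) x).hom g : ℤ) : ZMod 3) = _
  rw [Module.End.intCast_apply, LR.hom_zsmul, AddMonoidHom.smul_apply, smul_eq_mul, Int.cast_mul]
  rfl

omit [NeZero M] in
/-- A system at odd level occurs at twice the level. -/
theorem occurs_double (hM : ¬ 2 ∣ M) {F : Type*} [Field F] [CharP F 3] {S : Set ℕ} {a : ℕ → F}
    (h : Occurs M F S a) : Occurs (M * 2) F S a := by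
  obtain ⟨v, hv0, hv⟩ := h
  refine ⟨LR.res M 2 v, fun hz => hv0 ?_, fun ℓ hℓ hℓM hℓS => ?_⟩
  · have hmem : ∀ g : Gamma0 M, (2 : ℤ) ∣ (g : SL(2, ℤ)) 1 0 → v (Additive.ofMul g) = 0 := by
      intro g hg
      have hg' : (g : SL(2, ℤ)) ∈ Gamma0 (M * 2) := by
        rw [Gamma0_mem, ZMod.intCast_zmod_eq_zero_iff_dvd, Nat.cast_mul]
        exact (Int.isCoprime_iff_nat_coprime.mpr (by
          simpa using ((Nat.Prime.coprime_iff_not_dvd Nat.prime_two).mpr hM).symm)).mul_dvd
            (HK.Gamma0.dvd_one_zero g) hg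
      exact DFunLike.congr_fun hz (Additive.ofMul (⟨g, hg'⟩ : Gamma0 (M * 2)))
    have hM2 : (M : ℤ) % 2 = 1 := by omega
    have hu : v (Additive.ofMul (lowerU M 1)) = 0 := by
      have h2 : v (Additive.ofMul (lowerU M (2 : ℕ))) = 0 :=
        hmem _ (by rw [coe_lowerU]; simp)
      rw [hom_lowerU, two_nsmul] at h2
      have h3 : (3 : F) = 0 := by exact_mod_cast CharP.cast_eq_zero F 3
      linear_combination -h2 + v (Additive.ofMul (lowerU M 1)) * h3
    have hT : v (Additive.ofMul (LR.transl M 1)) = 0 := hmem _ (by rw [LR.coe_transl]; simp)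
    have hodd : ∀ g : Gamma0 M, (g : SL(2, ℤ)) 1 1 % 2 = 1 → v (Additive.ofMul g) = 0 := by
      intro g hd
      by_cases hc : (2 : ℤ) ∣ (g : SL(2, ℤ)) 1 0
      · exact hmem g hc
      · have h := hmem (g * lowerU M 1) (by
          rw [Subgroup.coe_mul, Matrix.SpecialLinearGroup.coe_mul, coe_lowerU]
          simp only [Matrix.mul_apply, Fin.sum_univ_two, Matrix.of_apply, Matrix.cons_val_zero,
            Matrix.cons_val_one, Matrix.cons_val', Matrix.cons_val_fin_one, mul_one]
          refine Int.dvd_of_emod_eq_zero ?_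
          rw [Int.add_emod, Int.mul_emod _ (M : ℤ), hd, hM2]
          omega)
        rwa [ofMul_mul, map_add, hu, add_zero] at h
    refine AddMonoidHom.ext fun g => ?_
    obtain ⟨g, rfl⟩ := Additive.ofMul.surjective g
    rcases Int.emod_two_eq_zero_or_one ((g : SL(2, ℤ)) 1 1) with hd | hd
    · have hdet := (g : SL(2, ℤ)).det_coe
      rw [Matrix.det_fin_two] at hdet
      have hc : (g : SL(2, ℤ)) 1 0 % 2 = 1 := by
        rcases Int.emod_two_eq_zero_or_one ((g : SL(2, ℤ)) 1 0) with h | h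
        · exfalso
          have hd' : (2 : ℤ) ∣ 1 := hdet ▸ dvd_sub
            ((Int.dvd_of_emod_eq_zero hd).mul_left _) ((Int.dvd_of_emod_eq_zero h).mul_left _)
          omega
        · exact h
      have h := hodd (g * LR.transl M 1) (by
        rw [Subgroup.coe_mul, Matrix.SpecialLinearGroup.coe_mul, LR.coe_transl]
        simp only [Matrix.mul_apply, Fin.sum_univ_two, Matrix.of_apply, Matrix.cons_val_zero,
          Matrix.cons_val_one, Matrix.cons_val', Matrix.cons_val_fin_one, mul_one]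
        omega)
      rwa [ofMul_mul, map_add, hT, add_zero] at h
    · exact hodd g hd
  · have hℓM' : ¬ ℓ ∣ M := fun h => hℓM (h.mul_right 2)
    have hℓ2 : ℓ ≠ 2 := fun h => hℓM (h ▸ dvd_mul_left 2 M)
    rw [LR.heckeHom_res M 2 ((Nat.coprime_primes hℓ.out Nat.prime_two).mpr hℓ2), hv ℓ hℓM' hℓS]
    exact AddMonoidHom.ext fun g => rfl

end Fermat.Agent.LT.LevelThree
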