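/-
A good prime `ℓ ≡ 1 (mod n)` with `a_ℓ ≢ 2 (mod 3)` (owner: helper41, route LT piece C5).
-/
import Fermat.Agent.LT.C0.Surjective
import Fermat.Agent.LR.NonEisenstein
import Fermat.Agent.Galois.Cyclotomic

set_option autoImplicit false

noncomputable section

open WeierstrassCurve WeierstrassCurve.Affine WeierstrassCurve.Affine.Point
open scoped WeierstrassCurve.Affine
open Fermat.Agent.Galois (Qbar GalQ)

namespace Fermat.Agent.LT.LevelThree

theorem two_ne_zero_zmod_three : (2 : ZMod 3) ≠ 0 := by decide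

theorem anticommute_facts :
    (!![0, 1; -1, 0] * !![0, -1; 1, 0] = (1 : Matrix (Fin 2) (Fin 2) (ZMod 3))) ∧
    (!![0, -1; 1, 0] * !![0, 1; -1, 0] = (1 : Matrix (Fin 2) (Fin 2) (ZMod 3))) ∧
    (!![1, 1; 1, -1] * !![-1, -1; -1, 1] = (1 : Matrix (Fin 2) (Fin 2) (ZMod 3))) ∧
    (!![-1, -1; -1, 1] * !![1, 1; 1, -1] = (1 : Matrix (Fin 2) (Fin 2) (ZMod 3))) ∧
    (!![0, 1; -1, 0] * !![1, 1; 1, -1] =
      -(!![1, 1; 1, -1] * (!![0, 1; -1, 0] : Matrix (Fin 2) (Fin 2) (ZMod 3)))) := by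
  decide

/-- Two anticommuting automorphisms of a plane over `𝔽₃`. -/
theorem exists_anticommute {V : Type*} [AddCommGroup V] [Module (ZMod 3) V]
    [FiniteDimensional (ZMod 3) V] (hV : Module.finrank (ZMod 3) V = 2) :
    ∃ I J : V ≃ₗ[ZMod 3] V, ∀ x, I (J x) = -J (I x) := by
  haveI : Fact (Nat.Prime 3) := ⟨Nat.prime_three⟩
  let B := Module.finBasisOfFinrankEq (ZMod 3) V hV
  let m := LinearMap.toMatrixAlgEquiv B
  have hunit : ∀ A A' : Matrix (Fin 2) (Fin 2) (ZMod 3), A * A' = 1 → A' * A = 1 →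
      ∃ f : V ≃ₗ[ZMod 3] V, m f.toLinearMap = A := fun A A' h h' =>
    ⟨LinearEquiv.ofLinear (m.symm A) (m.symm A')
      (m.injective (by simp only [← Module.End.mul_eq_comp, map_mul, AlgEquiv.apply_symm_apply, h,
        ← Module.End.one_eq_id, map_one]))
      (m.injective (by simp only [← Module.End.mul_eq_comp, map_mul, AlgEquiv.apply_symm_apply, h',
        ← Module.End.one_eq_id, map_one])), m.apply_symm_apply _⟩
  obtain ⟨I, hI⟩ := hunit !![0, 1; -1, 0] !![0, -1; 1, 0] anticommute_facts.1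
    anticommute_facts.2.1
  obtain ⟨J, hJ⟩ := hunit !![1, 1; 1, -1] !![-1, -1; -1, 1] anticommute_facts.2.2.1
    anticommute_facts.2.2.2.1
  refine ⟨I, J, fun x => ?_⟩
  have hmat : m (I.toLinearMap * J.toLinearMap) = m (-(J.toLinearMap * I.toLinearMap)) := by
    rw [map_neg, map_mul, map_mul, hI, hJ]
    exact anticommute_facts.2.2.2.2
  exact LinearMap.congr_fun (m.injective hmat) x

variable {W : WeierstrassCurve ℤ}

set_option quotPrecheck false

local notation "E₃" => Submodule.torsionBy ℤ ((W.map (Int.castRingHom ℚ))⁄Qbar).Point (3 : ℕ)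
local notation "rho" => galoisRep (S := ℚ) (K := Qbar) (W.map (Int.castRingHom ℚ)).toAffine 3

/-- Surjectivity gives an element acting as `-1` and fixing all roots of unity. -/
theorem exists_neg_one_fixing_rootsOfUnity (hΔ : W.Δ ≠ 0) (hss : W.IsSemistableModel)
    (hirr : W.ModRepIsIrreducible 3) :
    ∃ g : GalQ, (∀ (m : ℕ), 0 < m → ∀ ζ : Qbar, ζ ^ m = 1 → g ζ = ζ) ∧
      ∀ x : E₃, rho g x = -x := by
  classical
  haveI : Fact (Nat.Prime 3) := ⟨Nat.prime_three⟩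
  have hsurj := C0.rho_three_surjective hΔ hss hirr
  have hrank := ECTorsion.finrank_torsionBy_qbar (W.map (Int.castRingHom ℚ))
    (ECTorsion.map_castRingHom_Δ_ne_zero W hΔ) 3
  have : FiniteDimensional (ZMod 3) E₃ :=
    FiniteDimensional.of_finrank_pos (by rw [hrank]; norm_num)
  obtain ⟨I, J, hIJ⟩ := exists_anticommute hrank
  obtain ⟨σ, hσ⟩ := hsurj I
  obtain ⟨τ, hτ⟩ := hsurj J
  refine ⟨σ * τ * σ⁻¹ * τ⁻¹, fun n hn ζ hζ => ?_, ?_⟩
  · have : NeZero n := ⟨hn.ne'⟩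
    obtain ⟨ω, hω⟩ := HasEnoughRootsOfUnity.exists_primitiveRoot Qbar n
    obtain ⟨i, -, rfl⟩ := hω.eq_pow_of_pow_eq_one hζ
    have key : ∀ σ : GalQ, ∃ a : ℕ, σ ω = ω ^ a := fun σ => by
      obtain ⟨a, -, ha⟩ := hω.eq_pow_of_pow_eq_one (ξ := σ ω)
        (by rw [← map_pow, hω.pow_eq_one, map_one])
      exact ⟨a, ha.symm⟩
    have hcomm : ∀ a b : GalQ, (a * b) ω = (b * a) ω := fun a b => by
      obtain ⟨x, hx⟩ := key a
      obtain ⟨y, hy⟩ := key b
      rw [AlgEquiv.mul_apply, AlgEquiv.mul_apply, hy, hx, map_pow, map_pow, hx, hy, ← pow_mul,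
        ← pow_mul, mul_comm]
    rw [map_pow]
    congr 1
    have e1 : σ * τ * σ⁻¹ * τ⁻¹ = (σ * τ) * (τ * σ)⁻¹ := by group
    rw [e1, hcomm (σ * τ), AlgEquiv.mul_apply, hcomm σ τ, ← AlgEquiv.mul_apply, inv_mul_cancel,
      AlgEquiv.one_apply]
  · intro x
    have hinv : ∀ (a : GalQ) (y : E₃), rho a (rho a⁻¹ y) = y := fun a y => by
      rw [← LinearEquiv.mul_apply, ← map_mul, mul_inv_cancel, map_one]
      rfl
    have hh : ∀ y, rho σ (rho τ y) = -rho τ (rho σ y) := fun y => by rw [hσ, hτ]; exact hIJ y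
    simp only [map_mul, LinearEquiv.mul_apply]
    rw [hh, hinv, hinv]

/-- A good prime `ℓ ≡ 1 (mod n)` outside `S` with `a_ℓ ≢ 2 (mod 3)`. -/
theorem exists_good_prime_one_mod (hΔ : W.Δ ≠ 0) (hss : W.IsSemistableModel)
    (hirr : W.ModRepIsIrreducible 3) {n : ℕ} (hn : 0 < n) (S : Finset ℕ) :
    ∃ ℓ : ℕ, ℓ.Prime ∧ ℓ ∉ S ∧ ℓ ≠ 3 ∧ ¬ ℓ ∣ n ∧ W.IsGoodPrimeFor ℓ ∧ (n : ℤ) ∣ (ℓ : ℤ) - 1 ∧
      (W.apOfModel ℓ : ZMod 3) ≠ (ℓ : ZMod 3) + 1 := by
  classical
  haveI : Fact (Nat.Prime 3) := ⟨Nat.prime_three⟩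
  have : NeZero n := ⟨hn.ne'⟩
  have hrank := ECTorsion.finrank_torsionBy_qbar (W.map (Int.castRingHom ℚ))
    (ECTorsion.map_castRingHom_Δ_ne_zero W hΔ) 3
  obtain ⟨g, hgζ, hg⟩ := exists_neg_one_fixing_rootsOfUnity hΔ hss hirr
  obtain ⟨F, hF, hlev⟩ := ECTorsion.exists_finite_level (S := ℚ) (K := Qbar)
    (W := W.map (Int.castRingHom ℚ)) (n := 3)
    (ECTorsion.algebraMap_qbar_Δ_ne_zero _ (ECTorsion.map_castRingHom_Δ_ne_zero W hΔ))
    (by norm_num)
  obtain ⟨ω, hω⟩ := HasEnoughRootsOfUnity.exists_primitiveRoot Qbar n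
  let L₀ : IntermediateField ℚ Qbar := F ⊔ IntermediateField.adjoin ℚ {ω}
  have : FiniteDimensional ℚ F := hF
  have : FiniteDimensional ℚ (IntermediateField.adjoin ℚ ({ω} : Set Qbar)) :=
    IntermediateField.adjoin.finiteDimensional (Algebra.IsIntegral.isIntegral ω)
  let L := IntermediateField.normalClosure ℚ L₀ Qbar
  have : Normal ℚ L := normalClosure.normal ℚ _ _
  obtain ⟨ℓ, hℓ, hℓS, A, hA, σ, hσ, hz⟩ := Density.exists_frobenius_zpowers_restrictNormal L g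
    (insert 3 (S ∪ W.Δ.natAbs.primeFactors ∪ n.primeFactors))
  simp only [Finset.mem_insert, Finset.mem_union, not_or] at hℓS
  obtain ⟨hℓ3, ⟨hℓS, hℓΔ⟩, hℓn⟩ := hℓS
  have hgood : W.IsGoodPrimeFor ℓ := fun hd => hℓΔ (Nat.mem_primeFactors.mpr
    ⟨hℓ, Int.natCast_dvd.mp hd, Int.natAbs_ne_zero.mpr hΔ⟩)
  have hℓn' : ¬ ℓ ∣ n := fun hd => hℓn (Nat.mem_primeFactors.mpr ⟨hℓ, hd, hn.ne'⟩)
  -- elements with the same restriction to `L` act alike
  have hres : ∀ (a b : GalQ), a.restrictNormal L = b.restrictNormal L →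
      ∀ x ∈ L, a x = b x := fun a b h x hx => by
    have h1 := AlgEquiv.restrictNormal_commutes a L ⟨x, hx⟩
    rw [h, AlgEquiv.restrictNormal_commutes] at h1
    exact h1.symm
  have hmemL : ∀ x ∈ L₀, x ∈ L := fun x hx => IntermediateField.le_normalClosure L₀ hx
  obtain ⟨i, hi⟩ := Subgroup.mem_zpowers_iff.mp
    (hz ▸ Subgroup.mem_zpowers (σ.restrictNormal L) :
      σ.restrictNormal L ∈ Subgroup.zpowers (g.restrictNormal L))
  obtain ⟨j, hj⟩ := Subgroup.mem_zpowers_iff.mp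
    (hz ▸ Subgroup.mem_zpowers (g.restrictNormal L) :
      g.restrictNormal L ∈ Subgroup.zpowers (σ.restrictNormal L))
  have hiσ : ∀ x ∈ L, (g ^ i) x = σ x := hres _ _ (by
    show AlgEquiv.restrictNormalHom L (g ^ i) = _
    rw [map_zpow]
    exact hi)
  have hjg : ∀ x ∈ L, (σ ^ j) x = g x := hres _ _ (by
    show AlgEquiv.restrictNormalHom L (σ ^ j) = _
    rw [map_zpow]
    exact hj)
  have hfix : ∀ (a : GalQ) (x : Qbar), a x = x → ∀ k : ℤ, (a ^ k) x = x := fun a x hx k =>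
    MulAction.mem_stabilizer_iff.mp
      (Subgroup.zpow_mem (MulAction.stabilizer GalQ x) (MulAction.mem_stabilizer_iff.mpr hx) k)
  -- `ℓ ≡ 1` modulo `n`
  have hωL : ω ∈ L := hmemL ω ((le_sup_right : IntermediateField.adjoin ℚ {ω} ≤ L₀)
    (IntermediateField.mem_adjoin_simple_self ℚ ω))
  have hσω : σ ω = ω := by
    rw [← hiσ ω hωL]
    exact hfix g ω (hgζ n hn ω hω.pow_eq_one) i
  have hℓ1 : (n : ℤ) ∣ (ℓ : ℤ) - 1 := by
    have h1 : ω ^ ℓ = ω ^ 1 := by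
      rw [pow_one]
      exact (Galois.isFrobeniusAt_apply_rootOfUnity hA hℓ hσ hℓn' hω.pow_eq_one).symm.trans hσω
    have hmod : ℓ ≡ 1 [MOD n] := by
      have := (IsOfFinOrder.pow_eq_pow_iff_modEq (n := ℓ) (m := 1)
        (hω.isOfFinOrder hn.ne')).mp h1
      rwa [← hω.eq_orderOf] at this
    have := (Int.natCast_modEq_iff.mpr hmod).symm.dvd
    exact_mod_cast this
  refine ⟨ℓ, hℓ, hℓS, hℓ3, hℓn', hgood, hℓ1, fun heq => ?_⟩
  -- Frobenius would fix a vector, hence so would `g`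
  have ht := ECFrob.galoisTrace_eq_apOfModel W hℓ Nat.prime_three hℓ3 hgood A hA σ hσ
  have hd := ECFrob.galoisDet_eq_natCast W hℓ Nat.prime_three hℓ3 hgood A hA σ hσ
  rw [heq, ← hd] at ht
  obtain ⟨v, hv, hσv⟩ := LR.exists_fixed_of_trace_det hrank _ ht
  have hσv' : σ • v = v := hσv
  have hgv : g • v = v := by
    have hagree : ((σ ^ j)⁻¹ * g) • v = v := by
      refine hlev _ (fun x hx => ?_) v
      rw [AlgEquiv.mul_apply, ← hjg x (hmemL x ((le_sup_left : F ≤ L₀) hx))]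
      exact (σ ^ j).symm_apply_apply x
    have hσj : (σ ^ j) • v = v := MulAction.mem_stabilizer_iff.mp
      (Subgroup.zpow_mem (MulAction.stabilizer GalQ v) (MulAction.mem_stabilizer_iff.mpr hσv') j)
    rw [mul_smul] at hagree
    have := congrArg ((σ ^ j) • ·) hagree
    simp only [smul_inv_smul] at this
    rwa [hσj] at this
  have h2 : rho g v = v := hgv
  rw [hg v] at h2
  have h3 : (2 : ZMod 3) • v = 0 := by
    rw [two_smul]
    nth_rewrite 1 [← h2]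
    exact neg_add_cancel v
  exact hv ((smul_eq_zero.mp h3).resolve_left two_ne_zero_zmod_three)

end Fermat.Agent.LT.LevelThree
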