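/-
Removing `9` from the level of a residually modular good supersingular curve, given the exclusion
of the cyclotomic twist at level `3N` (owner: helper41, route LT piece C5).
-/
import Fermat.Agent.LT.LevelThree.Base
import Fermat.Agent.LT.LevelThree.Forward
import Fermat.Agent.LT.LevelThree.GoodPrime
import Fermat.Agent.LT.Interface

set_option autoImplicit false

noncomputable section

namespace Fermat.Agent.LT.LevelThree

open CongruenceSubgroup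

/-- No eigenform of level `3N`, `3 ∤ N`, is congruent to `ℓ ↦ ℓ a_ℓ(W)` modulo `3`. -/
def TwistExclusion (W : WeierstrassCurve ℤ) : Prop :=
  ∀ (N : ℕ), 0 < N → ¬ 3 ∣ N → ∀ (f : CuspForm (Gamma0 (N * 3)) 2),
    f.IsNormalizedEigenform → ∀ (𝔪 : Ideal (integralClosure ℤ ℂ)), 𝔪.IsMaximal →
      ((3 : ℕ) : integralClosure ℤ ℂ) ∈ 𝔪 →
      (∀ ℓ : ℕ, ℓ.Prime → W.IsGoodPrimeFor ℓ → ¬ ℓ ∣ N * 3 →
        ∃ c : integralClosure ℤ ℂ, (c : ℂ) = ModularFormClass.qCoeff f ℓ ∧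
          c - (((ℓ : ℤ) * W.apOfModel ℓ : ℤ) : integralClosure ℤ ℂ) ∈ 𝔪) → False

/-- The bad primes of `W`. -/
def badPrimes (W : WeierstrassCurve ℤ) : Set ℕ := {ℓ | ¬ W.IsGoodPrimeFor ℓ}

theorem exists_level_not_nine_dvd {W : WeierstrassCurve ℤ} (hΔ : W.Δ ≠ 0)
    (hss : W.IsSemistableModel) (hirr : W.ModRepIsIrreducible 3) (hexcl : TwistExclusion W)
    {M : ℕ} (hM : 0 < M) (hmod : W.IsResiduallyModularOfLevel 3 M) :
    ∃ M' : ℕ, 0 < M' ∧ W.IsResiduallyModularOfLevel 3 M' ∧ ¬ 3 ^ 2 ∣ M' := by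
  classical
  have : Fact (Nat.Prime 3) := ⟨Nat.prime_three⟩
  by_cases h9 : 3 ^ 2 ∣ M
  swap
  · exact ⟨M, hM, hmod, h9⟩
  have : NeZero M := ⟨hM.ne'⟩
  obtain ⟨e, N, hN3, hMN⟩ := Nat.exists_eq_pow_mul_and_not_dvd hM.ne' 3 (by norm_num)
  obtain ⟨r, rfl⟩ : ∃ r, e = r + 1 := by
    refine ⟨e - 1, (Nat.succ_pred_eq_of_pos (Nat.pos_of_ne_zero fun h => hN3 ?_)).symm⟩
    rw [hMN, h, pow_zero, one_mul] at h9
    exact dvd_trans (dvd_pow_self 3 two_ne_zero) h9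
  have hM' : M = N * 3 ^ (r + 1) := by rw [hMN, mul_comm]
  have hN0 : 0 < N := Nat.pos_of_ne_zero fun h => hM.ne' (by rw [hM', h, zero_mul])
  obtain ⟨f, 𝔪, hf, h𝔪, h3, hcong⟩ := hmod
  have hocc : Occurs M (ZMod 3) (badPrimes W) fun ℓ => ((W.apOfModel ℓ : ℤ) : ZMod 3) :=
    occurs_of_eigenform hf h𝔪 h3 (badPrimes W) W.apOfModel fun ℓ hℓ hℓM hℓS =>
      hcong ℓ hℓ (not_not.mp hℓS) hℓM fun h => hℓM (by rw [h, hM']; exact dvd_mul_of_dvd_right (dvd_pow_self 3 (Nat.succ_ne_zero r)) N)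
  -- an even auxiliary level
  obtain ⟨N', hN'0, hN'3, hN'2, hocc'⟩ : ∃ N' : ℕ, 0 < N' ∧ ¬ 3 ∣ N' ∧ 2 ∣ N' ∧
      Occurs (N' * 3 ^ (r + 1)) (ZMod 3) (badPrimes W)
        fun ℓ => ((W.apOfModel ℓ : ℤ) : ZMod 3) := by
    by_cases h2 : 2 ∣ N
    · exact ⟨N, hN0, hN3, h2, hM' ▸ hocc⟩
    · refine ⟨N * 2, by omega, fun h => hN3 ?_, dvd_mul_left 2 N, ?_⟩
      · exact (Nat.Coprime.dvd_of_dvd_mul_right (by norm_num) h)
      · have h2M : ¬ 2 ∣ M := fun h => by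
          rw [hM'] at h
          rcases Nat.prime_two.dvd_mul.mp h with h' | h'
          · exact h2 h'
          · have := Nat.prime_two.dvd_of_dvd_pow h'
            omega
        have hd := occurs_double h2M hocc
        have e : M * 2 = N * 2 * 3 ^ (r + 1) := by rw [hM']; ring
        exact e ▸ hd
  have : NeZero N' := ⟨hN'0.ne'⟩
  have h6 : 6 ∣ N' * 3 := (show 6 = 2 * 3 by norm_num) ▸ mul_dvd_mul_right hN'2 3
  obtain ⟨p, hp, -, hp3, hpn, hpgood, hp1, hpa⟩ :=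
    exists_good_prime_one_mod hΔ hss hirr (n := N' * 3) (by omega) ∅
  have hpS : p ∉ badPrimes W := fun h => h hpgood
  have hpF : (p : ZMod 3) = 1 := by
    have h' : (((p : ℤ) - 1 : ℤ) : ZMod 3) = 0 := (ZMod.intCast_zmod_eq_zero_iff_dvd _ 3).mpr
      ((Int.natCast_dvd_natCast.mpr (dvd_mul_left 3 N')).trans hp1)
    push_cast at h'
    exact sub_eq_zero.mp h'
  have hne : ((W.apOfModel p : ℤ) : ZMod 3) ≠ 1 + (p : ZMod 3) := fun h => hpa (by rw [h, add_comm])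
  rcases occurs_descent_iterate N' r hocc' ⟨p, hp, hpn, hpS, hne⟩ with h | h
  · obtain ⟨g, hg, 𝔫, h𝔫, h3', hg'⟩ := exists_eigenform_of_occurs h h6 hp hpn hpS hp1 hne
    refine ⟨N' * 3, by omega, ⟨g, 𝔫, hg, h𝔫, h3', fun ℓ hℓ hgood hℓM _ => ?_⟩, fun h9' => hN'3 ?_⟩
    · exact hg' ℓ hℓ hℓM (fun hS => hS hgood) (W.apOfModel ℓ) rfl
    · rw [pow_two] at h9'
      exact Nat.dvd_of_mul_dvd_mul_right (by norm_num) h9'
  · refine absurd ?_ (fun hF : False => hF)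
    obtain ⟨g, hg, 𝔫, h𝔫, h3', hg'⟩ := exists_eigenform_of_occurs h h6 hp hpn hpS hp1
      (by rw [hpF, one_mul]; rw [hpF] at hne; exact hne)
    exact hexcl N' hN'0 hN'3 g hg 𝔫 h𝔫 h3' fun ℓ hℓ hgood hℓM =>
      hg' ℓ hℓ hℓM (fun hS => hS hgood) ((ℓ : ℤ) * W.apOfModel ℓ) (by push_cast; rfl)

/-- C5, given the twist exclusion for supersingular curves. -/
theorem stmtC5_of_twistExclusion
    (hexcl : ∀ W : WeierstrassCurve ℤ, W.Δ ≠ 0 → W.IsSemistableModel →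
      W.ModRepIsIrreducible 3 → IsSupersingularThree W → TwistExclusion W) : StmtC5 :=
  fun W hΔ hss hirr h M hM hmod =>
    exists_level_not_nine_dvd hΔ hss hirr (hexcl W hΔ hss hirr h) hM hmod

end Fermat.Agent.LT.LevelThree
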