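import Fermat.Agent.LT.LevelThree.FlatLevel

/-!
# The twisted eigensystem has no eigenvector in `J₀(N)[3]` when the torsion is flat at `3`
-/

set_option autoImplicit false

noncomputable section

namespace Fermat.Agent.LT.FlatTwist

open Fermat.Agent.TraceFn ModularCurve

theorem eq_zero_of_isCoprime_zsmul {G : Type*} [AddCommGroup G] {a b : ℤ} (h : IsCoprime a b)
    {y : G} (ha : a • y = 0) (hb : b • y = 0) : y = 0 := by
  obtain ⟨u, v, huv⟩ := h
  rw [← one_smul ℤ y, ← huv, add_smul, mul_smul, mul_smul, ha, hb, smul_zero, smul_zero, add_zero]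

/-- **(c), torsion form.** -/
theorem false_of_twist_torsion {W : WeierstrassCurve ℤ} (hΔ : W.Δ ≠ 0)
    (hW : IsSupersingularThree W) (hirr : W.ModRepIsIrreducible 3) {N : ℕ} [NeZero N]
    (hflat : Flat.JFlatTorsion N 3) (hfrob : JFrobeniusQuadratic N 3) (S : Finset ℕ)
    {x : JZero N} (hx : x ≠ 0) (h3x : 3 • x = 0)
    (heig : ∀ (ℓ : ℕ) (hℓ : ℓ.Prime), ℓ ∉ S →
      jHecke N (heckeGen ⟨ℓ, hℓ⟩) x = ((ℓ : ℤ) * W.apOfModel ℓ) • x) : False := by
  classical
  set T : Finset ℕ := S ∪ (3 * N * W.Δ.natAbs).divisors with hT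
  have hne : 3 * N * W.Δ.natAbs ≠ 0 :=
    mul_ne_zero (mul_ne_zero (by norm_num) (NeZero.ne N)) (Int.natAbs_ne_zero.mpr hΔ)
  have hmem : ∀ q : ℕ, q ∣ 3 * N * W.Δ.natAbs → q ∈ T := fun q h =>
    Finset.mem_union_right _ (Nat.mem_divisors.mpr ⟨h, hne⟩)
  refine false_of_separating hΔ hW hirr hflat hfrob T
    (hmem 3 (Dvd.intro _ (by rw [mul_assoc])))
    (fun q _ hq => hmem q ((hq.mul_left 3).mul_right _))
    (fun q _ hq => hmem q ((Int.natCast_dvd.mp hq).mul_left _)) ⟨1, fun r hr => ?_⟩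
  have key : ∀ r : AwayHecke T, jHecke N (awayIncl T r) x = twistVal W T r • x := by
    intro r
    induction r using MvPolynomial.induction_on with
    | C z =>
      rw [show (MvPolynomial.C z : AwayHecke T) = (z : AwayHecke T) from eq_intCast MvPolynomial.C z,
        map_intCast, map_intCast, map_intCast, Int.cast_id]
      rfl
    | add f g hf hg =>
      rw [map_add, map_add, map_add]
      exact (congrArg₂ (· + ·) hf hg).trans (add_zsmul x _ _).symm
    | mul_X f i hf =>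
      obtain ⟨⟨ℓ, hℓ⟩, hℓT⟩ := i
      have hgen : (MvPolynomial.X ⟨⟨ℓ, hℓ⟩, hℓT⟩ : AwayHecke T) = awayGen T ℓ := by
        rw [awayGen, dif_pos ⟨hℓ, hℓT⟩]
      rw [hgen, map_mul (awayIncl T), awayIncl_awayGen hℓ hℓT, map_mul (jHecke N),
        map_mul (twistVal W T), twistVal_awayGen ℓ hℓ hℓT]
      show jHecke N (awayIncl T f) (jHecke N (heckeGen ⟨ℓ, hℓ⟩) x) = _
      rw [heig ℓ hℓ (fun h => hℓT (Finset.mem_union_left _ h)), map_zsmul, hf, smul_smul, mul_comm]
  have h0 : twistVal W T r • x = 0 := by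
    rw [← key r]
    exact hr x (by rwa [pow_one])
  by_contra hne'
  have hnd : ¬ ((3 : ℕ) : ℤ) ∣ twistVal W T r := fun h =>
    hne' ((ZMod.intCast_zmod_eq_zero_iff_dvd _ 3).mpr h)
  refine hx (eq_zero_of_isCoprime_zsmul
    (((Nat.prime_iff_prime_int.mp Nat.prime_three).coprime_iff_not_dvd).mpr hnd)
    ((natCast_zsmul x 3).trans h3x) h0)

end Fermat.Agent.LT.FlatTwist
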