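import Fermat.Agent.LT.LevelThree.FlatTwist
import Fermat.Agent.ECFormal.KerPoints
import Fermat.Agent.LT.Interface

/-!
# Inertia at `3` on the `3`-torsion of a supersingular curve

All nonzero points have parameter `z = -x/y` of valuation `1/8`; hence `Kn 3 8` acts trivially and
a generator `σ` of tame inertia satisfies `σ² - s σ - 1 = 0` with `s ≡ ω + ω³`. After twisting by
the cyclotomic character the shape has no flat model.
-/

set_option autoImplicit false

noncomputable section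

namespace Fermat.Agent.LT.FlatTwist

open WeierstrassCurve Fermat.Agent.FlatTangent
open Fermat.Agent.ECFormal (Tors PointQbar curveQbar divPoly natSmul_some_eq_zero_iff)
open Fermat.Agent.ECLocal (InKernel zCoord)
open scoped WeierstrassCurve.Affine

local instance : Fact (Nat.Prime 3) := ⟨Nat.prime_three⟩

variable {p : ℕ} [Fact p.Prime]

theorem valuation_le_iff_nrm (a b : Qb) :
    (plc p).valuation a ≤ (plc p).valuation b ↔ nrm p a ≤ nrm p b := by
  by_cases hb : b = 0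
  · subst hb
    rw [map_zero, le_zero_iff, Valuation.zero_iff, nrm_zero, (nrm_nonneg a).ge_iff_eq',
      nrm_eq_zero]
  have h : a / b ∈ plc p ↔ nrm p a ≤ nrm p b := by
    rw [mem_plc_iff, VGE, neg_zero, Real.rpow_zero, div_eq_mul_inv, nrm_mul, nrm_inv,
      ← div_eq_mul_inv, div_le_one (nrm_pos hb)]
  rw [← h, ← ValuationSubring.valuation_le_one_iff, map_div₀,
    div_le_one₀ (ECLocal.v_pos hb)]

theorem valuation_eq_iff_nrm (a b : Qb) :
    (plc p).valuation a = (plc p).valuation b ↔ nrm p a = nrm p b := by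
  simp only [le_antisymm_iff, valuation_le_iff_nrm]

theorem valuation_one_iff (a : Qb) : (plc p).valuation a < 1 ↔ VGT p 0 a := by
  rw [← map_one (plc p).valuation, ← not_le, valuation_le_iff_nrm, nrm_one, VGT, neg_zero,
    Real.rpow_zero, not_le]

variable (W : WeierstrassCurve ℤ)

theorem not_dvd_b₄_b₈ (hΔ : ¬ (3 : ℤ) ∣ W.Δ) (hb : (3 : ℤ) ∣ W.b₂) :
    ¬ (3 : ℤ) ∣ W.b₈ := by
  intro h8
  have hΔeq : W.Δ = -W.b₂ ^ 2 * W.b₈ - 8 * W.b₄ ^ 3 - 27 * W.b₆ ^ 2 + 9 * W.b₂ * W.b₄ * W.b₆ :=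
    rfl
  have hrel := W.b_relation
  have hb4 : (3 : ℤ) ∣ W.b₄ ^ 2 := by
    rw [show W.b₄ ^ 2 = W.b₂ * W.b₆ - 4 * W.b₈ by linear_combination hrel]
    exact dvd_sub (hb.mul_right _) (h8.mul_left _)
  have hb4' : (3 : ℤ) ∣ W.b₄ := Int.prime_three.dvd_of_dvd_pow hb4
  apply hΔ
  rw [hΔeq]
  exact dvd_add (dvd_sub (dvd_sub (h8.mul_left _) ((hb4'.pow (by norm_num)).mul_left _))
    (Dvd.intro (9 * W.b₆ ^ 2) (by ring))) (((hb.mul_left 9).mul_right _).mul_right _)

theorem dvd_b₂_of_dvd_c₄ (hc : (3 : ℤ) ∣ W.c₄) : (3 : ℤ) ∣ W.b₂ := by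
  refine Int.prime_three.dvd_of_dvd_pow (n := 2) ?_
  rw [show W.b₂ ^ 2 = W.c₄ + 3 * (8 * W.b₄) by rw [WeierstrassCurve.c₄]; ring]
  exact dvd_add hc (Dvd.intro _ rfl)

variable {W}

/-- All abscissas of `3`-torsion points have valuation `-1/4`. -/
theorem veq_root (hW : IsSupersingularThree W) {x : Qb} (hx : (divPoly W 3).IsRoot x) :
    VEQ 3 (-1 / 4) x := by
  have hb2 := dvd_b₂_of_dvd_c₄ W hW.2
  have heq : (3 : Qb) * x ^ 4 + (W.b₂ : Qb) * x ^ 3 + 3 * (W.b₄ : Qb) * x ^ 2 +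
      3 * (W.b₆ : Qb) * x + (W.b₈ : Qb) = 0 := by
    have h := hx
    rw [Polynomial.IsRoot.def, divPoly, WeierstrassCurve.preΨ'_three, WeierstrassCurve.Ψ₃] at h
    simpa using h
  have h3 : VGE 3 1 (3 : Qb) := by
    simpa using (vge_natCast_of_dvd (p := 3) (n := 3) dvd_rfl)
  have h8 : VEQ 3 0 (W.b₈ : Qb) := veq_intCast_of_not_dvd (not_dvd_b₄_b₈ W hW.1 hb2)
  have h2 : VGE 3 1 (W.b₂ : Qb) := by
    obtain ⟨t, ht⟩ := hb2
    rw [ht]; push_cast
    simpa using h3.mul (vge_intCast (p := 3) t)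
  have h34 : VGE 3 1 (3 * (W.b₄ : Qb)) := by simpa using h3.mul (vge_intCast (p := 3) W.b₄)
  have h36 : VGE 3 1 (3 * (W.b₆ : Qb)) := by simpa using h3.mul (vge_intCast (p := 3) W.b₆)
  have hx0 : x ≠ 0 := by
    rintro rfl
    simp only [zero_pow (two_ne_zero), zero_pow (three_ne_zero), zero_pow (four_ne_zero),
      mul_zero, zero_add] at heq
    exact h8.ne_zero heq
  obtain ⟨c, hc⟩ := exists_veq (p := 3) hx0
  have hneg : c < 0 := by
    by_contra hc0
    rw [not_lt] at hc0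
    have hxp : ∀ k : ℕ, VGE 3 0 (x ^ k) := fun k => by simpa using (hc.vge.mono hc0).pow k
    have hs : VGE 3 1 ((3 : Qb) * x ^ 4 + (W.b₂ : Qb) * x ^ 3 + 3 * (W.b₄ : Qb) * x ^ 2 +
        3 * (W.b₆ : Qb) * x) := by
      refine (((VGE.add ?_ ?_).add ?_).add ?_)
      · simpa using h3.mul (hxp 4)
      · simpa using h2.mul (hxp 3)
      · simpa using h34.mul (hxp 2)
      · simpa using h36.mul (hxp 1)
    rw [eq_neg_of_add_eq_zero_left heq] at hs
    linarith [h8.neg.le_of_vge hs]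
  have h3' : VEQ 3 1 (3 : Qb) := by simpa using (veq_cast_self (p := 3))
  have hA : VEQ 3 (1 + 4 * c) ((3 : Qb) * x ^ 4) := by simpa using h3'.mul (hc.pow 4)
  have hrest : VGT 3 (1 + 4 * c) ((W.b₂ : Qb) * x ^ 3 + 3 * (W.b₄ : Qb) * x ^ 2 +
      3 * (W.b₆ : Qb) * x) := by
    refine ((VGT.add ?_ ?_).add ?_)
    · exact (h2.mul (hc.vge.pow 3)).vgt (by push_cast; linarith)
    · exact (h34.mul (hc.vge.pow 2)).vgt (by push_cast; linarith)
    · exact (h36.mul hc.vge).vgt (by linarith)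
  have hB := hA.add_vgt hrest
  have hB' : VEQ 3 (1 + 4 * c) (-(W.b₈ : Qb)) := by
    convert hB using 1
    linear_combination -heq
  have := hB'.unique h8.neg
  rwa [show (-1 : ℝ) / 4 = c by linarith]

theorem nsmul_tors_zero {n : ℕ} (P : Tors W n) : n • (P : PointQbar W) = 0 := by
  rw [← natCast_zsmul]
  exact (Submodule.mem_torsionBy_iff _ _).mp P.2

variable (hW : IsSupersingularThree W)
include hW

theorem delta_ne_zero : W.Δ ≠ 0 := fun h => hW.1 (h ▸ dvd_zero _)

omit hW in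
theorem integralAt_curve : ECLocal.IntegralAt (plc 3) (curveQbar W) :=
  ECLocal.integralAt_intModel W (plc 3)

/-- Every nonzero `3`-torsion point is in the kernel of reduction with parameter of valuation
`1/8`. -/
theorem inKernel_veq (P : Tors W 3) :
    InKernel (plc 3) (P : PointQbar W) ∧ (P ≠ 0 → VEQ 3 (1 / 8) (zCoord (P : PointQbar W))) := by
  rcases hP : (P : PointQbar W) with _ | ⟨x, y, hxy⟩
  · exact ⟨trivial, fun h => absurd (Subtype.ext hP) h⟩
  have hroot := (natSmul_some_eq_zero_iff W Nat.prime_three (by norm_num) hxy).mp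
    (hP ▸ nsmul_tors_zero P)
  have hxv := veq_root hW hroot
  have hxA : x ∉ plc 3 := fun h => by
    linarith [hxv.le_of_vge (mem_plc_iff.mp h)]
  refine ⟨hxA, fun _ => ?_⟩
  obtain ⟨-, hyx⟩ := ECLocal.v_coords_of_not_mem integralAt_curve hxy.1 hxA
  rw [← map_pow, ← map_pow, valuation_eq_iff_nrm] at hyx
  have hy2 : VEQ 3 ((2 : ℕ) * (-3 / 8)) (y ^ 2) := by
    rw [VEQ, hyx, (hxv.pow 3 : nrm 3 (x ^ 3) = _)]
    norm_num
  have hy := VEQ.of_pow two_ne_zero hy2
  change VEQ 3 (1 / 8) (-x / y)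
  convert hxv.neg.div hy using 1
  norm_num

theorem zCoord_vge (P : Tors W 3) : VGE 3 (1 / 8) (zCoord (P : PointQbar W)) := by
  by_cases h : P = 0
  · subst h
    exact vge_zero _
  · exact ((inKernel_veq hW P).2 h).vge

theorem eq_zero_of_vgt {P : Tors W 3} (h : VGT 3 (1 / 8) (zCoord (P : PointQbar W))) : P = 0 := by
  by_contra h0
  exact lt_irrefl _ (((inKernel_veq hW P).2 h0).lt_of_vgt h)

open scoped Classical in
/-- `z` is additive to first order. -/
theorem zCoord_add (P Q : Tors W 3) : VGT 3 (1 / 8)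
    (zCoord ((P + Q : Tors W 3) : PointQbar W) - zCoord (P : PointQbar W) -
      zCoord (Q : PointQbar W)) := by
  set π := piRoot 3 8
  have hπ : VEQ 3 (1 / 8) π := by simpa using piRoot_veq (p := 3) (n := 8) (by norm_num)
  have hle : ∀ R : Tors W 3,
      (plc 3).valuation (zCoord (R : PointQbar W)) ≤ (plc 3).valuation π := fun R => by
    rw [valuation_le_iff_nrm, hπ]; exact zCoord_vge hW R
  have ht : (plc 3).valuation π < 1 := by
    rw [valuation_one_iff]; exact hπ.vge.vgt (by norm_num)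
  have h := (ECLocal.add_inKernel_aux integralAt_curve (inKernel_veq hW P).1
    (inKernel_veq hW Q).1 ht (hle P) (hle Q)).2.2
  rw [← map_pow, valuation_le_iff_nrm] at h
  rw [Submodule.coe_add]
  exact VGE.vgt (c := (2 : ℕ) * (1 / 8)) (le_of_le_of_eq h (hπ.pow 2)) (by norm_num)

omit hW in
theorem zCoord_smul (σ : Gal) (P : Tors W 3) :
    zCoord ((σ • P : Tors W 3) : PointQbar W) = σ (zCoord (P : PointQbar W)) := by
  have h : ((σ • P : Tors W 3) : PointQbar W) = Affine.Point.map σ.toAlgHom P.1 := rfl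
  rcases hP : (P : PointQbar W) with _ | ⟨x, y, hxy⟩
  · rw [h, hP]
    exact (map_zero σ).symm
  · rw [h, hP, Affine.Point.map_some]
    show -σ x / σ y = σ (-x / y)
    rw [map_div₀, map_neg]

theorem zCoord_smul_vgt {σ : Gal} (hσ : σ ∈ inert 3) (P : Tors W 3) : VGT 3 (1 / 8)
    (zCoord ((σ • P : Tors W 3) : PointQbar W) - tchar 3 8 σ * zCoord (P : PointQbar W)) := by
  rw [zCoord_smul]
  have hz : VGE 3 (((1 : ℤ) : ℝ) / (8 : ℕ)) (zCoord (P : PointQbar W)) := by
    simpa using zCoord_vge hW P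
  obtain ⟨u, hu, -, hlt⟩ := InK.exists_leading (p := 3) (n := 8) (by norm_num) hz
  rw [zpow_one, show ((1 : ℤ) : ℝ) / (8 : ℕ) = 1 / 8 by norm_num] at hlt
  have h1 := (hlt.dec (inert_le_dec hσ)).sub
    (((veq_zero_of_pow_eq_one (p := 3) (by norm_num) (tchar_pow (p := 3) (n := 8) (by norm_num) σ)).vge.mul_vgt
      hlt).mono (by norm_num))
  convert h1 using 1
  rw [map_sub, map_mul, hu σ hσ, tchar_mul_piRoot (by norm_num)]
  ring

/-- `Kn 3 8` fixes the `3`-torsion. -/
theorem smul_eq_self {σ : Gal} (hσ : σ ∈ Kn 3 8) (P : Tors W 3) : σ • P = P := by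
  obtain ⟨hI, hone⟩ := (mem_Kn_iff_tchar (by norm_num)).mp hσ
  have h1 := zCoord_smul_vgt hW hI P
  have h2 := zCoord_add hW (σ • P - P) P
  rw [sub_add_cancel] at h2
  rw [hone, one_mul] at h1
  refine sub_eq_zero.mp (eq_zero_of_vgt hW ?_)
  convert h1.sub h2 using 1
  ring

omit hW in
theorem exists_s {σ : Gal} (hω : IsPrimitiveRoot (tchar 3 8 σ) 8) :
    ∃ s : ℤ, VGT 3 0 ((s : Qb) - (tchar 3 8 σ + tchar 3 8 σ ^ 3)) := by
  set ω := tchar 3 8 σ
  have h4 := pow_four_of_primitive hω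
  have hint : VGE 3 0 (ω + ω ^ 3) := by
    have h := (veq_zero_of_pow_eq_one (p := 3) (by norm_num) hω.pow_eq_one).vge
    exact h.add (by simpa using h.pow 3)
  have hprod : (ω + ω ^ 3 - 1) * (ω + ω ^ 3 + 1) = -(3 : Qb) := by
    linear_combination (ω ^ 2 + 2) * h4
  by_cases h : VGT 3 0 (ω + ω ^ 3 - 1)
  · exact ⟨1, by simpa using h.neg⟩
  refine ⟨-1, ?_⟩
  by_contra h'
  have h1 : VEQ 3 0 (ω + ω ^ 3 - 1) :=
    le_antisymm (hint.sub veq_one.vge) (not_lt.mp h)
  have h2 : VEQ 3 0 (ω + ω ^ 3 + 1) := by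
    refine le_antisymm (hint.add veq_one.vge) (not_lt.mp fun h'' => h' ?_)
    convert (show VGT 3 0 _ from h'').neg using 1
    push_cast; ring
  have h3 := h1.mul h2
  rw [hprod, add_zero] at h3
  have := h3.unique (veq_cast_self (p := 3)).neg
  norm_num at this

theorem relation {σ : Gal} (hσ : σ ∈ inert 3) (hω : IsPrimitiveRoot (tchar 3 8 σ) 8) {s : ℤ}
    (hs : VGT 3 0 ((s : Qb) - (tchar 3 8 σ + tchar 3 8 σ ^ 3))) (P : Tors W 3) :
    σ • σ • P - s • σ • P - P = 0 := by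
  set ω := tchar 3 8 σ
  set z : Tors W 3 → Qb := fun R => zCoord (R : PointQbar W) with hzdef
  have hadd : ∀ R R', VGT 3 (1 / 8) (z (R + R') - z R - z R') := zCoord_add hW
  have hz0 : z 0 = 0 := rfl
  have hzs : ∀ (n : ℤ) (y : Tors W 3), VGT 3 (1 / 8) (z (n • y) - n * z y) := by
    intro n y
    induction n using Int.induction_on with
    | zero => simpa [hz0] using vgt_zero (p := 3) (1 / 8)
    | succ m ih =>
      have h2 := (hadd ((m : ℤ) • y) y).add ih
      rw [add_zsmul, one_zsmul]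
      convert h2 using 1
      push_cast; ring
    | pred m ih =>
      have h2 := ih.sub (hadd ((-(m : ℤ) - 1) • y) y)
      have e : (-(m : ℤ) - 1) • y + y = (-(m : ℤ)) • y := by
        rw [sub_zsmul, one_zsmul]; abel
      rw [e] at h2
      convert h2 using 1
      push_cast; ring
  have hωi : VGE 3 0 ω := (veq_zero_of_pow_eq_one (p := 3) (by norm_num) hω.pow_eq_one).vge
  have h4 := pow_four_of_primitive hω
  have a1 : VGT 3 (1 / 8) (z (σ • P) - ω * z P) := zCoord_smul_vgt hW hσ P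
  have a2 : VGT 3 (1 / 8) (z (σ • σ • P) - ω * z (σ • P)) := zCoord_smul_vgt hW hσ (σ • P)
  set R := σ • σ • P - s • σ • P - P with hR
  have e : R + ((s • σ • P) + P) = σ • σ • P := by rw [hR]; abel
  have b1 := hadd R (s • σ • P + P)
  rw [e] at b1
  have b2 := hadd (s • σ • P) P
  have b3 := hzs s (σ • P)
  have a1' := ((vge_intCast (p := 3) s).sub hωi).mul_vgt a1 |>.mono
    (le_of_eq (zero_add _).symm)
  have c : VGT 3 (1 / 8) ((ω * ω - s * ω - 1) * z P) := by
    have h9 := (hs.mul_vge hωi).neg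
    have h10 : VGT 3 0 (ω * ω - s * ω - 1) := by
      convert h9.mono (by simp : (0 : ℝ) ≤ 0 + 0) using 1
      linear_combination (-1 : Qb) * h4
    exact (h10.mul_vge (zCoord_vge hW P)).mono (by simp)
  refine eq_zero_of_vgt hW ?_
  show VGT 3 (1 / 8) (z R)
  have := ((((a2.sub b1).sub b2).sub b3).sub a1').add c
  convert this using 1
  ring

/-- **The cyclotomic twist of the supersingular `3`-torsion has no flat model.** -/
theorem no_flat_twisted_torsion {M : Type} [AddCommGroup M] [Fintype M] [DecidableEq M]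
    [Module (ZMod 3) M] [Nontrivial M] {act : Gal → M → M} (R : Model 3 M act)
    (ι : M →+ Tors W 3) (hι : Function.Injective ι)
    (hact : ∀ τ ∈ inert 3, ∀ m, ι (act τ m) = (cyc 3 τ).val • τ • ι m) : False := by
  obtain ⟨σ, hσ, hω⟩ := exists_tchar_prim (p := 3) (n := 8) (by norm_num)
  obtain ⟨s, hs⟩ := exists_s hω
  have hcyc : cyc 3 σ = -1 := by
    have h := cyc_tchar (p := 3) (n := 8) (by norm_num) (d := 4) rfl hσ
    rw [pow_four_of_primitive hω] at h
    have h' : VGT 3 0 (((2 : ℕ) : Qb) - ((cyc 3 σ).val : Qb)) := by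
      convert h.add ((veq_cast_self (p := 3)).vge.vgt (d := 0) (by norm_num)) using 1
      push_cast; ring
    have h2 := natCast_eq_of_vgt (p := 3) h'
    rw [ZMod.natCast_zmod_val] at h2
    rw [← h2]; decide
  have hval : (cyc 3 σ).val = 2 := by rw [hcyc]; decide
  refine no_flat_twist R (fun τ hτ m => hι ?_) hσ hω hs fun m => hι ?_
  · rw [hact τ (mem_Kn.mp hτ).1, cyc_eq_one_of_mem_Kn (by norm_num) (d := 4) rfl hτ,
      ZMod.val_one, one_smul, smul_eq_self hW hτ]
  · have h3 : ∀ Q : Tors W 3, (2 : ℕ) • Q = -Q := fun Q => by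
      rw [eq_neg_iff_add_eq_zero, ← succ_nsmul]
      exact Subtype.ext (nsmul_tors_zero Q)
    rw [map_sub, map_add, map_zsmul, hact σ hσ, hact σ hσ, hval, h3, h3, smul_neg, smul_neg,
      neg_neg, map_zero]
    rw [← relation hW hσ hω hs (ι m)]
    abel

end Fermat.Agent.LT.FlatTwist
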