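/-
The system of an eigenform modulo `3` on the `3`-torsion of the Jacobian, and the exclusion of
the twisted supersingular system on torsion points fixed by a square of inertia
(owner: helper41, route LT piece C5).
-/
import Fermat.Agent.LT.LevelThree.Forward
import Fermat.Agent.LT.LevelThree.FlatShape
import Fermat.Agent.HK.TateFinal
import Fermat.Agent.ECFrob.Main
import Fermat.Agent.Density.Qbar
import Fermat.Agent.CondLevel.Torsion

set_option autoImplicit false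

noncomputable section

namespace Fermat.Agent.LT.LevelThree

open ModularCurve
open Fermat.Agent.FlatTangent (cyc inert plc tchar)
open Fermat.Agent.ECFormal (Tors)
open scoped IsMulCommutative

local notation "Qbar" => AlgebraicClosure ℚ
local notation "GQ" => AlgebraicClosure ℚ ≃ₐ[ℚ] AlgebraicClosure ℚ

theorem two_eq_neg_one_zmod_three : ((2 : ℕ) : ZMod 3) = -1 := by decide

theorem one_ne_neg_one_zmod_three : (-1 : ZMod 3) ≠ 1 := by decide

theorem eq_one_zmod_three : ∀ t : ZMod 3, t ≠ -1 → t ≠ 0 → t = 1 := by decide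

/-- A congruence system of an eigenform occurs on the `3`-torsion of the Jacobian. -/
theorem exists_jTorsion_eigen {L : ℕ} [NeZero L] {g : CuspForm (CongruenceSubgroup.Gamma0 L) 2}
    (hg : g.IsNormalizedEigenform) {𝔪 : Ideal (integralClosure ℤ ℂ)} (h𝔪 : 𝔪.IsMaximal)
    (h3 : ((3 : ℕ) : integralClosure ℤ ℂ) ∈ 𝔪) (S : Finset ℕ)
    (hLS : ∀ q : ℕ, q.Prime → q ∣ L → q ∈ S) (z : ℕ → ℤ)
    (hcong : ∀ ℓ : ℕ, ℓ.Prime → ℓ ∉ S → ∃ c : integralClosure ℤ ℂ,
      (c : ℂ) = ModularFormClass.qCoeff g ℓ ∧ c - (z ℓ : integralClosure ℤ ℂ) ∈ 𝔪) :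
    ∃ x : JZero L, x ≠ 0 ∧ (3 : ℕ) • x = 0 ∧ ∀ (ℓ : ℕ) (hℓ : ℓ.Prime), ℓ ∉ S →
      TraceFn.jHecke L (heckeGen ⟨ℓ, hℓ⟩) x = z ℓ • x := by
  classical
  have : Fact (Nat.Prime 3) := ⟨Nat.prime_three⟩
  have := MF.IntStruct.moduleFinite_heckeAlgebra L 2 ∅
  have : CharP (integralClosure ℤ ℂ ⧸ 𝔪) 3 :=
    Eigen.charP_quotient_maximal Nat.prime_three 𝔪 h3
  let _ : Field (integralClosure ℤ ℂ ⧸ 𝔪) := Ideal.Quotient.field 𝔪
  let φ : HK.TFull L →+* integralClosure ℤ ℂ ⧸ 𝔪 :=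
    (Ideal.Quotient.mk 𝔪).comp (Eigen.eigenCharInt hg ∅)
  let E : TraceFn.AwayHecke S →+* integralClosure ℤ ℂ ⧸ 𝔪 :=
    φ.comp ((TraceFn.awayToFull L S).comp (TraceFn.awayEval L S hLS))
  let op : TraceFn.AwayHecke S → JZero L → JZero L := fun r x =>
    TraceFn.jHecke L (TraceFn.awayIncl S r) x
  let U := (HK.finite_jZero_nsmul_eq_zero (N := L) (n := 3)).toFinset
  have hU : ∀ {y}, y ∈ U ↔ (3 : ℕ) • y = 0 := fun {y} => Set.Finite.mem_toFinset _
  obtain ⟨x, hx, hx0, hann⟩ := exists_mem_forall_apply_eq_zero (RingHom.ker E)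
    (RingHom.ker_isPrime E) op U
    (fun r y hy => hU.mpr (by
      show (3 : ℕ) • TraceFn.jHecke L (TraceFn.awayIncl S r) y = 0
      rw [← map_nsmul, hU.mp hy, map_zero]))
    (fun r => map_zero _)
    (fun r r' y _ => by simp only [op, map_mul]; rfl)
    (fun r r' y _ => by simp only [op, map_sub]; rfl)
    (fun y _ => by simp only [op, map_one]; rfl)
    (fun r hr => RingHom.mem_ker.mpr <| eq_zero_of_three_dvd_heckeRep φ _ fun i j => by
      have h := HK.heckeRep_dvd_of_kills (p := 3) hLS 1 r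
        (fun y hy => hr y (hU.mpr (by simpa using hy))) i j
      simpa using h)
  refine ⟨x, hx0, hU.mp hx, fun ℓ hℓ hℓS => ?_⟩
  obtain ⟨c, hc, hcz⟩ := hcong ℓ hℓ hℓS
  have hℓL : ¬ ℓ ∣ L := fun h => hℓS (hLS ℓ hℓ h)
  have hmem : TraceFn.awayGen S ℓ - algebraMap ℤ (TraceFn.AwayHecke S) (z ℓ) ∈ RingHom.ker E := by
    have hgen : TraceFn.awayToFull L S (TraceFn.awayEval L S hLS (TraceFn.awayGen S ℓ)) =
        CuspForm.heckeAlgebra.T hℓ hℓL (Set.notMem_empty ℓ) := by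
      rw [TraceFn.awayEval_awayGen L S hLS hℓ hℓL (by simpa using hℓS)]
      exact Subtype.ext rfl
    rw [RingHom.mem_ker, map_sub, eq_intCast, map_intCast]
    show Ideal.Quotient.mk 𝔪 (Eigen.eigenCharInt hg ∅ (TraceFn.awayToFull L S _)) - _ = 0
    rw [hgen, Eigen.eigenCharInt_T, ← map_intCast (Ideal.Quotient.mk 𝔪), ← map_sub,
      Ideal.Quotient.eq_zero_iff_mem]
    have e : Eigen.intCoeff hg ℓ = c := Subtype.ext ((Eigen.coe_intCoeff hg ℓ).trans hc.symm)
    rwa [e]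
  have h := hann _ hmem
  simp only [op, map_sub, eq_intCast, map_intCast, TraceFn.awayIncl_awayGen hℓ hℓS] at h
  have h' : TraceFn.jHecke L (heckeGen ⟨ℓ, hℓ⟩) x
      - ((z ℓ : AddMonoid.End (JZero L))) x = 0 := h
  rwa [AddMonoid.End.intCast_apply, sub_eq_zero] at h'

/-- No `3`-torsion point with the twisted supersingular system is fixed by the squares of the
inertia elements of cyclotomic character `-1`. -/
theorem false_of_twist_sq_fixed {W : WeierstrassCurve ℤ} (hW : IsSupersingularThree W)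
    {L : ℕ} [NeZero L] (hfin : TraceFn.JTorsFiniteLevel L 3)
    (hfrob : TraceFn.JFrobeniusQuadratic L 3) (S : Finset ℕ)
    {x : JZero L} (hx0 : x ≠ 0) (h3x : (3 : ℕ) • x = 0)
    (heig : ∀ (ℓ : ℕ) (hℓ : ℓ.Prime), ℓ ∉ S →
      TraceFn.jHecke L (heckeGen ⟨ℓ, hℓ⟩) x = ((ℓ : ℤ) * W.apOfModel ℓ) • x)
    (hsq : ∀ σ : GQ, σ ∈ inert 3 → cyc 3 σ = -1 → σ • σ • x = x) : False := by
  classical
  have : Fact (Nat.Prime 3) := ⟨Nat.prime_three⟩
  have hΔ : W.Δ ≠ 0 := FlatTwist.delta_ne_zero hW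
  obtain ⟨g, hg, hω⟩ := FlatTangent.exists_tchar_prim (p := 3) (n := 8) (by norm_num)
  obtain ⟨s, hs⟩ := FlatTwist.exists_s hω
  have hcyc : cyc 3 g = -1 := by
    have h := FlatTangent.cyc_tchar (p := 3) (n := 8) (by norm_num) (d := 4) rfl hg
    rw [FlatTwist.pow_four_of_primitive hω] at h
    have h' : FlatTangent.VGT 3 0 (((2 : ℕ) : Qbar) - ((cyc 3 g).val : Qbar)) := by
      convert h.add ((FlatTangent.veq_cast_self (p := 3)).vge.vgt (d := 0) (by norm_num)) using 1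
      push_cast; ring
    have h2 := FlatTangent.natCast_eq_of_vgt (p := 3) h'
    rw [ZMod.natCast_zmod_val] at h2
    rw [← h2]; exact two_eq_neg_one_zmod_three
  have hsn : ∀ (τ : GQ) (n : ℕ) (y : JZero L), n • τ • y = τ • n • y := fun τ n y =>
    (map_nsmul (DistribSMul.toAddMonoidHom (JZero L) τ) n y).symm
  have hsz : ∀ (τ : GQ) (n : ℤ) (y : JZero L), τ • n • y = n • τ • y := fun τ n y =>
    map_zsmul (DistribSMul.toAddMonoidHom (JZero L) τ) n y
  have hs0' : ∀ τ : GQ, τ • (0 : JZero L) = 0 := fun τ =>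
    map_zero (DistribSMul.toAddMonoidHom (JZero L) τ)
  -- a finite level for `ζ₃`, `x` and `W[3]`
  obtain ⟨F₁, hF₁, hlev₁⟩ := hfin 1
  obtain ⟨F₂, hF₂, hlev₂⟩ := CondLevel.rhoTors_finiteLevel W hΔ (n := 3) (by norm_num)
  have := hF₁
  have := hF₂
  have : FiniteDimensional ℚ (IntermediateField.adjoin ℚ {FlatTangent.zetaP 3}) :=
    IntermediateField.adjoin.finiteDimensional
      ((FlatTangent.zetaP_prim 3).isIntegral (by norm_num)).tower_top
  let K₀ : IntermediateField ℚ Qbar := F₁ ⊔ F₂ ⊔ IntermediateField.adjoin ℚ {FlatTangent.zetaP 3}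
  let K := IntermediateField.normalClosure ℚ K₀ Qbar
  have : Normal ℚ K := normalClosure.normal ℚ _ _
  obtain ⟨ℓ, hℓ, hℓS, A, hA, σ, hσ, hz⟩ := Density.exists_frobenius_zpowers_restrictNormal K g
    (insert 3 (S ∪ W.Δ.natAbs.primeFactors ∪ L.primeFactors))
  simp only [Finset.mem_insert, Finset.mem_union, not_or] at hℓS
  obtain ⟨hℓ3, ⟨hℓS, hℓΔ⟩, hℓL⟩ := hℓS
  have hgood : W.IsGoodPrimeFor ℓ := fun hd => hℓΔ (Nat.mem_primeFactors.mpr
    ⟨hℓ, Int.natCast_dvd.mp hd, Int.natAbs_ne_zero.mpr hΔ⟩)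
  have hℓL' : ¬ ℓ ∣ L * 3 := fun hd => by
    rcases hℓ.dvd_mul.mp hd with h | h
    · exact hℓL (Nat.mem_primeFactors.mpr ⟨hℓ, h, NeZero.ne L⟩)
    · exact hℓ3 ((Nat.prime_dvd_prime_iff_eq hℓ Nat.prime_three).mp h)
  have hres : ∀ a b : GQ, a.restrictNormal K = b.restrictNormal K →
      ∀ y ∈ K₀, a y = b y := fun a b h y hy => by
    have hyK : y ∈ K := IntermediateField.le_normalClosure K₀ hy
    have h1 := AlgEquiv.restrictNormal_commutes a K ⟨y, hyK⟩
    rw [h, AlgEquiv.restrictNormal_commutes] at h1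
    exact h1.symm
  obtain ⟨i, hi⟩ := Subgroup.mem_zpowers_iff.mp
    (hz ▸ Subgroup.mem_zpowers (σ.restrictNormal K) :
      σ.restrictNormal K ∈ Subgroup.zpowers (g.restrictNormal K))
  obtain ⟨j, hj⟩ := Subgroup.mem_zpowers_iff.mp
    (hz ▸ Subgroup.mem_zpowers (g.restrictNormal K) :
      g.restrictNormal K ∈ Subgroup.zpowers (σ.restrictNormal K))
  have hiσ : ∀ y ∈ K₀, (g ^ i) y = σ y := hres _ _ (by
    show AlgEquiv.restrictNormalHom K (g ^ i) = _
    rw [map_zpow]; exact hi)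
  have hjg : ∀ y ∈ K₀, (σ ^ j) y = g y := hres _ _ (by
    show AlgEquiv.restrictNormalHom K (σ ^ j) = _
    rw [map_zpow]; exact hj)
  have hagree : ∀ {Y : Type} [MulAction GQ Y] (y : Y) (F : IntermediateField ℚ Qbar), F ≤ K₀ →
      (∀ τ : GQ, (∀ u ∈ F, τ u = u) → τ • y = y) → ∀ a b : GQ, (∀ u ∈ K₀, a u = b u) →
        a • y = b • y := by
    intro Y _ y F hF hfix a b hab
    have h := hfix (b⁻¹ * a) fun u hu => by
      rw [AlgEquiv.mul_apply, hab u (hF hu)]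
      exact b.symm_apply_apply u
    rw [mul_smul, inv_smul_eq_iff] at h
    exact h
  have hxfix : ∀ τ : GQ, (∀ u ∈ F₁, τ u = u) → τ • x = x := fun τ hτ => by
    have h := hlev₁ τ fun u hu => hτ u hu
    have := LinearMap.congr_fun h
      (⟨x, (TraceFn.mem_torsLevel (JZero L)).mpr (by simpa using h3x)⟩ :
        TraceFn.torsLevel (JZero L) 3 1)
    exact congrArg Subtype.val this
  have hPfix : ∀ (P : Tors W 3) (τ : GQ), (∀ u ∈ F₂, τ u = u) → τ • P = P := fun P τ hτ =>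
    LinearMap.congr_fun (hlev₂ τ fun u hu => hτ u hu) P
  have hle₁ : F₁ ≤ K₀ := le_sup_left.trans le_sup_left
  have hle₂ : F₂ ≤ K₀ := le_sup_right.trans le_sup_left
  have hsq_pow : ∀ {Y : Type} [MulAction GQ Y] (y : Y) (a : GQ), a • a • y = y →
      ∀ k : ℤ, (a ^ k) • (a ^ k) • y = y := by
    intro Y _ y a h k
    rw [← mul_smul, ← (Commute.refl a).mul_zpow]
    exact MulAction.mem_stabilizer_iff.mp (Subgroup.zpow_mem (MulAction.stabilizer GQ y)
      (MulAction.mem_stabilizer_iff.mpr (by rw [mul_smul]; exact h)) k)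
  have hcommK : ∀ {Y : Type} [MulAction GQ Y] (y : Y) (a b : GQ) (F : IntermediateField ℚ Qbar),
      F ≤ K₀ → (∀ (y' : Y) (τ : GQ), (∀ u ∈ F, τ u = u) → τ • y' = y') →
      (∀ u ∈ K₀, a u = b u) → a • a • y = b • b • y := by
    intro Y _ y a b F hF hfix hab
    rw [hagree (a • y) F hF (hfix _) a b hab, hagree y F hF (hfix _) a b hab]
  -- Frobenius acts with character `-1` on cube roots of unity
  have hcycσ : cyc 3 σ = (ℓ : ZMod 3) := by
    refine FlatTangent.zp_injective (p := 3) ?_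
    rw [FlatTangent.zp_natCast, ← FlatTangent.apply_zetaP]
    exact Galois.isFrobeniusAt_apply_rootOfUnity hA hℓ hσ
      (fun h => hℓ3 ((Nat.prime_dvd_prime_iff_eq hℓ Nat.prime_three).mp h))
      (FlatTangent.zetaP_prim 3).pow_eq_one
  have hℓ2 : (ℓ : ZMod 3) = -1 := by
    have hζ : FlatTangent.zetaP 3 ∈ K₀ :=
      (le_sup_right : IntermediateField.adjoin ℚ {FlatTangent.zetaP 3} ≤ K₀)
        (IntermediateField.mem_adjoin_simple_self ℚ _)
    by_contra hne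
    have hℓ0 : (ℓ : ZMod 3) ≠ 0 := by
      rw [Ne, ZMod.natCast_eq_zero_iff]
      exact fun h => hℓ3 ((Nat.prime_dvd_prime_iff_eq Nat.prime_three hℓ).mp h).symm
    have h1 : cyc 3 σ = 1 := by
      rw [hcycσ]
      exact eq_one_zmod_three _ hne hℓ0
    have hσζ : σ (FlatTangent.zetaP 3) = FlatTangent.zetaP 3 := by
      rw [FlatTangent.apply_zetaP, h1, FlatTangent.zp_one]
    have hgζ : g (FlatTangent.zetaP 3) = FlatTangent.zetaP 3 := by
      rw [← hjg _ hζ]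
      exact MulAction.mem_stabilizer_iff.mp
        (Subgroup.zpow_mem (MulAction.stabilizer GQ (FlatTangent.zetaP 3))
          (MulAction.mem_stabilizer_iff.mpr hσζ) j)
    have : cyc 3 g = 1 := FlatTangent.zp_injective (p := 3) (by
      rw [← FlatTangent.apply_zetaP, hgζ, FlatTangent.zp_one])
    rw [hcyc] at this
    exact one_ne_neg_one_zmod_three this
  have hℓZ : (3 : ℤ) ∣ (ℓ : ℤ) + 1 := (ZMod.intCast_zmod_eq_zero_iff_dvd _ 3).mp (by
    push_cast; rw [hℓ2]; ring)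
  -- `3 ∤ a_ℓ`
  have hs0 : ¬ (3 : ℤ) ∣ s := fun h => FlatTwist.intCast_zmod_ne_zero hω hs
    ((ZMod.intCast_zmod_eq_zero_iff_dvd _ 3).mpr h)
  have hunit : ∀ (n : ℤ), ¬ (3 : ℤ) ∣ n → ∀ {Y : Type} [AddCommGroup Y] (y : Y),
      (3 : ℕ) • y = 0 → n • y = 0 → y = 0 := by
    intro n hn Y _ y h3y hny
    obtain ⟨u, v, huv⟩ := (Int.prime_three.coprime_iff_not_dvd).mpr hn
    rw [← one_zsmul y, ← huv, add_zsmul, mul_zsmul, mul_zsmul,
      show (3 : ℤ) • y = 0 by exact_mod_cast h3y, hny, zsmul_zero, zsmul_zero, add_zero]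
  have hadiv : ¬ (3 : ℤ) ∣ W.apOfModel ℓ := fun hd => by
    have hFF : ∀ P : Tors W 3, σ • σ • P = P := fun P => by
      have h := ECFrob.smul_smul_sub_apOfModel_smul_add W hℓ (n := 3)
        (fun h => hℓ3 ((Nat.prime_dvd_prime_iff_eq hℓ Nat.prime_three).mp h)) hgood A hA σ hσ P
      obtain ⟨t, ht⟩ := hd
      obtain ⟨u, hu⟩ := hℓZ
      have h30 : ∀ Q : Tors W 3, (3 : ℤ) • Q = 0 := fun Q =>
        Subtype.ext (by exact_mod_cast FlatTwist.nsmul_tors_zero Q)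
      rw [ht, mul_comm, mul_zsmul, h30, zsmul_zero, sub_zero,
        show (ℓ : ℤ) = u * 3 - 1 by omega, sub_zsmul, mul_zsmul, h30] at h
      simp only [zsmul_zero, one_zsmul, zero_add] at h
      exact add_neg_eq_zero.mp h
    have hgg : ∀ P : Tors W 3, g • g • P = P := fun P =>
      (hcommK P (σ ^ j) g F₂ hle₂ (fun y τ hτ => hPfix y τ hτ) hjg).symm.trans
        (hsq_pow P σ (hFF P) j)
    have hrank := ECTorsion.finrank_torsionBy_qbar (W.map (Int.castRingHom ℚ))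
      (ECTorsion.map_castRingHom_Δ_ne_zero W hΔ) 3
    have : Nontrivial (Tors W 3) :=
      Module.nontrivial_of_finrank_pos (R := ZMod 3) (by rw [hrank]; norm_num)
    obtain ⟨P, hP⟩ := exists_ne (0 : Tors W 3)
    have h := FlatTwist.relation hW hg hω hs P
    rw [hgg P, sub_sub, sub_add_eq_sub_sub_swap, sub_self, zero_sub, neg_eq_zero] at h
    have h0 : g • P = 0 := hunit s hs0 (g • P) (Subtype.ext (FlatTwist.nsmul_tors_zero _)) h
    exact hP (MulAction.injective g (h0.trans (smul_zero g).symm))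
  -- the quadratic relation at `x`
  have hσσ : σ • σ • x = x := by
    have e1 : σ • x = (g ^ i) • x := (hagree x F₁ hle₁ hxfix (g ^ i) σ hiσ).symm
    have hstab : ∀ τ : GQ, (∀ u ∈ F₁, τ u = u) → τ • (σ • x) = σ • x := fun τ hτ => by
      have h := LinearMap.congr_fun (hlev₁ τ fun u hu => hτ u hu)
        (⟨σ • x, (TraceFn.mem_torsLevel (JZero L)).mpr (by
          rw [pow_one, hsn, h3x]; exact hs0' σ)⟩ : TraceFn.torsLevel (JZero L) 3 1)
      exact congrArg Subtype.val h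
    rw [← hagree (σ • x) F₁ hle₁ hstab (g ^ i) σ hiσ, e1]
    exact hsq_pow x g (hsq g hg hcyc) i
  have hq := hfrob ℓ hℓ hℓL' A hA σ hσ x ⟨1, by simpa using h3x⟩
  rw [hσσ, TraceFn.jHecke_galois, heig ℓ hℓ hℓS, hsz] at hq
  obtain ⟨u, hu⟩ := hℓZ
  have h3Z : ∀ y : JZero L, (3 : ℕ) • y = 0 → (3 : ℤ) • y = 0 := fun y hy => by exact_mod_cast hy
  have hx1 : x + ℓ • x = 0 := by
    rw [show x + ℓ • x = ((ℓ : ℤ) + 1) • x by rw [add_zsmul, one_zsmul, natCast_zsmul, add_comm],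
      hu, mul_comm, mul_zsmul, h3Z x h3x, zsmul_zero]
  rw [sub_add_eq_add_sub, hx1, zero_sub, neg_eq_zero] at hq
  have hℓdiv : ¬ (3 : ℤ) ∣ (ℓ : ℤ) := fun h => by omega
  refine hx0 (MulAction.injective σ ((hunit _ (fun h => ?_) (σ • x)
    (by rw [hsn, h3x]; exact hs0' σ) hq).trans (hs0' σ).symm))
  exact (Int.prime_three.dvd_or_dvd h).elim hℓdiv hadiv

end Fermat.Agent.LT.LevelThree
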