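/-
The twist exclusion at level `3N` for good supersingular curves (owner: helper41, route LT piece
C5): an eigenvector on `J₀(3N)[3]` either survives in `J₀(N)` along one of the two degeneracy
maps, where flatness excludes it, or is fixed by the squares of inertia with character `-1`.
-/
import Fermat.Agent.LT.LevelThree.Assembly
import Fermat.Agent.LT.LevelThree.TorsionSystem
import Fermat.Agent.LT.LevelThree.FlatTorsion
import Fermat.Agent.BAD.Ordinary.JLevel
import Fermat.Agent.BAD.Modular.PushHecke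
import Fermat.Agent.HK.HeckeFinal

set_option autoImplicit false

noncomputable section

namespace Fermat.Agent.LT.LevelThree

open ModularCurve AlgebraicCurve IsLocalRing
open Fermat.Agent.BAD.Modular (degenPush degenPush_mk degenPush_heckeOperatorAlong)
open Fermat.Agent.BAD.Ordinary (Expansions)
open Fermat.Agent.HK.Corr
open Fermat.Agent.FlatTangent (cyc inert plc zetaP)

local notation "Qbar" => AlgebraicClosure ℚ
local notation "GQ" => AlgebraicClosure ℚ ≃ₐ[ℚ] AlgebraicClosure ℚ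

/-- On `3`-torsion of level `3N` killed by both pushforwards to level `N`, the square of an
inertia element of cyclotomic character `-1` is trivial. -/
def SquareFixedNew (N : ℕ) [NeZero N] : Prop :=
  ∀ σ : GQ, σ ∈ inert 3 → cyc 3 σ = -1 → ∀ z : JZero (N * 3), (3 : ℕ) • z = 0 →
    degenPush Qbar 1 (mul_dvd_mul_left N (one_dvd 3)) z = 0 →
    degenPush Qbar 3 (dvd_refl (N * 3)) z = 0 → σ • σ • z = z

theorem degenPush_jHecke {N : ℕ} [NeZero N] {ℓ : ℕ} (hℓ : ℓ.Prime) (hℓN : ¬ ℓ ∣ N * 3) (d : ℕ)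
    [NeZero d] (hd : d ∣ 3) (h : N * d ∣ N * 3) (x : JZero (N * 3)) :
    TraceFn.jHecke N (heckeGen ⟨ℓ, hℓ⟩) (degenPush Qbar d h x) =
      degenPush Qbar d h (TraceFn.jHecke (N * 3) (heckeGen ⟨ℓ, hℓ⟩) x) := by
  have : NeZero ℓ := ⟨hℓ.ne_zero⟩
  rw [TraceFn.jHecke_apply, TraceFn.jHecke_apply]
  erw [Fermat.Agent.HK.Corr.heckeModuleBar_heckeGen_smul_eq,
    Fermat.Agent.HK.Corr.heckeModuleBar_heckeGen_smul_eq]
  exact (degenPush_heckeOperatorAlong Nat.prime_three hℓ hℓN d hd h x).symm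

theorem twistExclusion_of_inputs {W : WeierstrassCurve ℤ} (hΔ : W.Δ ≠ 0)
    (hW : IsSupersingularThree W) (hirr : W.ModRepIsIrreducible 3)
    (hflat : ∀ (N : ℕ) [NeZero N], ¬ 3 ∣ N → Flat.JFlatTorsion N 3)
    (hfin : ∀ (L : ℕ) [NeZero L], TraceFn.JTorsFiniteLevel L 3)
    (hfrob : ∀ (L : ℕ) [NeZero L], TraceFn.JFrobeniusQuadratic L 3)
    (hnew : ∀ (N : ℕ) [NeZero N], ¬ 3 ∣ N → SquareFixedNew N) : TwistExclusion W := by
  classical
  intro N hN0 hN3 f hf 𝔪 h𝔪 h3 hcong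
  have : NeZero N := ⟨hN0.ne'⟩
  let S : Finset ℕ := W.Δ.natAbs.primeFactors ∪ (N * 3).primeFactors
  have hSlev : ∀ q : ℕ, q.Prime → q ∣ N * 3 → q ∈ S := fun q hq hd =>
    Finset.mem_union_right _ (Nat.mem_primeFactors.mpr ⟨hq, hd, NeZero.ne _⟩)
  have hgood : ∀ ℓ : ℕ, ℓ.Prime → ℓ ∉ S → W.IsGoodPrimeFor ℓ ∧ ¬ ℓ ∣ N * 3 := fun ℓ hℓ hS =>
    ⟨fun hd => hS (Finset.mem_union_left _ (Nat.mem_primeFactors.mpr
      ⟨hℓ, Int.natCast_dvd.mp hd, Int.natAbs_ne_zero.mpr hΔ⟩)), fun hd => hS (hSlev ℓ hℓ hd)⟩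
  obtain ⟨x, hx0, h3x, hx⟩ := exists_jTorsion_eigen hf h𝔪 h3 S hSlev
    (fun ℓ => (ℓ : ℤ) * W.apOfModel ℓ)
    (fun ℓ hℓ hS => hcong ℓ hℓ (hgood ℓ hℓ hS).1 (hgood ℓ hℓ hS).2)
  have hold : ∀ (d : ℕ) [NeZero d], d ∣ 3 → ∀ h : N * d ∣ N * 3, degenPush Qbar d h x = 0 := by
    intro d _ hd h
    by_contra hne
    refine FlatTwist.false_of_twist_torsion hΔ hW hirr (hflat N hN3) (hfrob N) S hne
      (by rw [← map_nsmul, h3x, map_zero]) fun ℓ hℓ hS => ?_
    rw [degenPush_jHecke hℓ (hgood ℓ hℓ hS).2 d hd h, hx ℓ hℓ hS, map_zsmul]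
  exact false_of_twist_sq_fixed hW (hfin (N * 3)) (hfrob (N * 3)) S hx0 h3x hx fun σ hσ hc =>
    hnew N hN3 σ hσ hc x h3x (hold 1 (one_dvd 3) _) (hold 3 dvd_rfl _)

/-- C5 from flatness at level prime to `3`, the finite level and congruence relation of the
torsion, and the action of inertia on the new `3`-torsion. -/
theorem stmtC5_of_inputs
    (hflat : ∀ (N : ℕ) [NeZero N], ¬ 3 ∣ N → Flat.JFlatTorsion N 3)
    (hfin : ∀ (L : ℕ) [NeZero L], TraceFn.JTorsFiniteLevel L 3)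
    (hfrob : ∀ (L : ℕ) [NeZero L], TraceFn.JFrobeniusQuadratic L 3)
    (hnew : ∀ (N : ℕ) [NeZero N], ¬ 3 ∣ N → SquareFixedNew N) : StmtC5 :=
  stmtC5_of_twistExclusion fun _ hΔ _ hirr hW =>
    twistExclusion_of_inputs hΔ hW hirr hflat hfin hfrob hnew

/-- Inertia on the new `3`-torsion from the expansions at the two cusps. -/
theorem squareFixedNew_of_expansions {N : ℕ} [NeZero N] {C : Type} [Field C]
    [Algebra (ResidueField (plc 3)) C]
    {D : BAD.BadCurve (residue (plc 3)) (modularFunctionFieldBar (N * 3)) C}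
    (X : Expansions 3 D (modularFunctionFieldBar N))
    (hdeg : ∀ i, X.φ i = degenMap Qbar 1 (mul_dvd_mul_left N (one_dvd 3)) ∨
      X.φ i = degenMap Qbar 3 (dvd_refl (N * 3)))
    (he : ∀ σ : GQ, σ ∈ inert 3 → ∀ i f,
      X.e i (arithmeticGalois (modularFunctionFieldFull (N * 3)) σ • f)
        = coeffMap (σ : Qbar →+* Qbar) (X.e i f))
    (hu : ∀ σ : GQ, σ ∈ inert 3 →
      arithmeticGalois (modularFunctionFieldFull (N * 3)) σ • D.u = D.u)
    (hφ : ∀ (σ : GQ) (i : Fin 2) x, arithmeticGalois (modularFunctionFieldFull (N * 3)) σ • X.φ i x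
      = X.φ i (arithmeticGalois (modularFunctionFieldFull N) σ • x)) :
    SquareFixedNew N := by
  intro σ hσ hc z h3z h1 h3'
  have : Fact (Nat.Prime 3) := ⟨Nat.prime_three⟩
  have hA : (plc 3).LiesOverPrime 3 := FlatTangent.plc_liesOverPrime 3
  have : CharP (ResidueField (plc 3)) 3 := Galois.place_charP_residueField hA Nat.prime_three
  have : IsAlgClosed (ResidueField (plc 3)) := Galois.place_residueField_isAlgClosed _
  have : FF.IsFunctionField Qbar (modularFunctionFieldBar (N * 3)) :=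
    ⟨D.u, D.chartFin.transcendental_u, D.chartFin.finite_F⟩
  have hpush : ∀ i, X.push i z = 0 := by
    intro i
    obtain ⟨Z, rfl⟩ := Pic0.mk_surjective z
    rcases hdeg i with h | h
    · refine Eq.trans ?_ h1
      rw [X.push_mk]
      exact congrArg Pic0.mk (Subtype.ext (DFunLike.congr_fun
        (BAD.Modular.pushforwardAlong_congr h _ (isIntegral_degenMap (degreeInput Qbar) _ _)) _))
    · refine Eq.trans ?_ h3'
      rw [X.push_mk]
      exact congrArg Pic0.mk (Subtype.ext (DFunLike.congr_fun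
        (BAD.Modular.pushforwardAlong_congr h _ (isIntegral_degenMap (degreeInput Qbar) _ _)) _))
  have hsym := X.sym_of_inertia hσ (he σ hσ) (hu σ hσ)
  have hres : D.HasPowRes 3 (σ • z - z) := D.hasPowRes_sub hsym (by norm_num) h3z
  obtain ⟨W, hW⟩ := Pic0.mk_surjective (σ • z - z)
  have hW0 : ∀ i, X.push i (Pic0.mk W) = 0 := fun i => by
    rw [hW, map_sub, hpush i, sub_zero]
    exact (X.push_smul i (fun y => hφ σ i y) z).trans (by rw [hpush i]; exact map_zero (DistribSMul.toAddMonoidHom (Pic0 Qbar (modularFunctionFieldBar N))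
      (arithmeticGalois (modularFunctionFieldFull N) σ)))
  have hzeta : IsPrimitiveRoot (zetaP 3) 3 := FlatTangent.zetaP_prim 3
  obtain ⟨ζ, hζ⟩ := hzeta.isUnit (by norm_num : (3 : ℕ) ≠ 0)
  have hζ' : σ (ζ : Qbar) = (ζ : Qbar) ^ 2 := by
    rw [hζ, FlatTangent.apply_zetaP, hc, ← two_eq_neg_one_zmod_three]
    exact FlatTangent.zp_natCast 2
  have key : σ • (σ • z - z) = 2 • (σ • z - z) :=
    X.smul_eq_nsmul_of_hasPowRes hA hσ (he σ hσ) (fun a => rfl) (hu σ hσ)
      (IsPrimitiveRoot.coe_units_iff.mp (hζ ▸ hzeta)) hζ' hres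
      ⟨W, hW, fun i => X.isPrincipal_of_push_eq_zero (hW0 i)⟩
  have hsub : σ • (σ • z - z) = σ • σ • z - σ • z :=
    map_sub (DistribSMul.toAddMonoidHom (JZero (N * 3)) σ) _ _
  have h3σ : (3 : ℕ) • σ • z = 0 :=
    (map_nsmul (DistribSMul.toAddMonoidHom (JZero (N * 3)) σ) 3 z).symm.trans
      ((congrArg (σ • ·) h3z).trans (map_zero (DistribSMul.toAddMonoidHom (JZero (N * 3)) σ)))
  have e : σ • σ • z =
      (σ • σ • z - σ • z - 2 • (σ • z - z)) + 3 • (σ • z) - 3 • z + z := by abel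
  rw [e, ← hsub, key, h3σ, h3z, sub_self, zero_add, sub_zero, zero_add]

end Fermat.Agent.LT.LevelThree
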