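/-
Flatness, finite level and the congruence relation on the torsion of `J₀`: C5 reduced to the
action of inertia on the new `3`-torsion (owner: helper41, route LT piece C5).
-/
import Fermat.Agent.LT.LevelThree.Exclusion
import Fermat.Agent.Flat.JFlatGood
import Fermat.Agent.TraceFn.FiniteLevel
import Fermat.Agent.S37

set_option autoImplicit false

noncomputable section

namespace Fermat.Agent.LT.LevelThree

open ModularCurve

theorem jTorsFiniteLevel_three (L : ℕ) [NeZero L] : TraceFn.JTorsFiniteLevel L 3 := by
  have : Fact (Nat.Prime 3) := ⟨Nat.prime_three⟩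
  refine TraceFn.jTorsFiniteLevel_of_torsionFiniteLevel L
    (TraceFn.torsionFiniteLevel_of_finite L 3 fun k => ?_)
  exact Fermat.Agent.HK.finite_jZero_nsmul_eq_zero L (3 ^ k)

theorem jFrobeniusQuadratic_three (L : ℕ) [NeZero L] : TraceFn.JFrobeniusQuadratic L 3 :=
  letI := heckeModuleBar L
  haveI := Fermat.Agent.HK.Corr.smulCommClass_heckeModuleBar L
  TraceFn.jFrobeniusQuadratic_of_frobeniusQuadratic L 3
    (TraceFn.frobeniusQuadratic_of_specializationExists
      (Fermat.Agent.S37.result L 3 (Fermat.Agent.HK.Corr.heckeOperatorsCommuteBar L) inferInstance))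

/-- C5 from the action of inertia on the new `3`-torsion of level `3N`. -/
theorem stmtC5_of_squareFixedNew
    (hnew : ∀ (N : ℕ) [NeZero N], ¬ 3 ∣ N → SquareFixedNew N) : StmtC5 :=
  have : Fact (Nat.Prime 3) := ⟨Nat.prime_three⟩
  stmtC5_of_inputs (fun _ _ h => Flat.jFlatTorsion h) jTorsFiniteLevel_three
    jFrobeniusQuadratic_three hnew

end Fermat.Agent.LT.LevelThree
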