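/-
LT piece C5: removing the `9` from the level of a residually modular good supersingular curve
(owner: helper41).
-/
import Fermat.Agent.LT.LevelThree.StdInputs
import Fermat.Agent.BAD.Ordinary.ModExpansions

set_option autoImplicit false
set_option synthInstance.maxHeartbeats 200000

noncomputable section

namespace Fermat.Agent.LT.LevelThree

open ModularCurve
open Fermat.Agent.HK.Corr

local notation "Qbar" => AlgebraicClosure ℚ

theorem squareFixedNew (N : ℕ) [NeZero N] (h3 : ¬ 3 ∣ N) : SquareFixedNew N := by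
  have hA : (FlatTangent.plc 3).LiesOverPrime 3 :=
    haveI : Fact (Nat.Prime 3) := ⟨Nat.prime_three⟩
    FlatTangent.plc_liesOverPrime 3
  refine squareFixedNew_of_expansions (BAD.Ordinary.modExpansions Nat.prime_three h3 hA) ?_
    (fun σ _ i f => BAD.Modular.emb_arith N Nat.prime_three h3 σ i f) (fun σ _ => ?_) (fun σ => ?_)
  · exact Fin.forall_fin_two.mpr
      ⟨Or.inl (heckeAlphaBar_eq_degenMap N 3 _), Or.inr (heckeBetaBar_eq_degenMap N 3 _)⟩
  · rw [BAD.Modular.curve_u, smul_mul', BAD.Modular.arith_smul_alpha, BAD.Modular.arith_smul_beta,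
      BAD.Ordinary.arith_smul_jElem]
  · exact Fin.forall_fin_two.mpr
      ⟨fun x => BAD.Modular.arith_smul_alpha σ x, fun x => BAD.Modular.arith_smul_beta σ x⟩

/-- **C5.** -/
theorem stmtC5 : StmtC5 := stmtC5_of_squareFixedNew squareFixedNew

end Fermat.Agent.LT.LevelThree
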