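import Fermat.Agent.LT.LevelThree.FlatShape
import Fermat.Agent.Flat.JZero
import Fermat.Agent.CondLevel.Compare
import Fermat.Agent.Eigen.Coeff
import Fermat.Agent.HK.TateFinal

/-!
# The twist by the cyclotomic character does not occur at level prime to `3`

For `W` with good supersingular reduction at `3` and irreducible `W[3]`, no eigenform of level `N`
prime to `3` is congruent mod `3` to `ℓ ↦ ℓ a_ℓ(W)`: otherwise the twisted `3`-torsion would be a
subquotient of powers of a torsion level of `J₀(N)`, hence have a flat model.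
-/

set_option autoImplicit false
set_option maxHeartbeats 800000

noncomputable section

namespace Fermat.Agent.LT.FlatTwist

open Polynomial Fermat.Agent.TraceFn Fermat.Agent.TraceFn.QuadraticTower ModularCurve
open Fermat.Agent.FlatTangent (cyc)
open Fermat.Agent.ECFormal (Tors)
open Fermat.Agent.CondLevel (rhoTors)

local notation "Qbar" => AlgebraicClosure ℚ
local notation "GQ" => AlgebraicClosure ℚ ≃ₐ[ℚ] AlgebraicClosure ℚ

local instance : Fact (Nat.Prime 3) := ⟨Nat.prime_three⟩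

variable (W : WeierstrassCurve ℤ)

/-- `W[3]` twisted by the cyclotomic character. -/
def twistHom : GQ →* Module.End (ZMod 3) (Tors W 3) where
  toFun σ := cyc 3 σ • rhoTors W 3 σ
  map_one' := by rw [FlatTangent.cyc_one, map_one, one_smul]
  map_mul' σ τ := by rw [FlatTangent.cyc_mul, map_mul, smul_mul_smul_comm]

theorem twistHom_apply (σ : GQ) (x : Tors W 3) :
    twistHom W σ x = (cyc 3 σ).val • σ • x := by
  show cyc 3 σ • rhoTors W 3 σ x = _
  conv_lhs => rw [← ZMod.natCast_zmod_val (cyc 3 σ), Nat.cast_smul_eq_nsmul]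
  rfl

theorem cyc_sq (σ : GQ) : cyc 3 σ * cyc 3 σ = 1 := by
  have := FlatTangent.cyc_ne_zero (p := 3) σ
  revert this
  generalize cyc 3 σ = a
  revert a
  decide

theorem cyc_frobenius {ℓ : ℕ} (hℓ : ℓ.Prime) (hℓ3 : ℓ ≠ 3) {A : ValuationSubring Qbar}
    (hA : A.LiesOverPrime ℓ) {σ : GQ} (hσ : A.IsFrobeniusAt σ ℓ) : cyc 3 σ = (ℓ : ZMod 3) := by
  refine FlatTangent.zp_injective (p := 3) ?_
  rw [FlatTangent.zp_natCast, ← FlatTangent.apply_zetaP]
  exact Galois.isFrobeniusAt_apply_rootOfUnity hA hℓ hσ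
    (fun h => hℓ3 ((Nat.prime_dvd_prime_iff_eq hℓ Nat.prime_three).mp h))
    (FlatTangent.zetaP_prim 3).pow_eq_one

variable {W} (hΔ : W.Δ ≠ 0)
include hΔ

theorem trace_twist (σ : GQ) : LinearMap.trace (ZMod 3) (Tors W 3) (twistHom W σ) =
    cyc 3 σ * LinearMap.trace (ZMod 3) (Tors W 3) (rhoTors W 3 σ) :=
  have := hΔ
  map_smul _ _ _

theorem det_twist (σ : GQ) : LinearMap.det (twistHom W σ) = LinearMap.det (rhoTors W 3 σ) := by
  show LinearMap.det (cyc 3 σ • rhoTors W 3 σ) = _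
  rw [LinearMap.det_smul, CondLevel.finrank_tors W hΔ 3, pow_two, cyc_sq, one_mul]

/-- The twisted torsion as an adic representation over `ZMod 3`. -/
def twistRep : GaloisRepAdic (ZMod 3) :=
  haveI := CondLevel.moduleFinite_tors W hΔ 3
  { V := Tors W 3
    finrank_eq := CondLevel.finrank_tors W hΔ 3
    ρ := twistHom W
    isAdicContinuous := fun n => by
      obtain ⟨L₁, hL₁, h₁⟩ := CondLevel.rhoTors_finiteLevel W hΔ (n := 3) (by norm_num)
      have := hL₁
      have : FiniteDimensional ℚ (IntermediateField.adjoin ℚ {FlatTangent.zetaP 3}) :=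
        IntermediateField.adjoin.finiteDimensional
          ((FlatTangent.zetaP_prim 3).isIntegral (by norm_num)).tower_top
      refine ⟨L₁ ⊔ IntermediateField.adjoin ℚ {FlatTangent.zetaP 3},
        IntermediateField.finiteDimensional_sup _ _, fun σ hσ v => ?_⟩
      have hz : cyc 3 σ = 1 := FlatTangent.zp_injective (p := 3) (by
        rw [← FlatTangent.apply_zetaP, FlatTangent.zp_one]
        exact hσ _ ((le_sup_right : _ ≤ L₁ ⊔ _) (IntermediateField.mem_adjoin_simple_self ℚ _)))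
      have h1 := h₁ σ fun x hx => hσ x ((le_sup_left : L₁ ≤ _) hx)
      show (cyc 3 σ • rhoTors W 3 σ) v - v ∈ _
      rw [hz, one_smul, h1, Module.End.one_apply, sub_self]
      exact Submodule.zero_mem _ }

theorem twistRep_residual_absIrr (hirr : W.ModRepIsIrreducible 3) :
    (twistRep hΔ).residual.IsAbsolutelyIrreducible := by
  have := CondLevel.moduleFinite_tors W hΔ 3
  let ι := algebraMap (ZMod 3) (IsLocalRing.ResidueField (ZMod 3))
  have h2 : (2 : IsLocalRing.ResidueField (ZMod 3)) ≠ 0 := fun h =>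
    (by decide : (2 : ZMod 3) ≠ 0) (ι.injective (by rw [map_ofNat, h, map_zero]))
  refine CondLevel.isAbsolutelyIrreducible_of_trace_det h2 ι (CondLevel.finrank_tors W hΔ 3)
    (twistHom W) (fun N hN => hirr.2 N fun σ x hx => ?_) complexConjugation
    complexConjugation_mul_self ?_ (twistRep hΔ).residual
    (fun σ => LinearMap.trace_baseChange _ _) (fun σ => LinearMap.det_baseChange _)
  · have h := N.smul_mem (cyc 3 σ) (hN σ x hx)
    have e : cyc 3 σ • twistHom W σ x = rhoTors W 3 σ x := by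
      show cyc 3 σ • cyc 3 σ • rhoTors W 3 σ x = _
      rw [smul_smul, cyc_sq, one_smul]
    rwa [e] at h
  · rw [det_twist hΔ]
    exact CondLevel.det_rhoTors_involution W hΔ 3 (by norm_num)
      complexConjugation_mul_self CondLevel.complexConjugation_ne_one

/-- The value at `ℓ` of the twisted eigensystem. -/
def twistVal (W : WeierstrassCurve ℤ) (S : Finset ℕ) : AwayHecke S →+* ℤ :=
  MvPolynomial.eval₂Hom (RingHom.id ℤ) fun i : {ℓ : Nat.Primes // (ℓ : ℕ) ∉ S} =>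
    (((i.1 : ℕ) : ℤ)) * W.apOfModel (i.1 : ℕ)

/-- The core of **(c)**: the twisted eigensystem cannot be separated by a torsion level of
`J₀(N)` when the models are flat at `3`. -/
theorem false_of_separating (hW : IsSupersingularThree W) (hirr : W.ModRepIsIrreducible 3)
    {N : ℕ} [NeZero N] (hflat : Flat.JFlatTorsion N 3) (hfrob : JFrobeniusQuadratic N 3)
    (S : Finset ℕ) (h3S : 3 ∈ S) (hNS : ∀ q : ℕ, q.Prime → q ∣ N → q ∈ S)
    (hbadS : ∀ q : ℕ, q.Prime → (q : ℤ) ∣ W.Δ → q ∈ S)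
    (hsep' : ∃ n : ℕ, ∀ r : AwayHecke S,
      (∀ x : JZero N, (3 ^ n) • x = 0 → jHecke N (awayIncl S r) x = 0) →
        (twistVal W S r : ZMod 3) = 0) : False := by
  classical
  have := CondLevel.moduleFinite_tors W hΔ 3
  have hout : ∀ ℓ : ℕ, ℓ.Prime → ℓ ∉ S → W.IsGoodPrimeFor ℓ ∧ ¬ ℓ ∣ N ∧ ℓ ≠ 3 :=
    fun ℓ hℓ hℓS => ⟨fun h => hℓS (hbadS ℓ hℓ h),
      fun h => hℓS (hNS ℓ hℓ h), fun h => hℓS (h ▸ h3S)⟩
  let D := jzeroTower N S 3 h3S Nat.prime_three hNS (Flat.jTorsFiniteLevel_of_flat hflat) hfrob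
  let τ : AwayHecke S →+* ZMod 3 := (Int.castRingHom (ZMod 3)).comp (twistVal W S)
  have hτ : ∀ ℓ : ℕ, ℓ.Prime → ℓ ∉ S → τ (awayGen S ℓ) = (ℓ : ZMod 3) * W.apOfModel ℓ := by
    intro ℓ hℓ hℓS
    rw [awayGen, dif_pos ⟨hℓ, hℓS⟩]
    simp [τ, twistVal]
  have hρ : FrobCompatible (S := S) (a := awayGen S) (twistRep hΔ) τ := by
    intro ℓ hℓ hℓS A hA σ hσ
    obtain ⟨hgood, -, hℓ3⟩ := hout ℓ hℓ hℓS
    obtain ⟨ht, hd⟩ := CondLevel.frobenius_trace_det W hΔ hℓ (p := 3) hℓ3 hgood hA hσ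
    rw [CondLevel.charpoly_eq_of_finrank_two (twistRep hΔ).finrank_eq, hτ ℓ hℓ hℓS]
    show Polynomial.X ^ 2 - C (LinearMap.trace (ZMod 3) (Tors W 3) (twistHom W σ)) * Polynomial.X +
      C (LinearMap.det (twistHom W σ)) = _
    rw [trace_twist hΔ, det_twist hΔ, ht, hd, cyc_frobenius hℓ hℓ3 hA hσ]
  have hsep : D.IsSeparating τ := by
    intro k
    obtain ⟨n, hn⟩ := hsep'
    refine ⟨n, fun r hr => ?_⟩
    have hr0 : τ r = 0 := hn r fun x hx => torsionTower_act_eq_zero (M := JZero N) hr x hx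
    rw [hr0]
    exact Ideal.zero_mem _
  obtain ⟨n, hn⟩ := Flat.exists_level_kills D (twistRep hΔ) τ h3S hρ hsep
    (twistRep_residual_absIrr hΔ hirr) 1
  have hfl : FFG.HasFlatModelAt 3 fun σ (x : D.X n) => D.gal n σ x := hflat n
  have : Finite (D.X n) := FFG.HasFlatModel.finite (K := ℚ) hfl
  have : Finite (Tors W 3) := Module.finite_of_finite (ZMod 3)
  let β : GQ →* Module.End ℤ (Tors W 3) :=
    { toFun := fun g => (twistHom W g).toAddMonoidHom.toIntLinearMap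
      map_one' := by ext; simp
      map_mul' := fun g h => by ext; simp }
  obtain ⟨m, V, hV, f, hf, hfact⟩ := Flat.exists_subquotient (D.gal n) β
    (fun g (y : Tors W 3) => twistHom W g y) (AddMonoidHom.id _) Function.surjective_id
    (fun g v => rfl) (fun c hc v => by
      have h := hn c hc v
      rw [pow_one, IsLocalRing.maximalIdeal_eq_bot, Submodule.bot_smul, Submodule.mem_bot] at h
      show Flat.combo β c v = 0
      refine Eq.trans ?_ h
      simp only [Flat.combo, Finsupp.linearCombination_apply, Finsupp.sum, LinearMap.sum_apply]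
      rfl)
  have hY := (hfl.finPow m).subquotient V hV f hf hfact
  have : Fintype (Tors W 3) := Fintype.ofFinite _
  have : Nontrivial (Tors W 3) := Module.nontrivial_of_finrank_pos (R := ZMod 3)
    (by rw [CondLevel.finrank_tors W hΔ 3]; norm_num)
  obtain ⟨R⟩ := FlatTangent.exists_model_of_hasFlatModel hY
  exact no_flat_twisted_torsion hW R (AddMonoidHom.id _) Function.injective_id
    fun σ _ x => twistHom_apply W σ x


omit hΔ in
theorem twistVal_awayGen {S : Finset ℕ} (ℓ : ℕ) (hℓ : ℓ.Prime) (hℓS : ℓ ∉ S) :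
    twistVal W S (awayGen S ℓ) = (ℓ : ℤ) * W.apOfModel ℓ := by
  rw [awayGen, dif_pos ⟨hℓ, hℓS⟩]
  exact MvPolynomial.eval₂Hom_X' _ _ _

/-- **(c)** No eigenform of level prime to `3` carries the twist of a supersingular curve. -/
theorem false_of_twist_congruence (hW : IsSupersingularThree W) (hirr : W.ModRepIsIrreducible 3)
    {N : ℕ} [NeZero N] (hflat : Flat.JFlatTorsion N 3) (hfrob : JFrobeniusQuadratic N 3)
    {g : CuspForm (CongruenceSubgroup.Gamma0 N) 2} (hg : g.IsNormalizedEigenform)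
    {𝔪 : Ideal (integralClosure ℤ ℂ)} (h𝔪 : 𝔪.IsMaximal)
    (h3 : ((3 : ℕ) : integralClosure ℤ ℂ) ∈ 𝔪)
    (hcong : ∀ ℓ : ℕ, ℓ.Prime → W.IsGoodPrimeFor ℓ → ¬ ℓ ∣ N → ℓ ≠ 3 →
      ∃ a : integralClosure ℤ ℂ, (a : ℂ) = ModularFormClass.qCoeff g ℓ ∧
        a - (((ℓ : ℤ) * W.apOfModel ℓ : ℤ) : integralClosure ℤ ℂ) ∈ 𝔪) : False := by
  classical
  have := CondLevel.moduleFinite_tors W hΔ 3
  set S : Finset ℕ := (3 * N * W.Δ.natAbs).divisors with hSdef
  have hne : 3 * N * W.Δ.natAbs ≠ 0 :=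
    mul_ne_zero (mul_ne_zero (by norm_num) (NeZero.ne N)) (Int.natAbs_ne_zero.mpr hΔ)
  have hS : ∀ ℓ, ℓ ∈ S ↔ ℓ ∣ 3 * N * W.Δ.natAbs := fun ℓ => by simp [hSdef, hne]
  have h3S : 3 ∈ S := (hS 3).mpr (Dvd.intro _ (by rw [mul_assoc]))
  have hNS : ∀ q : ℕ, q.Prime → q ∣ N → q ∈ S := fun q _ hq =>
    (hS q).mpr ((hq.mul_left 3).mul_right _)
  have hbadS : ∀ q : ℕ, q.Prime → (q : ℤ) ∣ W.Δ → q ∈ S := fun q _ h =>
    (hS q).mpr ((Int.natCast_dvd.mp h).mul_left _)
  have hout : ∀ ℓ : ℕ, ℓ.Prime → ℓ ∉ S → W.IsGoodPrimeFor ℓ ∧ ¬ ℓ ∣ N ∧ ℓ ≠ 3 :=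
    fun ℓ hℓ hℓS => ⟨fun h => hℓS (hbadS ℓ hℓ h),
      fun h => hℓS (hNS ℓ hℓ h), fun h => hℓS (h ▸ h3S)⟩
  refine false_of_separating hΔ hW hirr hflat hfrob S h3S hNS hbadS ?_
  obtain ⟨n, hn⟩ := HK.jHeckeFaithful N 3 hNS 1
  refine ⟨n, fun r hr => ?_⟩
  obtain ⟨t, ht⟩ := hn r hr
  let _inst : Field (integralClosure ℤ ℂ ⧸ 𝔪) := Ideal.Quotient.field 𝔪
  have : CharP (integralClosure ℤ ℂ ⧸ 𝔪) 3 :=
    (CharP.charP_iff_prime_eq_zero Nat.prime_three).mpr
      (by rw [← map_natCast (Ideal.Quotient.mk 𝔪)]; exact Ideal.Quotient.eq_zero_iff_mem.mpr h3)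
  let E : AwayHecke S →+* integralClosure ℤ ℂ ⧸ 𝔪 :=
    ((Ideal.Quotient.mk 𝔪).comp (Eigen.eigenCharInt hg (↑S : Set ℕ))).comp (awayEval N S hNS)
  have hEτ : E = (ZMod.castHom (dvd_refl 3) _).comp ((Int.castRingHom (ZMod 3)).comp (twistVal W S)) := by
    refine MvPolynomial.ringHom_ext (fun z => ?_) fun i => ?_
    · rw [show (MvPolynomial.C z : AwayHecke S) = (z : AwayHecke S) from (eq_intCast MvPolynomial.C z)]
      rw [map_intCast, map_intCast]
    · obtain ⟨⟨ℓ, hℓ⟩, hℓS⟩ := i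
      obtain ⟨hgood, hℓN, hℓ3⟩ := hout ℓ hℓ hℓS
      obtain ⟨a, ha, hmem⟩ := hcong ℓ hℓ hgood hℓN hℓ3
      have hgen : (MvPolynomial.X ⟨⟨ℓ, hℓ⟩, hℓS⟩ : AwayHecke S) = awayGen S ℓ := by
        rw [awayGen, dif_pos ⟨hℓ, hℓS⟩]
      rw [hgen, RingHom.comp_apply, RingHom.comp_apply, RingHom.comp_apply,
        awayEval_awayGen N S hNS hℓ hℓN (by simpa using hℓS), Eigen.eigenCharInt_T,
        RingHom.comp_apply,
        twistVal_awayGen ℓ hℓ hℓS, eq_intCast, map_intCast]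
      rw [show Eigen.intCoeff hg ℓ = a from Subtype.ext (by rw [Eigen.coe_intCoeff, ha]),
        Ideal.Quotient.eq.mpr hmem, map_intCast]
  refine (ZMod.castHom (dvd_refl 3) (integralClosure ℤ ℂ ⧸ 𝔪)).injective ?_
  rw [map_zero]
  refine Eq.trans (RingHom.congr_fun hEτ r).symm ?_
  show Ideal.Quotient.mk 𝔪 (Eigen.eigenCharInt hg _ (awayEval N S hNS r)) = 0
  rw [ht, map_nsmul, map_nsmul, nsmul_eq_mul, pow_one, CharP.cast_eq_zero, zero_mul]

end Fermat.Agent.LT.FlatTwist
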