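import Fermat.Agent.FlatTangent.Ops

/-!
# No flat model carries the twisted supersingular inertia shape at `3`

`ω = tchar 3 8 σ` is a primitive eighth root of unity. A module killed by `3` on which tame inertia
acts through eighth roots with `σ² + s σ - 1 = 0`, `s ≡ ω + ω³`, has characters of exponents `5, 7`,
while a finite flat model only allows exponents of valuation at most `1 / 2`.
-/

set_option autoImplicit false

noncomputable section

namespace Fermat.Agent.LT.FlatTwist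

open Fermat.Agent.FlatTangent

local instance : Fact (Nat.Prime 3) := ⟨Nat.prime_three⟩

theorem pow_four_of_primitive {ω : Qb} (h : IsPrimitiveRoot ω 8) : ω ^ 4 = -1 := by
  have h1 : (ω ^ 4) * (ω ^ 4) = 1 := by rw [← pow_add]; exact h.pow_eq_one
  rcases mul_self_eq_one_iff.mp h1 with h2 | h2
  · exact absurd h2 (h.pow_ne_one_of_pos_of_lt (by norm_num) (by norm_num))
  · exact h2

/-- Distinct eighth roots of unity have a unit difference. -/
theorem veq_pow_add {ω : Qb} (h : IsPrimitiveRoot ω 8) {j k : ℕ} (hjk : j % 8 ≠ (k + 4) % 8) :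
    VEQ 3 0 (ω ^ j + ω ^ k) := by
  have e : ω ^ j + ω ^ k = ω ^ j - ω ^ (k + 4) := by
    rw [pow_add ω k 4, pow_four_of_primitive h]; ring
  rw [e]
  have hv : ∀ m : ℕ, (ω ^ m) ^ 8 = 1 := fun m => by
    rw [← pow_mul, mul_comm, pow_mul, h.pow_eq_one, one_pow]
  have hle : VGE 3 0 (ω ^ j - ω ^ (k + 4)) :=
    ((veq_zero_of_pow_eq_one (by norm_num) (hv j)).vge).sub
      (veq_zero_of_pow_eq_one (by norm_num) (hv (k + 4))).vge
  refine le_antisymm hle ?_
  by_contra hlt
  rw [not_le] at hlt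
  have heq := eq_of_vgt (p := 3) (m := 8) (by norm_num) (hv j) (hv (k + 4)) hlt
  have hpos : ω ≠ 0 := h.ne_zero (by norm_num)
  refine hjk (h.pow_inj (Nat.mod_lt _ (by norm_num)) (Nat.mod_lt _ (by norm_num)) ?_)
  have hmod : ∀ m : ℕ, ω ^ (m % 8) = ω ^ m := fun m => by
    conv_rhs => rw [← Nat.mod_add_div m 8, pow_add, pow_mul, h.pow_eq_one, one_pow, mul_one]
  rw [hmod, hmod, heq]

theorem intCast_zmod_ne_zero {σ : Gal} (hω : IsPrimitiveRoot (tchar 3 8 σ) 8) {s : ℤ}
    (hs : VGT 3 0 ((s : Qb) - (tchar 3 8 σ + tchar 3 8 σ ^ 3))) : (s : ZMod 3) ≠ 0 := by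
  intro h0
  have hd : ((3 : ℕ) : ℤ) ∣ s := (ZMod.intCast_zmod_eq_zero_iff_dvd s 3).mp h0
  obtain ⟨t, rfl⟩ := hd
  have h1 : VGT 3 0 ((((3 : ℕ) : ℤ) * t : ℤ) : Qb) := by
    push_cast
    have := ((veq_cast_self (p := 3)).vge.mul (vge_intCast (p := 3) t)).vgt (d := 0) (by norm_num)
    simpa using this
  have h2 := h1.sub hs
  rw [sub_sub_cancel] at h2
  have h3 : VEQ 3 0 (tchar 3 8 σ ^ 1 + tchar 3 8 σ ^ 3) := veq_pow_add hω (by norm_num)
  rw [pow_one] at h3
  exact lt_irrefl _ (h3.lt_of_vgt h2)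

/-- **The twisted supersingular shape has no flat model.** -/
theorem no_flat_twist {M : Type} [AddCommGroup M] [Fintype M] [DecidableEq M] [Module (ZMod 3) M]
    [Nontrivial M] {act : Gal → M → M} (R : Model 3 M act)
    (hK : ∀ σ ∈ Kn 3 8, ∀ x, act σ x = x) {σ : Gal} (hσ : σ ∈ inert 3)
    (hω : IsPrimitiveRoot (tchar 3 8 σ) 8) {s : ℤ}
    (hs : VGT 3 0 ((s : Qb) - (tchar 3 8 σ + tchar 3 8 σ ^ 3)))
    (hrel : ∀ x, act σ (act σ x) + s • act σ x - x = 0) : False := by
  classical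
  set ω := tchar 3 8 σ with hωdef
  have hA := R.isAct
  -- no fixed points, hence everything is connected
  have hinj : Function.Injective fun x => act σ x - x := by
    intro x y hxy
    simp only at hxy
    rw [← sub_eq_zero]
    have hfix : act σ (x - y) = x - y := by
      rw [hA.map_sub hσ]
      calc act σ x - act σ y = (act σ x - x) - (act σ y - y) + (x - y) := by abel
        _ = x - y := by rw [hxy, sub_self, zero_add]
    have h1 := hrel (x - y)
    rw [hfix, hfix, add_sub_cancel_left, ← Int.cast_smul_eq_zsmul (ZMod 3)] at h1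
    exact (smul_eq_zero.mp h1).resolve_left (intCast_zmod_ne_zero hω hs)
  have hconn : ∀ x, R.Conn x := fun x => by
    obtain ⟨y, rfl⟩ := Finite.surjective_of_injective hinj x
    exact R.conn_act_sub hσ y
  -- the smallest valuation of a difference
  let d : M → M → Qb := fun i x => R.E i x - R.E i 0
  obtain ⟨h, hh⟩ := exists_ne (0 : M)
  obtain ⟨i₁, hi₁⟩ := R.exists_not_vgt_diff hh 0
  rw [zero_add] at hi₁
  obtain ⟨⟨i₀, x₀⟩, -, hmax⟩ := Finset.exists_max_image (Finset.univ : Finset (M × M))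
    (fun q => nrm 3 (d q.1 q.2)) ⟨(0, 0), Finset.mem_univ _⟩
  have hge : ¬ VGT 3 (1 / (((3 : ℕ) : ℝ) - 1)) (d i₀ x₀) := fun hlt =>
    hi₁ (lt_of_le_of_lt (hmax (i₁, h) (Finset.mem_univ _)) hlt)
  have hd0 : d i₀ x₀ ≠ 0 := fun hz => hge (by rw [hz]; exact vgt_zero _)
  have hK' : InK 3 8 (d i₀ x₀) := fun τ hτ => by
    have hτi := (mem_Kn.mp hτ).1
    simp only [d, map_sub, ← R.equiv i₀ τ hτi, hK τ hτ]
  obtain ⟨jz, hA₀⟩ := hK'.exists_veq (by norm_num) hd0
  have hlo : (0 : ℝ) < (jz : ℝ) / (8 : ℕ) := hA₀.lt_of_vgt (hconn x₀ i₀)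
  have hhi : (jz : ℝ) / (8 : ℕ) ≤ 1 / (((3 : ℕ) : ℝ) - 1) := by
    by_contra hc
    exact hge (hA₀.vge.vgt (not_le.mp hc))
  norm_num at hlo hhi
  obtain ⟨j, rfl⟩ : ∃ j : ℕ, jz = j :=
    ⟨jz.toNat, (Int.toNat_of_nonneg (by exact_mod_cast hlo.le)).symm⟩
  have hj1 : 1 ≤ j := by
    have : 0 < j := by exact_mod_cast hlo
    omega
  have hj4 : j ≤ 4 := by
    have : (j : ℝ) ≤ 4 := by push_cast at hhi; linarith
    exact_mod_cast this
  set r : ℝ := ((j : ℤ) : ℝ) / (8 : ℕ) with hr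
  have hr0 : 0 < r := by
    rw [hr]; have : (1 : ℝ) ≤ j := by exact_mod_cast hj1
    push_cast; positivity
  have hall : ∀ i x, VGE 3 r (R.E i x - R.E i 0) := fun i x =>
    le_trans (hmax (i, x) (Finset.mem_univ _)) (le_of_eq hA₀)
  -- the coordinate
  let f : M → Qb := fun x => d i₀ x
  have hf : InSpan 3 R.E f :=
    (inSpan_row (p := 3) (G := R.E) i₀).sub (R.inSpan_const (R.integral i₀ 0))
  have hf0 : f 0 = 0 := sub_self _
  have hadd : ∀ x y, VGT 3 r (f (x + y) - f x - f y) := fun x y =>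
    (R.vge_defect (fun i => hall i x) (fun i => hall i y) hf hf0).vgt (by linarith)
  have hzs : ∀ (n : ℤ) (y : M), VGT 3 r (f (n • y) - n * f y) := by
    intro n y
    induction n using Int.induction_on with
    | zero => simpa [hf0] using vgt_zero (p := 3) r
    | succ m ih =>
      have h2 := (hadd ((m : ℤ) • y) y).add ih
      rw [add_zsmul, one_zsmul]
      convert h2 using 1
      push_cast; ring
    | pred m ih =>
      have h2 := ih.sub (hadd ((-(m : ℤ) - 1) • y) y)
      have e : (-(m : ℤ) - 1) • y + y = (-(m : ℤ)) • y := by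
        rw [sub_zsmul, one_zsmul]; abel
      rw [e] at h2
      convert h2 using 1
      push_cast; ring
  have hω8 : ω ^ 8 = 1 := tchar_pow (by norm_num) σ
  have hωu : InU 3 ω := inU_tchar (by norm_num) σ
  have hgal : ∀ a : Qb, VGE 3 r a → VGT 3 r (σ a - ω ^ j * a) := by
    intro a ha
    obtain ⟨u, hu, -, hlt⟩ := InK.exists_leading (p := 3) (n := 8) (by norm_num) (j := (j : ℤ)) ha
    have h1 := (hlt.dec (inert_le_dec hσ)).sub
      ((veq_zero_of_pow_eq_one (p := 3) (by norm_num) hω8).pow j |>.vge.mul_vgt hlt |>.mono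
        (by simp))
    convert h1 using 1
    rw [map_sub, map_mul, hu σ hσ, zpow_natCast, map_pow, tchar_mul_piRoot (by norm_num), mul_pow,
      ← hωdef]
    ring
  have hfσ : ∀ x, f (act σ x) = σ (f x) := fun x => by
    simp only [f, d, map_sub, R.equiv i₀ σ hσ, R.inU_apply_zero (R.equiv i₀) σ hσ]
  have hωj : VGE 3 0 (ω ^ j) := by
    simpa using (veq_zero_of_pow_eq_one (p := 3) (by norm_num) hω8).vge.pow j
  have hf1 : ∀ x, VGT 3 r (f (act σ x) - ω ^ j * f x) := fun x => by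
    rw [hfσ]; exact hgal _ (hall i₀ x)
  set A := f x₀ with hAdef
  have hAv : VEQ 3 r A := hA₀
  have h2 : VGT 3 r (f (act σ (act σ x₀)) - ω ^ j * (ω ^ j * A)) := by
    have := (hf1 (act σ x₀)).add ((hωj.mul_vgt (hf1 x₀)).mono (by simp))
    convert this using 1
    rw [← hAdef]; ring
  have hsum : act σ (act σ x₀) + s • act σ x₀ = x₀ := sub_eq_zero.mp (hrel x₀)
  have h3 : VGT 3 r (A - f (act σ (act σ x₀)) - f (s • act σ x₀)) := by
    have := hadd (act σ (act σ x₀)) (s • act σ x₀)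
    rwa [hsum] at this
  have h4 : VGT 3 r ((ω ^ j * ω ^ j + s * ω ^ j - 1) * A) := by
    have h5 := hzs s (act σ x₀)
    have h6 := ((vge_intCast (p := 3) s).mul_vgt (hf1 x₀)).mono (le_of_eq (zero_add r).symm)
    have := ((h3.add h2).add (h5.add h6)).neg
    convert this using 1
    rw [← hAdef]; ring
  have h7 : VGT 3 0 (ω ^ j * ω ^ j + s * ω ^ j - 1) := by
    have := h4.div hAv
    rwa [sub_self, mul_div_assoc, div_self hAv.ne_zero, mul_one] at this
  have h8 : VGT 3 0 ((ω ^ j + ω) * (ω ^ j + ω ^ 3)) := by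
    have h9 := h7.sub ((hs.mul_vge hωj).mono (by simp))
    convert h9 using 1
    have h4' := pow_four_of_primitive hω
    linear_combination h4'
  have h10 : VEQ 3 0 ((ω ^ j + ω) * (ω ^ j + ω ^ 3)) := by
    have ha : VEQ 3 0 (ω ^ j + ω ^ 1) := veq_pow_add hω (by omega)
    have hb : VEQ 3 0 (ω ^ j + ω ^ 3) := veq_pow_add hω (by omega)
    rw [pow_one] at ha
    simpa using ha.mul hb
  exact lt_irrefl _ (h10.lt_of_vgt h8)

end Fermat.Agent.LT.FlatTwist
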